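/-
Programme DS (S48), brick W1-CONJ-GLUE, part 2 (helper2): toolkit for forms on `Γ₁(M)`.

* `Gamma1_le_of_dvd`, `map_Gamma1_le_of_dvd` : `Γ₁(M) ≤ Γ₁(N)` for `N ∣ M`;
* `restrictCusp`, `restrictMod` : restriction of a cusp / modular form to a smaller arithmetic group;
* `Good F` : `F` is `1`-periodic, holomorphic and bounded at `i∞`; forms on `Γ₁(M)` are good,
  good functions are determined by their `q`-expansions (`Good.eq_of_qExpansion_eq`) and
  `q`-expansions of products of good functions multiply (`Good.qExpansion_mul`).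
-/
import Mathlib
import Fermat.Agent.DS.Rankin.CuspBound

set_option autoImplicit false

open Complex Filter Topology Set Function CongruenceSubgroup
open UpperHalfPlane hiding I
open scoped Manifold MatrixGroups

namespace Fermat.Agent.DS.W1.Forms

open Fermat.Agent.DS.Rankin.CuspBound

/-! ### Levels -/

theorem Gamma1_le_of_dvd {M N : ℕ} (h : N ∣ M) : Gamma1 M ≤ Gamma1 N := by
  intro A hA
  rw [Gamma1_mem] at hA ⊢
  have key : ∀ (x c : ℤ), ((x : ZMod M) = (c : ZMod M)) → ((x : ZMod N) = (c : ZMod N)) := by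
    intro x c hx
    have := congrArg (ZMod.castHom h (ZMod N)) hx
    simpa using this
  refine ⟨?_, ?_, ?_⟩
  · simpa using key _ 1 (by simpa using hA.1)
  · simpa using key _ 1 (by simpa using hA.2.1)
  · simpa using key _ 0 (by simpa using hA.2.2)

theorem map_Gamma1_le_of_dvd {M N : ℕ} (h : N ∣ M) :
    ((Gamma1 M : Subgroup SL(2, ℤ)) : Subgroup (GL (Fin 2) ℝ)) ≤
      ((Gamma1 N : Subgroup SL(2, ℤ)) : Subgroup (GL (Fin 2) ℝ)) :=
  Subgroup.map_mono (Gamma1_le_of_dvd h)

/-! ### Restriction to a smaller group -/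

section Restrict

variable {Γ Γ' : Subgroup (GL (Fin 2) ℝ)} [Γ.IsArithmetic] [Γ'.IsArithmetic] {k : ℤ}

/-- Restriction of a cusp form to a smaller arithmetic group. -/
def restrictCusp (h : Γ' ≤ Γ) (f : CuspForm Γ k) : CuspForm Γ' k where
  toFun := f
  slash_action_eq' A hA := f.slash_action_eq' A (h hA)
  holo' := f.holo'
  zero_at_cusps' hc := f.zero_at_cusps' (by
    rw [Subgroup.IsArithmetic.isCusp_iff_isCusp_SL2Z] at hc ⊢; exact hc)

@[simp] theorem restrictCusp_apply (h : Γ' ≤ Γ) (f : CuspForm Γ k) (τ : ℍ) :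
    restrictCusp h f τ = f τ := rfl

theorem coe_restrictCusp (h : Γ' ≤ Γ) (f : CuspForm Γ k) :
    (restrictCusp h f : ℍ → ℂ) = f := rfl

/-- Restriction of a modular form to a smaller arithmetic group. -/
def restrictMod (h : Γ' ≤ Γ) (f : ModularForm Γ k) : ModularForm Γ' k where
  toFun := f
  slash_action_eq' A hA := f.slash_action_eq' A (h hA)
  holo' := f.holo'
  bdd_at_cusps' hc := f.bdd_at_cusps' (by
    rw [Subgroup.IsArithmetic.isCusp_iff_isCusp_SL2Z] at hc ⊢; exact hc)

theorem coe_restrictMod (h : Γ' ≤ Γ) (f : ModularForm Γ k) :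
    (restrictMod h f : ℍ → ℂ) = f := rfl

end Restrict

/-! ### Good functions -/

/-- `1`-periodic, holomorphic, bounded at `i∞`. -/
structure Good (F : ℍ → ℂ) : Prop where
  per : Periodic (F ∘ ofComplex) 1
  hol : MDiff F
  bdd : IsBoundedAtImInfty F

theorem Good.analyticAt {F : ℍ → ℂ} (hF : Good F) : AnalyticAt ℂ (cuspFunction 1 F) 0 :=
  analyticAt_cuspFunction_zero one_pos hF.per hF.hol hF.bdd

theorem Good.qExpansion_mul {F G : ℍ → ℂ} (hF : Good F) (hG : Good G) :
    qExpansion 1 (F * G) = qExpansion 1 F * qExpansion 1 G :=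
  UpperHalfPlane.qExpansion_mul hF.analyticAt hG.analyticAt

theorem Good.eq_of_qExpansion_eq {F G : ℍ → ℂ} (hF : Good F) (hG : Good G)
    (h : qExpansion 1 F = qExpansion 1 G) : F = G := by
  funext τ
  have h1 := hasSum_qExpansion one_pos hF.per hF.hol hF.bdd τ
  have h2 := hasSum_qExpansion one_pos hG.per hG.hol hG.bdd τ
  rw [h] at h1
  exact h1.unique h2

theorem Good.qExpansion_ne_zero {F : ℍ → ℂ} (hF : Good F) (h : F ≠ 0) : qExpansion 1 F ≠ 0 :=
  fun h0 => h ((qExpansion_eq_zero_iff one_pos hF.per hF.hol hF.bdd).mp h0)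

/-- Forms on `Γ₁(M)` are good. -/
theorem good_of_form {M : ℕ} [NeZero M] {k : ℤ} {F : Type*} [FunLike F ℍ ℂ]
    [ModularFormClass F ((Gamma1 M : Subgroup SL(2, ℤ)) : Subgroup (GL (Fin 2) ℝ)) k] (f : F) :
    Good (f : ℍ → ℂ) where
  per := SlashInvariantFormClass.periodic_comp_ofComplex f (one_mem_strictPeriods_Gamma1 M)
  hol := ModularFormClass.holo f
  bdd := ModularFormClass.bdd_at_infty f

end Fermat.Agent.DS.W1.Forms
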