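/-
Programme DS (S48), brick W1-CONJ-GLUE, part 1 (helper2): the analytic core.

If `g₁, g₂, a` are holomorphic on a connected open set `U ⊆ ℂ`, `a` is not identically zero on `U`
and `g₁ ^ 2 = g₂ * a ^ 2` on `U`, then `g₁ / a` extends to a holomorphic function `h` on `U`
(`h * a = g₁`): the singularities at the zeros of `a` are removable because `‖g₁ / a‖ ^ 2 = ‖g₂‖`
is locally bounded.  `exists_mdiff_mul_eq` is the version on the upper half plane.
-/
import Mathlib

set_option autoImplicit false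

open Complex Filter Topology Set Function
open UpperHalfPlane hiding I
open scoped Manifold

namespace Fermat.Agent.DS.W1.Removable

theorem exists_differentiableOn_mul_eq {U : Set ℂ} (hU : IsOpen U) (hconn : IsPreconnected U)
    {g₁ g₂ a : ℂ → ℂ} (hg₁ : DifferentiableOn ℂ g₁ U) (hg₂ : DifferentiableOn ℂ g₂ U)
    (ha : DifferentiableOn ℂ a U) (hne : ∃ z ∈ U, a z ≠ 0)
    (hsq : ∀ z ∈ U, g₁ z ^ 2 = g₂ z * a z ^ 2) :
    ∃ h : ℂ → ℂ, DifferentiableOn ℂ h U ∧ ∀ z ∈ U, h z * a z = g₁ z := by
  classical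
  set q : ℂ → ℂ := fun z => g₁ z / a z with hq
  set h : ℂ → ℂ := fun z => if a z = 0 then limUnder (𝓝[≠] z) q else q z with hh
  have haan : AnalyticOnNhd ℂ a U := ha.analyticOnNhd hU
  refine ⟨h, ?_, ?_⟩
  · intro z₀ hz₀
    refine DifferentiableAt.differentiableWithinAt ?_
    by_cases h0 : a z₀ = 0
    · -- a zero of `a`: removable singularity
      have hev : ∀ᶠ z in 𝓝[≠] z₀, a z ≠ 0 := by
        rcases (haan z₀ hz₀).eventually_eq_zero_or_eventually_ne_zero with h1 | h1
        · exfalso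
          obtain ⟨w, hw, hw0⟩ := hne
          exact hw0 (haan.eqOn_zero_of_preconnected_of_eventuallyEq_zero hconn hz₀ h1 hw)
        · exact h1
      have hg₂c : ContinuousAt g₂ z₀ := (hg₂.differentiableAt (hU.mem_nhds hz₀)).continuousAt
      have hbd : ∀ᶠ z in 𝓝 z₀, ‖g₂ z‖ < ‖g₂ z₀‖ + 1 :=
        hg₂c.norm.eventually (gt_mem_nhds (lt_add_one _))
      rw [eventually_nhdsWithin_iff] at hev
      obtain ⟨r, hr, hball⟩ := Metric.eventually_nhds_iff_ball.mp
        ((hev.and hbd).and (hU.mem_nhds hz₀))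
      have hs : Metric.ball z₀ r ∈ 𝓝 z₀ := Metric.ball_mem_nhds z₀ hr
      have hd : DifferentiableOn ℂ q (Metric.ball z₀ r \ {z₀}) := by
        intro z hz
        have hzU : z ∈ U := (hball z hz.1).2
        have hz0 : a z ≠ 0 := (hball z hz.1).1.1 hz.2
        exact ((hg₁ z hzU).div (ha z hzU) hz0).mono fun w hw => (hball w hw.1).2
      have hb : BddAbove (norm ∘ q '' (Metric.ball z₀ r \ {z₀})) := by
        refine ⟨Real.sqrt (‖g₂ z₀‖ + 1), ?_⟩
        rintro _ ⟨z, hz, rfl⟩
        have hzU : z ∈ U := (hball z hz.1).2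
        have hz0 : a z ≠ 0 := (hball z hz.1).1.1 hz.2
        have h1 : ‖q z‖ ^ 2 = ‖g₂ z‖ := by
          have : q z ^ 2 = g₂ z := by
            rw [hq]; simp only
            rw [div_pow, hsq z hzU, mul_div_assoc, div_self (pow_ne_zero 2 hz0), mul_one]
          rw [← norm_pow, this]
        simp only [comp_apply]
        rw [← Real.sqrt_sq (norm_nonneg (q z)), h1]
        exact Real.sqrt_le_sqrt (hball z hz.1).1.2.le
      have hdiff := differentiableOn_update_limUnder_of_bddAbove hs hd hb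
      have heq : ∀ z ∈ Metric.ball z₀ r, h z = update q z₀ (limUnder (𝓝[≠] z₀) q) z := by
        intro z hz
        by_cases hzz : z = z₀
        · subst hzz
          simp only [hh, if_pos h0, update_self]
        · have hz0 : a z ≠ 0 := (hball z hz).1.1 hzz
          simp only [hh, if_neg hz0, update_of_ne hzz]
      have := (hdiff z₀ (Metric.mem_ball_self hr)).differentiableAt hs
      exact this.congr_of_eventuallyEq (eventually_of_mem hs heq)
    · -- `a z₀ ≠ 0`
      have hac : ContinuousAt a z₀ := (ha.differentiableAt (hU.mem_nhds hz₀)).continuousAt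
      have hev : ∀ᶠ z in 𝓝 z₀, a z ≠ 0 := hac.eventually_ne h0
      have hqd : DifferentiableAt ℂ q z₀ :=
        (hg₁.differentiableAt (hU.mem_nhds hz₀)).div (ha.differentiableAt (hU.mem_nhds hz₀)) h0
      refine hqd.congr_of_eventuallyEq ?_
      filter_upwards [hev] with z hz
      simp only [hh, if_neg hz]
  · intro z hz
    by_cases h0 : a z = 0
    · have : g₁ z ^ 2 = 0 := by rw [hsq z hz, h0]; ring
      rw [h0, mul_zero, eq_comm]
      exact pow_eq_zero_iff (two_ne_zero) |>.mp this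
    · simp only [hh, if_neg h0, hq]
      exact div_mul_cancel₀ _ h0

/-- The version on the upper half plane. -/
theorem exists_mdiff_mul_eq {G₁ G₂ A : ℍ → ℂ} (hG₁ : MDiff G₁) (hG₂ : MDiff G₂) (hA : MDiff A)
    (hA0 : A ≠ 0) (hsq : ∀ τ : ℍ, G₁ τ ^ 2 = G₂ τ * A τ ^ 2) :
    ∃ H : ℍ → ℂ, MDiff H ∧ ∀ τ : ℍ, H τ * A τ = G₁ τ := by
  have hconn : IsPreconnected {z : ℂ | 0 < z.im} :=
    (Complex.isConnected_of_upperHalfPlane subset_rfl (by grind)).isPreconnected
  have hne : ∃ z ∈ {z : ℂ | 0 < z.im}, (A ∘ ofComplex) z ≠ 0 := by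
    by_contra hcon
    push Not at hcon
    apply hA0
    funext τ
    have := hcon (τ : ℂ) τ.im_pos
    simpa [ofComplex_apply] using this
  obtain ⟨h, hh, hmul⟩ := exists_differentiableOn_mul_eq isOpen_upperHalfPlaneSet hconn
    (mdifferentiable_iff.mp hG₁) (mdifferentiable_iff.mp hG₂) (mdifferentiable_iff.mp hA) hne
    (fun z hz => by
      simp only [comp_apply]
      exact hsq _)
  refine ⟨fun τ => h τ, ?_, fun τ => ?_⟩
  · rw [mdifferentiable_iff]
    refine hh.congr fun z hz => ?_
    simp only [comp_apply, ofComplex_apply_of_im_pos hz]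
  · have := hmul (τ : ℂ) τ.im_pos
    simpa [ofComplex_apply] using this

end Fermat.Agent.DS.W1.Removable
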