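/-
Programme DS (S48), W1-LIFT plan v2, brick W2-AUX (helper11): integral weight one forms with
constant term `1` on `Γ₁(3)` and `Γ₁(7)`.

`auxInt h c := c • eisQuad h` (`ℓ ≡ 3 mod 4` prime); for `ℓ = 7`, `c = 2` and for `ℓ = 3`, `c = 6`
all `q`-coefficients are integers and the constant term is `1`:
  `A₇ = 1 + 2 Σ_{n ≥ 1} (Σ_{d ∣ n} (d/7)) qⁿ`,  `A₃ = 1 + 6 Σ_{n ≥ 1} (Σ_{d ∣ n} (d/3)) qⁿ`.
Also the nebentypus law (slash form and `diamondMod` form) with the quadratic character.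
-/
import Mathlib
import Fermat.Agent.DS.Eis1.Quad
import Fermat.Agent.DS.Hecke1.Extras
import Fermat.Agent.DS.Neb.Vp

set_option autoImplicit false
set_option linter.unusedSectionVars false

open Matrix.SpecialLinearGroup UpperHalfPlane CongruenceSubgroup ModularForm
open scoped MatrixGroups ModularForm OnePoint Manifold

namespace Fermat.Agent.DS.W1.AuxInt11

open Fermat.Agent.DS.W1.Forms Fermat.Agent.DS.Hecke1.Cosets Fermat.Agent.DS.Hecke1.Diamond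
open Fermat.Agent.DS.Hecke1.Extras Fermat.Agent.DS.Eis1.Quad Fermat.Agent.DS.Eis1.MF
open Fermat.Agent.DS.Neb.Vp ModularFormClass

noncomputable section

local notation "Γ1(" n ")" => ((Gamma1 n : Subgroup SL(2, ℤ)) : Subgroup (GL (Fin 2) ℝ))

section General

variable {ℓ : ℕ} [hp : Fact ℓ.Prime]

/-- A multiple of the quadratic Eisenstein series of weight one. -/
def auxInt (h : ℓ % 4 = 3) (c : ℂ) : ModularForm Γ1(ℓ) 1 := c • eisQuad h

theorem coe_auxInt (h : ℓ % 4 = 3) (c : ℂ) :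
    (auxInt h c : ℍ → ℂ) = c • (eisQuad h : ℍ → ℂ) := rfl

theorem qCoeff_auxInt (h : ℓ % 4 = 3) (c : ℂ) (n : ℕ) :
    qCoeff (auxInt h c) n = c * qCoeff (eisQuad h) n := by
  rw [coe_auxInt, qCoeff_smul (good_of_form (eisQuad h))]

theorem qCoeff_eisQuad_zero (h : ℓ % 4 = 3) :
    qCoeff (eisQuad h) 0 = -(∑ b ∈ Finset.range ℓ, (b : ℂ) * quadChar ℓ (b : ZMod ℓ)) / (2 * ℓ) :=
  qExpansion_coeff_eisMF_zero (quadChar_odd h)

theorem qCoeff_eisQuad_pos (h : ℓ % 4 = 3) {n : ℕ} (hn : n ≠ 0) :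
    qCoeff (eisQuad h) n = ((∑ d ∈ n.divisors, quadraticChar (ZMod ℓ) (d : ZMod ℓ) : ℤ) : ℂ) := by
  have h1 : qCoeff (eisQuad h) n = ∑ d ∈ n.divisors, quadChar ℓ (d : ZMod ℓ) :=
    qExpansion_coeff_eisMF_pos (quadChar_odd h) hn
  rw [h1]
  push_cast
  exact Finset.sum_congr rfl fun d _ => quadChar_apply ℓ _

/-- If `c` is an integer, the higher coefficients of `c • eisQuad` are integers. -/
theorem qCoeff_auxInt_pos_mem (h : ℓ % 4 = 3) (c : ℤ) {n : ℕ} (hn : n ≠ 0) :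
    qCoeff (auxInt h (c : ℂ)) n ∈ Set.range (Int.cast : ℤ → ℂ) := by
  rw [qCoeff_auxInt, qCoeff_eisQuad_pos h hn]
  exact ⟨c * ∑ d ∈ n.divisors, quadraticChar (ZMod ℓ) (d : ZMod ℓ), by push_cast; rfl⟩

/-- Nebentypus law, slash form. -/
theorem auxInt_slash (h : ℓ % 4 = 3) (c : ℂ) {γ : SL(2, ℤ)} (hγ : γ ∈ Gamma0 ℓ) :
    (auxInt h c : ℍ → ℂ) ∣[(1 : ℤ)] γ = quadChar ℓ (lr ℓ γ) • (auxInt h c : ℍ → ℂ) := by
  rw [coe_auxInt, ModularForm.SL_smul_slash, eisQuad_slash_Gamma0 h hγ, smul_comm]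
  rfl

/-- Nebentypus law, `diamondMod` form. -/
theorem diamondMod_auxInt (h : ℓ % 4 = 3) (c : ℂ) (d : (ZMod ℓ)ˣ) :
    diamondMod d (auxInt h c) = quadChar ℓ (d : ZMod ℓ) • auxInt h c := by
  apply DFunLike.coe_injective
  rw [coe_diamondMod d (lift_mem d) (lr_lift d), auxInt_slash h c (lift_mem d), lr_lift]
  rfl

theorem auxInt_ne_zero (h : ℓ % 4 = 3) {c : ℂ} (hc : c ≠ 0) : auxInt h c ≠ 0 := by
  intro h0
  have h1 : qCoeff (auxInt h c) 1 = c := by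
    rw [qCoeff_auxInt]
    have : qCoeff (eisQuad h) 1 = 1 := eisQuad_coeff_one h
    rw [this, mul_one]
  rw [h0] at h1
  have hz : ((0 : ModularForm Γ1(ℓ) 1) : ℍ → ℂ) = 0 := rfl
  rw [hz] at h1
  unfold qCoeff at h1
  rw [UpperHalfPlane.qExpansion_zero, map_zero] at h1
  exact hc h1.symm

end General

/-! ### Level 7 -/

instance fact_prime_seven : Fact (Nat.Prime 7) := ⟨by norm_num⟩

theorem quadraticChar_seven (b : ZMod 7) :
    quadraticChar (ZMod 7) b =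
      if b = 0 then 0 else if b = 1 ∨ b = 2 ∨ b = 4 then 1 else -1 := by
  revert b; decide

/-- `A₇ = 2 • eisQuad`. -/
def auxSeven : ModularForm Γ1(7) 1 := auxInt (ℓ := 7) (by norm_num) 2

theorem qCoeff_auxSeven_zero : qCoeff auxSeven 0 = 1 := by
  rw [auxSeven, qCoeff_auxInt, qCoeff_eisQuad_zero]
  simp only [Finset.sum_range_succ, Finset.sum_range_zero, quadChar_apply, quadraticChar_seven]
  have e0 : ((0 : ℕ) : ZMod 7) = 0 := by decide
  have e1 : ((1 : ℕ) : ZMod 7) = 1 := by decide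
  have e2 : ((2 : ℕ) : ZMod 7) = 2 := by decide
  have e3 : ((3 : ℕ) : ZMod 7) = 3 := by decide
  have e4 : ((4 : ℕ) : ZMod 7) = 4 := by decide
  have e5 : ((5 : ℕ) : ZMod 7) = 5 := by decide
  have e6 : ((6 : ℕ) : ZMod 7) = 6 := by decide
  rw [e0, e1, e2, e3, e4, e5, e6]
  have d0 : ((0 : ZMod 7) = 0) := rfl
  have d3 : ¬ ((3 : ZMod 7) = 0) := by decide
  have d3' : ¬ ((3 : ZMod 7) = 1 ∨ (3 : ZMod 7) = 2 ∨ (3 : ZMod 7) = 4) := by decide
  have d5 : ¬ ((5 : ZMod 7) = 0) := by decide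
  have d5' : ¬ ((5 : ZMod 7) = 1 ∨ (5 : ZMod 7) = 2 ∨ (5 : ZMod 7) = 4) := by decide
  have d6 : ¬ ((6 : ZMod 7) = 0) := by decide
  have d6' : ¬ ((6 : ZMod 7) = 1 ∨ (6 : ZMod 7) = 2 ∨ (6 : ZMod 7) = 4) := by decide
  have d1 : ¬ ((1 : ZMod 7) = 0) := by decide
  have d1' : ((1 : ZMod 7) = 1 ∨ (1 : ZMod 7) = 2 ∨ (1 : ZMod 7) = 4) := by decide
  have d2 : ¬ ((2 : ZMod 7) = 0) := by decide
  have d2' : ((2 : ZMod 7) = 1 ∨ (2 : ZMod 7) = 2 ∨ (2 : ZMod 7) = 4) := by decide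
  have d4 : ¬ ((4 : ZMod 7) = 0) := by decide
  have d4' : ((4 : ZMod 7) = 1 ∨ (4 : ZMod 7) = 2 ∨ (4 : ZMod 7) = 4) := by decide
  rw [if_pos d0, if_neg d1, if_pos d1', if_neg d2, if_pos d2', if_neg d3, if_neg d3', if_neg d4,
    if_pos d4', if_neg d5, if_neg d5', if_neg d6, if_neg d6']
  norm_num

theorem qCoeff_auxSeven_mem (n : ℕ) : qCoeff auxSeven n ∈ Set.range (Int.cast : ℤ → ℂ) := by
  by_cases hn : n = 0
  · subst hn
    exact ⟨1, by rw [qCoeff_auxSeven_zero]; norm_num⟩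
  · have := qCoeff_auxInt_pos_mem (ℓ := 7) (by norm_num) 2 hn
    simpa [auxSeven] using this

theorem auxSeven_slash {γ : SL(2, ℤ)} (hγ : γ ∈ Gamma0 7) :
    (auxSeven : ℍ → ℂ) ∣[(1 : ℤ)] γ = quadChar 7 (lr 7 γ) • (auxSeven : ℍ → ℂ) :=
  auxInt_slash _ _ hγ

theorem diamondMod_auxSeven (d : (ZMod 7)ˣ) :
    diamondMod d auxSeven = quadChar 7 (d : ZMod 7) • auxSeven :=
  diamondMod_auxInt _ _ d

theorem auxSeven_ne_zero : auxSeven ≠ 0 := auxInt_ne_zero _ two_ne_zero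

/-! ### Level 3 -/

theorem quadraticChar_three (b : ZMod 3) :
    quadraticChar (ZMod 3) b = if b = 0 then 0 else if b = 1 then 1 else -1 := by
  revert b; decide

/-- `A₃ = 6 • eisQuad`. -/
def auxThree : ModularForm Γ1(3) 1 := auxInt (ℓ := 3) (by norm_num) 6

theorem qCoeff_auxThree_zero : qCoeff auxThree 0 = 1 := by
  rw [auxThree, qCoeff_auxInt, qCoeff_eisQuad_zero]
  simp only [Finset.sum_range_succ, Finset.sum_range_zero, quadChar_apply, quadraticChar_three]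
  have e0 : ((0 : ℕ) : ZMod 3) = 0 := by decide
  have e1 : ((1 : ℕ) : ZMod 3) = 1 := by decide
  have e2 : ((2 : ℕ) : ZMod 3) = 2 := by decide
  rw [e0, e1, e2]
  have d0 : ((0 : ZMod 3) = 0) := rfl
  have d1 : ¬ ((1 : ZMod 3) = 0) := by decide
  have d1' : ((1 : ZMod 3) = 1) := rfl
  have d2 : ¬ ((2 : ZMod 3) = 0) := by decide
  have d2' : ¬ ((2 : ZMod 3) = 1) := by decide
  rw [if_pos d0, if_neg d1, if_pos d1', if_neg d2, if_neg d2']
  norm_num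

theorem qCoeff_auxThree_mem (n : ℕ) : qCoeff auxThree n ∈ Set.range (Int.cast : ℤ → ℂ) := by
  by_cases hn : n = 0
  · subst hn
    exact ⟨1, by rw [qCoeff_auxThree_zero]; norm_num⟩
  · have := qCoeff_auxInt_pos_mem (ℓ := 3) (by norm_num) 6 hn
    simpa [auxThree] using this

theorem auxThree_slash {γ : SL(2, ℤ)} (hγ : γ ∈ Gamma0 3) :
    (auxThree : ℍ → ℂ) ∣[(1 : ℤ)] γ = quadChar 3 (lr 3 γ) • (auxThree : ℍ → ℂ) :=
  auxInt_slash _ _ hγ

theorem diamondMod_auxThree (d : (ZMod 3)ˣ) :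
    diamondMod d auxThree = quadChar 3 (d : ZMod 3) • auxThree :=
  diamondMod_auxInt _ _ d

theorem auxThree_ne_zero : auxThree ≠ 0 := auxInt_ne_zero _ (by norm_num)

/-! ### The existence statements requested by the W1-LIFT plan v2 -/

theorem exists_auxInt_seven :
    ∃ A : ModularForm Γ1(7) 1, qCoeff A 0 = 1 ∧
      (∀ n, qCoeff A n ∈ Set.range (Int.cast : ℤ → ℂ)) ∧
      ∀ d : (ZMod 7)ˣ, diamondMod d A = quadChar 7 (d : ZMod 7) • A :=
  ⟨auxSeven, qCoeff_auxSeven_zero, qCoeff_auxSeven_mem, diamondMod_auxSeven⟩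

theorem exists_auxInt_three :
    ∃ A : ModularForm Γ1(3) 1, qCoeff A 0 = 1 ∧
      (∀ n, qCoeff A n ∈ Set.range (Int.cast : ℤ → ℂ)) ∧
      ∀ d : (ZMod 3)ˣ, diamondMod d A = quadChar 3 (d : ZMod 3) • A :=
  ⟨auxThree, qCoeff_auxThree_zero, qCoeff_auxThree_mem, diamondMod_auxThree⟩

end

end Fermat.Agent.DS.W1.AuxInt11
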