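/-
Programme DS (S48), W1-LIFT brick (V) (helper2): the dilation operators `h(τ) ↦ h(m τ)`.

For `m ≠ 0`:
* `dilMod m : ModularForm Γ₁(L) k →ₗ[ℂ] ModularForm Γ₁(L m) k`,
  `dilCusp m : CuspForm Γ₁(L) k →ₗ[ℂ] CuspForm Γ₁(L m) k`, with `⇑(dil m h) = vp m ⇑h`,
  i.e. `(dil m h) τ = h (m τ)`  (`Neb.Vp.vp`);
* `qCoeff_dilMod`, `qCoeff_dilCusp` : `a_n(dil m h) = [m ∣ n] a_{n/m}(h)`;
* `vp_slash_Gamma0` : for `γ ∈ Γ₀(L m)` there is `γ' ∈ Γ₀(L)` with the same lower right entry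
  (mod `L`) such that `(vp m F) ∣[k] γ = vp m (F ∣[k] γ')` for every `F`;
* `diamondMod_dilMod`, `diamond_dilCusp` : dilation commutes with the diamond operators.
-/
import Mathlib
import Fermat.Agent.DS.Neb.Vp
import Fermat.Agent.DS.Hecke1.Extras
import Fermat.Prelude.Thm_ModularFormClass_isBoundedAt_heckeT
import Fermat.Prelude.Thm_ModularFormClass_isBoundedAt_heckeU

set_option autoImplicit false
set_option linter.unusedSectionVars false

open Matrix.SpecialLinearGroup UpperHalfPlane CongruenceSubgroup ModularForm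
open scoped MatrixGroups ModularForm OnePoint Manifold

namespace Fermat.Agent.DS.W1.Dilate

open Fermat.Agent.DS.Hecke1.Cosets Fermat.Agent.DS.Hecke1.Diamond Fermat.Agent.DS.Hecke1.HeckeT1
open Fermat.Agent.DS.Hecke1.QExp Fermat.Agent.DS.Hecke1.Extras
open Fermat.Agent.DS.W1.Forms ModularFormClass Fermat.Agent.DS.Neb.Vp

variable {L : ℕ} [NeZero L] {k : ℤ} {m : ℕ}

local notation "Γ1L" => ((Gamma1 L : Subgroup SL(2, ℤ)) : Subgroup (GL (Fin 2) ℝ))
local notation "Γ1Lm" => ((Gamma1 (L * m) : Subgroup SL(2, ℤ)) : Subgroup (GL (Fin 2) ℝ))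

/-! ### Function level -/

/-- For `γ ∈ Γ₀(L m)` there is `γ' ∈ Γ₀(L)` with `diag(m,1) γ = γ' diag(m,1)` and the same lower
right entry. -/
theorem exists_conj_dil (hm : m ≠ 0) {γ : SL(2, ℤ)} (hγ : γ ∈ Gamma0 (L * m)) :
    ∃ γ' : SL(2, ℤ), γ' ∈ Gamma0 L ∧
      lr L γ' = ZMod.castHom (dvd_mul_right L m) (ZMod L) (lr (L * m) γ) ∧
      heckeDiagMatrix m * mapGL ℝ γ = mapGL ℝ γ' * heckeDiagMatrix m := by
  have h10 : ((L * m : ℕ) : ℤ) ∣ γ 1 0 :=
    (ZMod.intCast_zmod_eq_zero_iff_dvd _ _).mp (Gamma0_mem.mp hγ)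
  obtain ⟨e', he'⟩ := h10
  have he : γ 1 0 = (m : ℤ) * ((L : ℤ) * e') := by rw [he']; push_cast; ring
  obtain ⟨g', hg'10, hg'11, hmul⟩ := heckeDiagMatrix_mul_of_eq' hm γ ((L : ℤ) * e') he
  refine ⟨g', ?_, ?_, hmul⟩
  · rw [Gamma0_mem, hg'10]; push_cast; simp
  · simp only [lr, hg'11, map_intCast]

/-- `(V_m F) ∣ γ = V_m (F ∣ γ')`. -/
theorem vp_slash_Gamma0 (hm : m ≠ 0) {γ : SL(2, ℤ)} (hγ : γ ∈ Gamma0 (L * m)) :
    ∃ γ' : SL(2, ℤ), γ' ∈ Gamma0 L ∧
      lr L γ' = ZMod.castHom (dvd_mul_right L m) (ZMod L) (lr (L * m) γ) ∧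
      ∀ F : ℍ → ℂ, (vp m F) ∣[k] γ = vp m (F ∣[k] γ') := by
  obtain ⟨γ', hγ', hlr, hmul⟩ := exists_conj_dil hm hγ
  exact ⟨γ', hγ', hlr, fun F => (vp_slash_of_comm k hm hmul F).symm⟩

/-- Dilation maps `Γ₁(L)`-invariant functions to `Γ₁(L m)`-invariant functions. -/
theorem inv1_vp (hm : m ≠ 0) {F : ℍ → ℂ} (hF : Inv1 L k F) : Inv1 (L * m) k (vp m F) := by
  intro δ hδ
  have hδ0 : δ ∈ Gamma0 (L * m) := Gamma1_in_Gamma0 _ hδ
  obtain ⟨γ', hγ', hlr, h⟩ := vp_slash_Gamma0 (k := k) hm hδ0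
  rw [h F, hF γ' ((mem_Gamma1_iff hγ').mpr ?_)]
  rw [hlr, (mem_Gamma1_iff hδ0).mp hδ, map_one]

theorem vp_eq_slash (k : ℤ) (hm : m ≠ 0) (F : ℍ → ℂ) :
    vp m F = ((((m : ℂ) ^ (k - 1))⁻¹) • F) ∣[k] heckeDiagMatrix m := by
  have hc : ((m : ℂ) ^ (k - 1)) ≠ 0 := zpow_ne_zero _ (Nat.cast_ne_zero.mpr hm)
  rw [ModularForm.smul_slash, σ_heckeDiagMatrix, ContinuousAlgEquiv.refl_apply,
    slash_heckeDiagMatrix_eq k hm, smul_smul, inv_mul_cancel₀ hc, one_smul]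

theorem mdiff_vp (hm : m ≠ 0) {F : ℍ → ℂ} (hF : MDiff F) : MDiff (vp m F) := by
  rw [vp_eq_slash 0 hm]
  exact (hF.const_smul _).slash 0 _

/-! ### Cusp conditions -/

section Cusps

variable {Γ : Subgroup (GL (Fin 2) ℝ)} [Γ.IsArithmetic]

theorem isBoundedAt_slash_heckeDiagMatrix (h : ModularForm Γ k) (p : ℕ) {c : OnePoint ℝ}
    (hc : IsCusp c Γ) : OnePoint.IsBoundedAt c ((h : ℍ → ℂ) ∣[k] heckeDiagMatrix p) k := by
  have h1 := ModularFormClass.isBoundedAt_heckeT h p hc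
  have h2 := ModularFormClass.isBoundedAt_heckeU (-h) p hc
  have h3 := h1.add h2
  have e : heckeT k p (h : ℍ → ℂ) + heckeU k p ((-h : ModularForm Γ k) : ℍ → ℂ) =
      (h : ℍ → ℂ) ∣[k] heckeDiagMatrix p := by
    rw [FunLike.coe_neg, heckeU_neg, heckeT_eq_heckeU_add]
    abel
  rwa [e] at h3

theorem isZeroAt_slash_heckeDiagMatrix' (h : CuspForm Γ k) (p : ℕ) {c : OnePoint ℝ}
    (hc : IsCusp c Γ) : OnePoint.IsZeroAt c ((h : ℍ → ℂ) ∣[k] heckeDiagMatrix p) k := by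
  have h1 := CuspFormClass.isZeroAt_heckeT h p hc
  have h2 := CuspFormClass.isZeroAt_heckeU (-h) p hc
  have h3 := h1.add h2
  have e : heckeT k p (h : ℍ → ℂ) + heckeU k p ((-h : CuspForm Γ k) : ℍ → ℂ) =
      (h : ℍ → ℂ) ∣[k] heckeDiagMatrix p := by
    rw [FunLike.coe_neg, heckeU_neg, heckeT_eq_heckeU_add]
    abel
  rwa [e] at h3

end Cusps

/-! ### The operators -/

variable (m) [NeZero m]

/-- Dilation `h(τ) ↦ h(m τ)` on modular forms, raising the level from `Γ₁(L)` to `Γ₁(L m)`. -/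
noncomputable def dilMod : ModularForm Γ1L k →ₗ[ℂ] ModularForm Γ1Lm k where
  toFun h :=
    { toFun := vp m (h : ℍ → ℂ)
      slash_action_eq' := (inv1_vp (NeZero.ne m) (inv1_coe_mod h)).slash_action_eq
      holo' := mdiff_vp (NeZero.ne m) h.holo'
      bdd_at_cusps' := by
        intro c hc
        rw [Subgroup.IsArithmetic.isCusp_iff_isCusp_SL2Z] at hc
        have hc' : IsCusp c Γ1L := by
          rw [Subgroup.IsArithmetic.isCusp_iff_isCusp_SL2Z]; exact hc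
        show OnePoint.IsBoundedAt c (vp m (h : ℍ → ℂ)) k
        rw [vp_eq_slash k (NeZero.ne m)]
        exact isBoundedAt_slash_heckeDiagMatrix ((((m : ℂ) ^ (k - 1))⁻¹) • h) m hc' }
  map_add' f g := by
    ext τ
    show vp m ((f + g : ModularForm Γ1L k) : ℍ → ℂ) τ = _
    rw [FunLike.coe_add, map_add]
    rfl
  map_smul' c f := by
    ext τ
    show vp m ((c • f : ModularForm Γ1L k) : ℍ → ℂ) τ = _
    rw [FunLike.coe_smul, map_smul]
    rfl

/-- Dilation `h(τ) ↦ h(m τ)` on cusp forms, raising the level from `Γ₁(L)` to `Γ₁(L m)`. -/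
noncomputable def dilCusp : CuspForm Γ1L k →ₗ[ℂ] CuspForm Γ1Lm k where
  toFun h :=
    { toFun := vp m (h : ℍ → ℂ)
      slash_action_eq' := (inv1_vp (NeZero.ne m) (inv1_coe h)).slash_action_eq
      holo' := mdiff_vp (NeZero.ne m) h.holo'
      zero_at_cusps' := by
        intro c hc
        rw [Subgroup.IsArithmetic.isCusp_iff_isCusp_SL2Z] at hc
        have hc' : IsCusp c Γ1L := by
          rw [Subgroup.IsArithmetic.isCusp_iff_isCusp_SL2Z]; exact hc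
        show OnePoint.IsZeroAt c (vp m (h : ℍ → ℂ)) k
        rw [vp_eq_slash k (NeZero.ne m)]
        exact isZeroAt_slash_heckeDiagMatrix' ((((m : ℂ) ^ (k - 1))⁻¹) • h) m hc' }
  map_add' f g := by
    ext τ
    show vp m ((f + g : CuspForm Γ1L k) : ℍ → ℂ) τ = _
    rw [FunLike.coe_add, map_add]
    rfl
  map_smul' c f := by
    ext τ
    show vp m ((c • f : CuspForm Γ1L k) : ℍ → ℂ) τ = _
    rw [FunLike.coe_smul, map_smul]
    rfl

@[simp] theorem coe_dilMod (h : ModularForm Γ1L k) :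
    (dilMod m h : ℍ → ℂ) = vp m (h : ℍ → ℂ) := rfl

@[simp] theorem coe_dilCusp (h : CuspForm Γ1L k) :
    (dilCusp m h : ℍ → ℂ) = vp m (h : ℍ → ℂ) := rfl

theorem dilMod_apply (h : ModularForm Γ1L k) (τ : ℍ) :
    dilMod m h τ = h (heckeDiagMatrix m • τ) := rfl

theorem dilCusp_apply (h : CuspForm Γ1L k) (τ : ℍ) :
    dilCusp m h τ = h (heckeDiagMatrix m • τ) := rfl

/-- `(dil m h)(τ) = h(m τ)` in coordinates. -/
theorem coe_heckeDiagMatrix_smul' (τ : ℍ) :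
    ((heckeDiagMatrix m • τ : ℍ) : ℂ) = (m : ℂ) * (τ : ℂ) :=
  coe_heckeDiagMatrix_smul (NeZero.ne m) τ

theorem qCoeff_dilMod (h : ModularForm Γ1L k) (n : ℕ) :
    qCoeff (dilMod m h) n = if m ∣ n then qCoeff h (n / m) else 0 :=
  qCoeff_vp (NeZero.ne m) (good_of_form h) n

theorem qCoeff_dilCusp (h : CuspForm Γ1L k) (n : ℕ) :
    qCoeff (dilCusp m h) n = if m ∣ n then qCoeff h (n / m) else 0 :=
  qCoeff_vp (NeZero.ne m) (good_of_form h) n

theorem dilMod_injective : Function.Injective (dilMod (L := L) (k := k) m) := by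
  intro f g h
  apply DFunLike.coe_injective
  exact vp_injective m (congrArg (fun F : ModularForm Γ1Lm k => (F : ℍ → ℂ)) h)

theorem dilCusp_injective : Function.Injective (dilCusp (L := L) (k := k) m) := by
  intro f g h
  apply DFunLike.coe_injective
  exact vp_injective m (congrArg (fun F : CuspForm Γ1Lm k => (F : ℍ → ℂ)) h)

/-! ### Compatibility with the diamond operators -/

/-- Slash form: for `γ ∈ Γ₀(L m)`, `(dil m h) ∣ γ = V_m (h ∣ γ')` with `γ' ∈ Γ₀(L)` of the same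
lower right entry; in diamond form: -/
theorem diamondMod_dilMod (d : (ZMod (L * m))ˣ) (h : ModularForm Γ1L k) :
    diamondMod d (dilMod m h) =
      dilMod m (diamondMod (ZMod.unitsMap (dvd_mul_right L m) d) h) := by
  apply DFunLike.coe_injective
  obtain ⟨γ', hγ', hlr, hs⟩ := vp_slash_Gamma0 (k := k) (NeZero.ne m) (lift_mem d)
  rw [coe_diamondMod d (lift_mem d) (lr_lift d), coe_dilMod, hs, coe_dilMod,
    coe_diamondMod (ZMod.unitsMap (dvd_mul_right L m) d) hγ' ?_ h]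
  rw [hlr, lr_lift]
  rfl

theorem diamond_dilCusp (d : (ZMod (L * m))ˣ) (h : CuspForm Γ1L k) :
    diamond d (dilCusp m h) =
      dilCusp m (diamond (ZMod.unitsMap (dvd_mul_right L m) d) h) := by
  apply DFunLike.coe_injective
  obtain ⟨γ', hγ', hlr, hs⟩ := vp_slash_Gamma0 (k := k) (NeZero.ne m) (lift_mem d)
  rw [coe_diamond d (lift_mem d) (lr_lift d), coe_dilCusp, hs, coe_dilCusp,
    coe_diamond (ZMod.unitsMap (dvd_mul_right L m) d) hγ' ?_ h]
  rw [hlr, lr_lift]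
  rfl

/-- Eigen form: dilation preserves nebentypus eigenvectors. -/
theorem diamondMod_dilMod_of_eigen (d : (ZMod (L * m))ˣ) (h : ModularForm Γ1L k) {b : ℂ}
    (hb : diamondMod (ZMod.unitsMap (dvd_mul_right L m) d) h = b • h) :
    diamondMod d (dilMod m h) = b • dilMod m h := by
  rw [diamondMod_dilMod, hb, map_smul]

theorem diamond_dilCusp_of_eigen (d : (ZMod (L * m))ˣ) (h : CuspForm Γ1L k) {b : ℂ}
    (hb : diamond (ZMod.unitsMap (dvd_mul_right L m) d) h = b • h) :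
    diamond d (dilCusp m h) = b • dilCusp m h := by
  rw [diamond_dilCusp, hb, map_smul]

end Fermat.Agent.DS.W1.Dilate
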