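/-
Programme DS (S48), brick W1-LIFT, part (B) (helper7): **integrality of the eigenvalues `a_p` from the
finiteness of the weight two Hecke algebra**, without `U_p` and without rational structures.

* `exists_Tn` : for `n ≥ 1` coprime to `M` there is `T_n ∈ T2 M` with `a₁(T_n H) = a_n(H)` for all
  `H ∈ S₂(Γ₁(M))` (`T_{m p} := T_m T_p - [p ∣ m] p T_{m/p} ⟨p⟩`).
* `exists_fg_submodule` : if `T2 M` is a finite `ℤ`-module then all `a_n(F)`, `n` coprime to `M`,
  lie in one finitely generated `ℤ`-submodule `Ω` of `ℂ`.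
* `mem_of_conv` (depletion): if `v = u * β` (Cauchy product) with `β` an integer sequence supported
  on the multiples of `N₁`, `β 0 = 1`, every prime factor of `M` dividing `N₁`, then
  `v n ∈ Ω` for all `n` coprime to `M` implies `u n ∈ Ω` for all `n` coprime to `M`.
* `isIntegral_of_pow_mem` : if `u (p ^ j) ∈ Ω` for all `j`, `u 1 = 1` and
  `u (p^(j+2)) + e u (p^j) = u p * u (p^(j+1))` with `e` integral, then `u p` is integral.
* `isIntegral_of_finite` : the assembly.
-/
import Mathlib
import Fermat.Agent.DS.W1.ThetaBar7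

set_option autoImplicit false
set_option linter.unusedSectionVars false

open Matrix.SpecialLinearGroup UpperHalfPlane CongruenceSubgroup ModularForm
open scoped MatrixGroups ModularForm

namespace Fermat.Agent.DS.W1.IntegralAp7

open Fermat.Agent.DS.Hecke1.Cosets Fermat.Agent.DS.Hecke1.Diamond Fermat.Agent.DS.Hecke1.HeckeT1
open Fermat.Agent.DS.Hecke1.QExp Fermat.Agent.DS.Hecke1.Comm Fermat.Agent.DS.Hecke1.Algebra
open Fermat.Agent.DS.W1.ThetaBar7 ModularFormClass

section Hecke

variable {M : ℕ} [NeZero M]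

local notation "Γ1M" => ((Gamma1 M : Subgroup SL(2, ℤ)) : Subgroup (GL (Fin 2) ℝ))

/-- The operators `T_n`, `n` coprime to the level: `a₁(T_n H) = a_n(H)`. -/
theorem exists_Tn : ∀ n : ℕ, 0 < n → n.Coprime M →
    ∃ t ∈ T2 M, ∀ H : CuspForm Γ1M 2, qCoeff (t H) 1 = qCoeff H n := by
  intro n
  induction n using Nat.strong_induction_on with
  | _ n ih =>
    intro hn0 hn
    rcases Nat.lt_or_ge 1 n with h1 | h1
    · -- `n = m * p` with `p` the smallest prime factor
      have hp : (n.minFac).Prime := Nat.minFac_prime (by omega)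
      set p := n.minFac with hpdef
      have hpn : p ∣ n := Nat.minFac_dvd n
      have hpM : ¬ p ∣ M := fun h =>
        hp.one_lt.ne' (Nat.eq_one_of_dvd_coprimes hn hpn h)
      set m := n / p with hm
      have hmp : m * p = n := Nat.div_mul_cancel hpn
      have hm0 : 0 < m := Nat.div_pos (Nat.le_of_dvd hn0 hpn) hp.pos
      have hmn : m < n := Nat.div_lt_self hn0 hp.one_lt
      have hmM : m.Coprime M := coprime_div hn hpn
      obtain ⟨tm, htm, hTm⟩ := ih m hmn hm0 hmM
      by_cases hpm : p ∣ m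
      · set m' := m / p with hm'
        have hm'0 : 0 < m' := Nat.div_pos (Nat.le_of_dvd hm0 hpm) hp.pos
        have hm'n : m' < n := lt_of_le_of_lt (Nat.div_le_self m p) hmn
        have hm'M : m'.Coprime M := coprime_div hmM hpm
        obtain ⟨tm', htm', hTm'⟩ := ih m' hm'n hm'0 hm'M
        refine ⟨tm * heckeT1 hp hpM - (p : ℤ) • (tm' * diamond (unitP hp hpM)),
          (T2 M).sub_mem ((T2 M).mul_mem htm (heckeT1_mem_heckeAlgebra1 hp hpM))
            ((T2 M).zsmul_mem ((T2 M).mul_mem htm' (diamond_mem_heckeAlgebra1 _)) _), fun H => ?_⟩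
        rw [LinearMap.sub_apply, LinearMap.smul_apply, Module.End.mul_apply, Module.End.mul_apply,
          qc_sub, qc_zsmul, hTm, hTm', qCoeff_heckeT1_of_dvd hp hpM H hpm, hmp, ← hm']
        norm_num
      · refine ⟨tm * heckeT1 hp hpM, (T2 M).mul_mem htm (heckeT1_mem_heckeAlgebra1 hp hpM),
          fun H => ?_⟩
        rw [Module.End.mul_apply, hTm, qCoeff_heckeT1_of_not_dvd hp hpM H hpm, hmp]
    · have : n = 1 := by omega
      subst this
      exact ⟨1, (T2 M).one_mem, fun H => by rw [Module.End.one_apply]⟩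

/-- The additive functional `t ↦ a₁(t F)` on the Hecke algebra. -/
noncomputable def coeffOne (F : CuspForm Γ1M 2) : T2 M →ₗ[ℤ] ℂ where
  toFun t := qCoeff (t.1 F) 1
  map_add' s t := by
    show qCoeff (((s.1 + t.1 : Module.End ℂ (CuspForm Γ1M 2))) F) 1 = _
    rw [LinearMap.add_apply, qc_add]
  map_smul' r t := by
    show qCoeff (((r • t.1 : Module.End ℂ (CuspForm Γ1M 2))) F) 1 = _
    rw [LinearMap.smul_apply, qc_zsmul, RingHom.id_apply, zsmul_eq_mul]

/-- If the Hecke algebra is finite over `ℤ`, the prime-to-level coefficients of any form lie in a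
finitely generated `ℤ`-module. -/
theorem exists_fg_submodule [Module.Finite ℤ (T2 M)] (F : CuspForm Γ1M 2) :
    ∃ Ω : Submodule ℤ ℂ, Ω.FG ∧ ∀ n : ℕ, 0 < n → n.Coprime M → qCoeff F n ∈ Ω := by
  refine ⟨LinearMap.range (coeffOne F), ?_, fun n hn0 hn => ?_⟩
  · rw [LinearMap.range_eq_map]
    exact (Module.Finite.fg_top).map _
  · obtain ⟨t, ht, hT⟩ := exists_Tn n hn0 hn
    exact ⟨⟨t, ht⟩, hT F⟩

end Hecke

/-! ### Depletion -/

/-- **Depletion.**  Division by a series in `q^{N₁}` with integer coefficients and constant term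
`1` preserves the condition "coefficients of index coprime to `M` lie in `Ω`". -/
theorem mem_of_conv {M : ℕ} (Ω : Submodule ℤ ℂ) (N₁ : ℕ)
    (hN₁ : ∀ q : ℕ, q.Prime → q ∣ M → q ∣ N₁) (u v : ℕ → ℂ) (β : ℕ → ℤ) (hβ0 : β 0 = 1)
    (hβ : ∀ j, ¬ N₁ ∣ j → β j = 0) (hu0 : u 0 = 0)
    (hconv : ∀ n, v n = ∑ x ∈ Finset.HasAntidiagonal.antidiagonal n, u x.1 * (β x.2 : ℂ))
    (hv : ∀ n : ℕ, 0 < n → n.Coprime M → v n ∈ Ω) :
    ∀ n : ℕ, 0 < n → n.Coprime M → u n ∈ Ω := by
  intro n
  induction n using Nat.strong_induction_on with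
  | _ n ih =>
    intro hn0 hn
    have hmem : (n, 0) ∈ Finset.HasAntidiagonal.antidiagonal n := by
      rw [Finset.HasAntidiagonal.mem_antidiagonal]
      simp
    have h1 := hconv n
    rw [← Finset.add_sum_erase _ _ hmem, hβ0, Int.cast_one, mul_one] at h1
    have h2 : u n = v n -
        ∑ x ∈ (Finset.HasAntidiagonal.antidiagonal n).erase (n, 0), u x.1 * (β x.2 : ℂ) := by
      rw [h1]; ring
    rw [h2]
    refine Ω.sub_mem (hv n hn0 hn) (Ω.sum_mem fun x hx => ?_)
    obtain ⟨hx1, hx2⟩ := Finset.mem_erase.mp hx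
    rw [Finset.HasAntidiagonal.mem_antidiagonal] at hx2
    by_cases hb : N₁ ∣ x.2
    · have hx20 : x.2 ≠ 0 := by
        intro h0
        apply hx1
        ext
        · simp only; omega
        · simpa using h0
      rcases Nat.eq_zero_or_pos x.1 with h0 | h0
      · rw [h0, hu0, zero_mul]; exact Ω.zero_mem
      · have hlt : x.1 < n := by omega
        have hcop : (x.1).Coprime M := by
          refine Nat.coprime_of_dvd fun q hq hq1 hqM => ?_
          have hq2 : q ∣ x.2 := (hN₁ q hq hqM).trans hb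
          have hqn : q ∣ n := by rw [← hx2]; exact dvd_add hq1 hq2
          exact hq.one_lt.ne' (Nat.eq_one_of_dvd_coprimes hn hqn hqM)
        have := ih x.1 hlt h0 hcop
        rw [mul_comm, ← zsmul_eq_mul]
        exact Ω.smul_mem _ this
    · rw [hβ _ hb, Int.cast_zero, mul_zero]; exact Ω.zero_mem

/-! ### Integrality -/

/-- If all `u (p ^ j)` lie in a finitely generated `ℤ`-module and satisfy the Hecke recursion with an
integral `e`, then `u p` is an algebraic integer. -/
theorem isIntegral_of_pow_mem (Ω : Submodule ℤ ℂ) (hΩ : Ω.FG) (u : ℕ → ℂ) (p : ℕ) (e : ℂ)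
    (he : IsIntegral ℤ e) (hu1 : u 1 = 1) (hpow : ∀ j : ℕ, u (p ^ j) ∈ Ω)
    (hrel : ∀ j : ℕ, u (p ^ (j + 2)) + e * u (p ^ j) = u p * u (p ^ (j + 1))) :
    IsIntegral ℤ (u p) := by
  classical
  set R : Subalgebra ℤ ℂ := Algebra.adjoin ℤ {e} with hR
  have hRfg : R.toSubmodule.FG := he.fg_adjoin_singleton
  have heR : e ∈ R := Algebra.subset_adjoin (Set.mem_singleton e)
  set W : Submodule ℤ ℂ := R.toSubmodule * Ω with hW
  have hWfg : W.FG := hRfg.mul hΩ
  set P : Submodule ℤ ℂ := Submodule.span ℤ {x | ∃ r ∈ R, ∃ j : ℕ, x = r * u (p ^ j)} with hP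
  have hPW : P ≤ W := by
    rw [hP, Submodule.span_le]
    rintro x ⟨r, hr, j, rfl⟩
    exact Submodule.mul_mem_mul hr (hpow j)
  have hPfg : P.FG := by
    have hN : IsNoetherian ℤ W := isNoetherian_of_fg_of_noetherian W hWfg
    exact isNoetherian_submodule.mp hN P hPW
  have hPne : P ≠ ⊥ := by
    intro h
    have h1 : (1 : ℂ) ∈ P := Submodule.subset_span ⟨1, R.one_mem, 0, by rw [pow_zero, hu1, mul_one]⟩
    rw [h, Submodule.mem_bot] at h1
    exact one_ne_zero h1
  refine isIntegral_of_smul_mem_submodule P hPne hPfg (u p) fun x hx => ?_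
  rw [smul_eq_mul]
  refine Submodule.span_induction (p := fun x _ => u p * x ∈ P) ?_ ?_ ?_ ?_ hx
  · rintro x ⟨r, hr, j, rfl⟩
    rcases j with _ | j
    · rw [pow_zero, hu1, mul_one]
      refine Submodule.subset_span ⟨r, hr, 1, ?_⟩
      rw [pow_one, mul_comm]
    · have : u p * (r * u (p ^ (j + 1))) = r * u (p ^ (j + 2)) + (r * e) * u (p ^ j) := by
        have := hrel j
        linear_combination (-r) * this
      rw [this]
      exact P.add_mem (Submodule.subset_span ⟨r, hr, j + 2, rfl⟩)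
        (Submodule.subset_span ⟨r * e, R.mul_mem hr heR, j, rfl⟩)
  · rw [mul_zero]; exact P.zero_mem
  · intro x y _ _ hx hy
    rw [mul_add]; exact P.add_mem hx hy
  · intro r x _ hx
    rw [mul_smul_comm]; exact P.smul_mem r hx

end Fermat.Agent.DS.W1.IntegralAp7
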