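/-
Programme DS (S48), W1-LIFT brick (P) (helper2): products of a cusp form of level `Γ₁(N)` and a
modular form of level `Γ₁(L)` at a common level `Γ₁(M)` (`N ∣ M`, `L ∣ M`).

* `restrictLevelMod`, `diamondMod_restrictLevelMod` : restriction of modular forms to a higher level;
* `mulLevel hN hL f E : CuspForm Γ₁(M) (k₁ + k₂)` with `⇑ = ⇑f * ⇑E`;
  `qExpansion_mulLevel`, `qCoeff_mulLevel` (Cauchy product);
  `diamond_mulLevel_of_eigen` : nebentypus characters multiply;
* `mulLevel₂` : the weight `1 + 1 = 2` version, cast to `CuspForm Γ₁(M) 2`.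
-/
import Mathlib
import Fermat.Agent.DS.Hecke1.Extras

set_option autoImplicit false
set_option linter.unusedSectionVars false

open Matrix.SpecialLinearGroup UpperHalfPlane CongruenceSubgroup ModularForm
open scoped MatrixGroups ModularForm OnePoint Manifold

namespace Fermat.Agent.DS.W1.Product

open Fermat.Agent.DS.Hecke1.Cosets Fermat.Agent.DS.Hecke1.Diamond Fermat.Agent.DS.Hecke1.HeckeT1
open Fermat.Agent.DS.Hecke1.QExp Fermat.Agent.DS.Hecke1.Extras
open Fermat.Agent.DS.W1.Forms ModularFormClass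

variable {N L M : ℕ} [NeZero N] [NeZero L] [NeZero M] {k k₁ k₂ : ℤ}

local notation "Γ1N" => ((Gamma1 N : Subgroup SL(2, ℤ)) : Subgroup (GL (Fin 2) ℝ))
local notation "Γ1L" => ((Gamma1 L : Subgroup SL(2, ℤ)) : Subgroup (GL (Fin 2) ℝ))
local notation "Γ1M" => ((Gamma1 M : Subgroup SL(2, ℤ)) : Subgroup (GL (Fin 2) ℝ))

/-! ### Restriction of modular forms -/

/-- Restriction of a modular form to level `M` (a multiple of `L`). -/
noncomputable def restrictLevelMod (h : L ∣ M) (E : ModularForm Γ1L k) : ModularForm Γ1M k :=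
  restrictMod (map_Gamma1_le_of_dvd h) E

@[simp] theorem coe_restrictLevelMod (h : L ∣ M) (E : ModularForm Γ1L k) :
    (restrictLevelMod h E : ℍ → ℂ) = E := rfl

theorem diamondMod_restrictLevelMod (h : L ∣ M) (d : (ZMod M)ˣ) (E : ModularForm Γ1L k) :
    diamondMod d (restrictLevelMod h E) =
      restrictLevelMod h (diamondMod (ZMod.unitsMap h d) E) := by
  apply DFunLike.coe_injective
  rw [coe_restrictLevelMod, coe_diamondMod d (lift_mem d) (lr_lift d),
    coe_diamondMod (ZMod.unitsMap h d) (Gamma0_le_of_dvd h (lift_mem d)) ?_ E,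
    coe_restrictLevelMod]
  rw [lr_of_dvd h, lr_lift]
  rfl

/-! ### Products -/

/-- The product of a cusp form of level `N` and a modular form of level `L`, at level `M`. -/
noncomputable def mulLevel (hN : N ∣ M) (hL : L ∣ M) (f : CuspForm Γ1N k₁)
    (E : ModularForm Γ1L k₂) : CuspForm Γ1M (k₁ + k₂) :=
  (restrictLevel hN f).mulModularForm (restrictLevelMod hL E)

@[simp] theorem coe_mulLevel (hN : N ∣ M) (hL : L ∣ M) (f : CuspForm Γ1N k₁)
    (E : ModularForm Γ1L k₂) :
    (mulLevel hN hL f E : ℍ → ℂ) = (f : ℍ → ℂ) * (E : ℍ → ℂ) := by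
  rw [mulLevel, CuspForm.coe_mulModularForm]
  rfl

theorem qExpansion_mulLevel (hN : N ∣ M) (hL : L ∣ M) (f : CuspForm Γ1N k₁)
    (E : ModularForm Γ1L k₂) :
    qExpansion 1 (mulLevel hN hL f E : ℍ → ℂ) =
      qExpansion 1 (f : ℍ → ℂ) * qExpansion 1 (E : ℍ → ℂ) := by
  rw [coe_mulLevel]
  exact (good_of_form f).qExpansion_mul (good_of_form E)

/-- The `q`-expansion of the product is the Cauchy product. -/
theorem qCoeff_mulLevel (hN : N ∣ M) (hL : L ∣ M) (f : CuspForm Γ1N k₁)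
    (E : ModularForm Γ1L k₂) (n : ℕ) :
    qCoeff (mulLevel hN hL f E) n =
      ∑ ij ∈ Finset.HasAntidiagonal.antidiagonal n, qCoeff f ij.1 * qCoeff E ij.2 := by
  unfold qCoeff
  rw [qExpansion_mulLevel, PowerSeries.coeff_mul]

theorem mulLevel_smul_left (hN : N ∣ M) (hL : L ∣ M) (c : ℂ) (f : CuspForm Γ1N k₁)
    (E : ModularForm Γ1L k₂) : mulLevel hN hL (c • f) E = c • mulLevel hN hL f E := by
  apply DFunLike.coe_injective
  rw [coe_mulLevel, FunLike.coe_smul, FunLike.coe_smul, coe_mulLevel, smul_mul_assoc]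

theorem mulLevel_add_left (hN : N ∣ M) (hL : L ∣ M) (f g : CuspForm Γ1N k₁)
    (E : ModularForm Γ1L k₂) : mulLevel hN hL (f + g) E = mulLevel hN hL f E + mulLevel hN hL g E := by
  apply DFunLike.coe_injective
  rw [coe_mulLevel, FunLike.coe_add, FunLike.coe_add, coe_mulLevel, coe_mulLevel, add_mul]

/-- Nebentypus characters multiply. -/
theorem diamond_mulLevel_of_eigen (hN : N ∣ M) (hL : L ∣ M) (d : (ZMod M)ˣ)
    (f : CuspForm Γ1N k₁) (E : ModularForm Γ1L k₂) {a b : ℂ}
    (hf : diamond (ZMod.unitsMap hN d) f = a • f)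
    (hE : diamondMod (ZMod.unitsMap hL d) E = b • E) :
    diamond d (mulLevel hN hL f E) = (a * b) • mulLevel hN hL f E := by
  refine diamond_mulModularForm_of_eigen d _ _ ?_ ?_
  · rw [diamond_restrictLevel, hf]
    apply DFunLike.coe_injective
    rfl
  · rw [diamondMod_restrictLevelMod, hE]
    apply DFunLike.coe_injective
    rfl

/-! ### Weight `1 + 1 = 2` -/

/-- The weight two product of a weight one cusp form and a weight one modular form. -/
noncomputable def mulLevel₂ (hN : N ∣ M) (hL : L ∣ M) (f : CuspForm Γ1N 1)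
    (E : ModularForm Γ1L 1) : CuspForm Γ1M 2 :=
  CuspForm.mcast (by norm_num) (mulLevel hN hL f E)

@[simp] theorem coe_mulLevel₂ (hN : N ∣ M) (hL : L ∣ M) (f : CuspForm Γ1N 1)
    (E : ModularForm Γ1L 1) :
    (mulLevel₂ hN hL f E : ℍ → ℂ) = (f : ℍ → ℂ) * (E : ℍ → ℂ) :=
  coe_mulLevel hN hL f E

theorem qCoeff_mulLevel₂ (hN : N ∣ M) (hL : L ∣ M) (f : CuspForm Γ1N 1)
    (E : ModularForm Γ1L 1) (n : ℕ) :
    qCoeff (mulLevel₂ hN hL f E) n =
      ∑ ij ∈ Finset.HasAntidiagonal.antidiagonal n, qCoeff f ij.1 * qCoeff E ij.2 :=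
  qCoeff_mulLevel hN hL f E n

theorem diamond_mulLevel₂_of_eigen (hN : N ∣ M) (hL : L ∣ M) (d : (ZMod M)ˣ)
    (f : CuspForm Γ1N 1) (E : ModularForm Γ1L 1) {a b : ℂ}
    (hf : diamond (ZMod.unitsMap hN d) f = a • f)
    (hE : diamondMod (ZMod.unitsMap hL d) E = b • E) :
    diamond d (mulLevel₂ hN hL f E) = (a * b) • mulLevel₂ hN hL f E := by
  rw [mulLevel₂, diamond_mcast, diamond_mulLevel_of_eigen hN hL d f E hf hE]
  apply DFunLike.coe_injective
  rfl

end Fermat.Agent.DS.W1.Product
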