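/-
Programme DS (S48), brick W1-LIFT, part (B), concrete form (helper7): **the eigenvalues `a_p` of a
weight one eigenform are algebraic integers**, from the finiteness over `ℤ` of the weight two
Hecke algebra `T2 (L * (N * L))` and an auxiliary weight one form `A` of level `L` with integer
`q`-expansion and constant term `1`.

`F := f · A(N L τ) ∈ S₂(Γ₁(L · N L))`; its coefficients of index prime to the level are `a₁(T_n F)`,
hence lie in a finitely generated `ℤ`-module; dividing by the series `A(q^{N L})` (depletion) the same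
holds for `f`; the Hecke recursion then shows that `ℤ[a_p]` lies in a finitely generated module.
-/
import Mathlib
import Fermat.Agent.DS.Iface
import Fermat.Agent.DS.W1.IntegralAp7
import Fermat.Agent.DS.W1.Dilate
import Fermat.Agent.DS.W1.Product

set_option autoImplicit false
set_option linter.unusedSectionVars false

open Matrix.SpecialLinearGroup UpperHalfPlane CongruenceSubgroup ModularForm
open scoped MatrixGroups ModularForm

namespace Fermat.Agent.DS.W1.IntegralMain7

open Fermat.Agent.DS.Hecke1.Cosets Fermat.Agent.DS.Hecke1.Diamond Fermat.Agent.DS.Hecke1.HeckeT1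
open Fermat.Agent.DS.Hecke1.QExp Fermat.Agent.DS.Hecke1.Comm Fermat.Agent.DS.Hecke1.Algebra
open Fermat.Agent.DS.W1.ThetaBar7 Fermat.Agent.DS.W1.IntegralAp7 Fermat.Agent.DS.W1.Dilate
open Fermat.Agent.DS.W1.Product Fermat.Agent.DS ModularFormClass

/-- Values of Dirichlet characters are algebraic integers. -/
theorem isIntegral_dirichlet {N : ℕ} [NeZero N] (ε : DirichletCharacter ℂ N) (a : ZMod N) :
    IsIntegral ℤ (ε a) := by
  by_cases ha : IsUnit a
  · obtain ⟨u, rfl⟩ := ha
    have h1 : (ε (u : ZMod N)) ^ (Fintype.card (ZMod N)ˣ) = 1 := by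
      rw [← map_pow, ← Units.val_pow_eq_pow_val, pow_card_eq_one, Units.val_one, map_one]
    refine IsIntegral.of_pow (n := Fintype.card (ZMod N)ˣ) Fintype.card_pos ?_
    rw [h1]
    exact isIntegral_one
  · rw [MulChar.map_nonunit ε ha]
    exact isIntegral_zero

section Main

variable {N L : ℕ} [NeZero N] [NeZero L]

local notation "Γ1(" n ")" => ((Gamma1 n : Subgroup SL(2, ℤ)) : Subgroup (GL (Fin 2) ℝ))

/-- **Integrality of `a_p`**, `p ∤ N L`. -/
theorem isIntegral_qCoeff [Module.Finite ℤ (T2 (L * (N * L)))] (ε : DirichletCharacter ℂ N)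
    (f : CuspForm Γ1(N) 1) (hf : Iface.IsEigen N ε f) (A : ModularForm Γ1(L) 1)
    (hA0 : qCoeff A 0 = 1) (hAint : ∀ n : ℕ, ∃ z : ℤ, qCoeff A n = z)
    {p : ℕ} (hp : p.Prime) (hpN : ¬ p ∣ N) (hpL : ¬ p ∣ L) :
    IsIntegral ℤ (qCoeff f p) := by
  classical
  have hN : N ∣ L * (N * L) := ⟨L * L, by ring⟩
  -- the weight two form
  set F : CuspForm Γ1(L * (N * L)) 2 := mulLevel₂ hN (dvd_refl _) f (dilMod (N * L) A) with hF
  obtain ⟨Ω, hΩ, hFΩ⟩ := exists_fg_submodule F
  choose z hz using hAint
  set β : ℕ → ℤ := fun j => if N * L ∣ j then z (j / (N * L)) else 0 with hβ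
  have hβc : ∀ j, qCoeff (dilMod (N * L) A) j = (β j : ℂ) := by
    intro j
    rw [qCoeff_dilMod, hβ]
    dsimp only
    split_ifs with h
    · exact hz _
    · simp
  have hu : ∀ n : ℕ, 0 < n → n.Coprime (L * (N * L)) → qCoeff f n ∈ Ω := by
    refine mem_of_conv (M := L * (N * L)) Ω (N * L) ?_ (fun n => qCoeff f n)
      (fun n => qCoeff F n) β ?_ ?_ ?_ ?_ hFΩ
    · intro q hq hqM
      rcases (Nat.Prime.dvd_mul hq).mp hqM with h | h
      · exact h.trans (Dvd.intro_left N rfl)
      · exact h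
    · have : (z 0 : ℂ) = 1 := by rw [← hz 0, hA0]
      have hz0 : z 0 = 1 := by exact_mod_cast this
      simp [hβ, hz0]
    · intro j hj
      simp [hβ, hj]
    · exact CuspFormClass.qExpansion_coeff_zero f one_pos
        (Fermat.Agent.DS.Rankin.CuspBound.one_mem_strictPeriods_Gamma1 N)
    · intro n
      rw [hF, qCoeff_mulLevel₂]
      exact Finset.sum_congr rfl fun x _ => by rw [hβc]
  have hpcop : ∀ j : ℕ, (p ^ j).Coprime (L * (N * L)) := by
    intro j
    have h1 : p.Coprime L := (Nat.Prime.coprime_iff_not_dvd hp).mpr hpL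
    have h2 : p.Coprime N := (Nat.Prime.coprime_iff_not_dvd hp).mpr hpN
    exact Nat.Coprime.pow_left j (Nat.Coprime.mul_right h1 (Nat.Coprime.mul_right h2 h1))
  refine isIntegral_of_pow_mem Ω hΩ (fun n => qCoeff f n) p (ε (p : ZMod N))
    (isIntegral_dirichlet ε _) hf.one (fun j => hu _ (pow_pos hp.pos j) (hpcop j)) fun j => ?_
  have h := hf.hecke p hp hpN (p ^ (j + 1))
  have hd : p ∣ p ^ (j + 1) := dvd_pow_self p (Nat.succ_ne_zero j)
  rw [if_pos hd, Nat.pow_succ, Nat.mul_div_cancel _ hp.pos] at h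
  have e1 : p * (p ^ j * p) = p ^ (j + 2) := by ring
  have e2 : p ^ j * p = p ^ (j + 1) := by ring
  rw [e1, e2] at h
  exact h

end Main

end Fermat.Agent.DS.W1.IntegralMain7
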