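/-
Programme DS (S48), brick W1-L4(b) (helper11): the PRODUCT brick of the W1-LIFT plan.

* `mulCusp f g : CuspForm Γ (k₁ + k₂)` : product of a cusp form and a modular form on the same
  group (any `Γ` with `HasDetPlusMinusOne`), `mulCuspTwo` : the weight `1 + 1 = 2` version.
* `prodCusp hN hL h E : CuspForm Γ₁(M) 2` for `h : CuspForm Γ₁(N) 1`, `E : ModularForm Γ₁(L) 1`,
  `N ∣ M`, `L ∣ M`; `coe_prodCusp`, `qExpansion_prodCusp` (product of `q`-expansions),
  `qCoeff_prodCusp` (Cauchy product of the coefficients).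
* `prodCusp_slash` : nebentypus of the product in slash form, and `diamond_prodCusp`:
  `⟨d⟩ (h E) = (changeLevel ε * changeLevel ψ)(d) • (h E)` for the Hecke1 diamond operators on
  `S_2(Γ₁(M))`, if `h ∣[1] γ = ε(d_γ) h` on `Γ₀(N)` and `E ∣[1] γ = ψ(d_γ) E` on `Γ₀(L)`.
* `eisProd`, the instance `E = eisInt hodd` (level `ℓ`, odd character `ψ`), with
  `diamond_eisProd`, `diamond_eisProd_of_formalHecke` (input = the formal Hecke relations of S48 via
  `Neb.Main.slash_eq`) and `qCoeff_eisProd`.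
-/
import Mathlib
import Fermat.Agent.DS.W1.Forms
import Fermat.Agent.DS.Hecke1.Diamond
import Fermat.Agent.DS.Eis1.Congr
import Fermat.Agent.DS.Neb.Main

set_option autoImplicit false
set_option linter.unusedSectionVars false

open Matrix.SpecialLinearGroup UpperHalfPlane CongruenceSubgroup ModularForm
open scoped MatrixGroups ModularForm OnePoint Manifold

namespace Fermat.Agent.DS.W1.Prod11

open Fermat.Agent.DS.W1.Forms Fermat.Agent.DS.Hecke1.Cosets Fermat.Agent.DS.Hecke1.Diamond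
open ModularFormClass

noncomputable section

/-! ### Product of a cusp form and a modular form -/

section General

variable {Γ : Subgroup (GL (Fin 2) ℝ)} [Γ.HasDetPlusMinusOne] {k₁ k₂ : ℤ}

/-- The product of a cusp form and a modular form is a cusp form. -/
def mulCusp (f : CuspForm Γ k₁) (g : ModularForm Γ k₂) : CuspForm Γ (k₁ + k₂) where
  toSlashInvariantForm := f.1.mul g.1
  holo' := f.holo'.mul g.holo'
  zero_at_cusps' hc γ hγ := by
    simpa [mul_slash] using!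
      ((f.zero_at_cusps' hc γ hγ).mul_boundedAtFilter (g.bdd_at_cusps' hc γ hγ)).smul _

@[simp] theorem coe_mulCusp (f : CuspForm Γ k₁) (g : ModularForm Γ k₂) :
    (mulCusp f g : ℍ → ℂ) = (f : ℍ → ℂ) * (g : ℍ → ℂ) := rfl

/-- Change of the weight along an equality. -/
def castCusp {k k' : ℤ} (e : k = k') (f : CuspForm Γ k) : CuspForm Γ k' := e ▸ f

@[simp] theorem coe_castCusp {k k' : ℤ} (e : k = k') (f : CuspForm Γ k) :
    (castCusp e f : ℍ → ℂ) = (f : ℍ → ℂ) := by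
  subst e; rfl

end General

/-! ### The product at level `Γ₁(M)` -/

section Level

variable {M N L : ℕ} [NeZero M] [NeZero N] [NeZero L]

local notation "Γ1(" n ")" => ((Gamma1 n : Subgroup SL(2, ℤ)) : Subgroup (GL (Fin 2) ℝ))

/-- `h · E ∈ S_2(Γ₁(M))` for `h ∈ S_1(Γ₁(N))`, `E ∈ M_1(Γ₁(L))`, `N ∣ M`, `L ∣ M`. -/
def prodCusp (hN : N ∣ M) (hL : L ∣ M) (h : CuspForm Γ1(N) 1) (E : ModularForm Γ1(L) 1) :
    CuspForm Γ1(M) 2 :=
  castCusp (by norm_num) (mulCusp (restrictCusp (map_Gamma1_le_of_dvd hN) h)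
    (restrictMod (map_Gamma1_le_of_dvd hL) E))

@[simp] theorem coe_prodCusp (hN : N ∣ M) (hL : L ∣ M) (h : CuspForm Γ1(N) 1)
    (E : ModularForm Γ1(L) 1) :
    (prodCusp hN hL h E : ℍ → ℂ) = (h : ℍ → ℂ) * (E : ℍ → ℂ) := by
  rw [prodCusp, coe_castCusp, coe_mulCusp, coe_restrictCusp, coe_restrictMod]

theorem prodCusp_apply (hN : N ∣ M) (hL : L ∣ M) (h : CuspForm Γ1(N) 1)
    (E : ModularForm Γ1(L) 1) (τ : ℍ) : prodCusp hN hL h E τ = h τ * E τ := by
  exact congrFun (coe_prodCusp hN hL h E) τ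

/-- The `q`-expansion of the product is the product of the `q`-expansions. -/
theorem qExpansion_prodCusp (hN : N ∣ M) (hL : L ∣ M) (h : CuspForm Γ1(N) 1)
    (E : ModularForm Γ1(L) 1) :
    qExpansion 1 (prodCusp hN hL h E) = qExpansion 1 h * qExpansion 1 E := by
  rw [coe_prodCusp]
  exact (good_of_form h).qExpansion_mul (good_of_form E)

/-- Cauchy product formula for the coefficients of the product. -/
theorem qCoeff_prodCusp (hN : N ∣ M) (hL : L ∣ M) (h : CuspForm Γ1(N) 1)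
    (E : ModularForm Γ1(L) 1) (n : ℕ) :
    qCoeff (prodCusp hN hL h E) n =
      ∑ p ∈ Finset.HasAntidiagonal.antidiagonal n, qCoeff h p.1 * qCoeff E p.2 := by
  unfold qCoeff
  rw [qExpansion_prodCusp, PowerSeries.coeff_mul]

theorem prodCusp_add (hN : N ∣ M) (hL : L ∣ M) (h h' : CuspForm Γ1(N) 1)
    (E : ModularForm Γ1(L) 1) :
    prodCusp (M := M) hN hL (h + h') E = prodCusp hN hL h E + prodCusp hN hL h' E := by
  apply DFunLike.coe_injective
  rw [FunLike.coe_add, coe_prodCusp, coe_prodCusp, coe_prodCusp, FunLike.coe_add, add_mul]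

theorem prodCusp_smul (hN : N ∣ M) (hL : L ∣ M) (c : ℂ) (h : CuspForm Γ1(N) 1)
    (E : ModularForm Γ1(L) 1) :
    prodCusp (M := M) hN hL (c • h) E = c • prodCusp hN hL h E := by
  apply DFunLike.coe_injective
  rw [FunLike.coe_smul, coe_prodCusp, coe_prodCusp, FunLike.coe_smul, smul_mul_assoc]

/-- `h ↦ h · E` as a linear map `S_1(Γ₁(N)) → S_2(Γ₁(M))`. -/
def prodCuspₗ (hN : N ∣ M) (hL : L ∣ M) (E : ModularForm Γ1(L) 1) :
    CuspForm Γ1(N) 1 →ₗ[ℂ] CuspForm Γ1(M) 2 where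
  toFun h := prodCusp hN hL h E
  map_add' h h' := prodCusp_add hN hL h h' E
  map_smul' c h := prodCusp_smul hN hL c h E

@[simp] theorem prodCuspₗ_apply (hN : N ∣ M) (hL : L ∣ M) (E : ModularForm Γ1(L) 1)
    (h : CuspForm Γ1(N) 1) : prodCuspₗ (M := M) hN hL E h = prodCusp hN hL h E := rfl

/-- If `E ≠ 0` then `h ↦ h · E` is injective (the ring of `q`-expansions is a domain). -/
theorem prodCusp_eq_zero_iff (hN : N ∣ M) (hL : L ∣ M) (h : CuspForm Γ1(N) 1)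
    {E : ModularForm Γ1(L) 1} (hE : E ≠ 0) : prodCusp (M := M) hN hL h E = 0 ↔ h = 0 := by
  constructor
  · intro h0
    have hq : qExpansion 1 h * qExpansion 1 E = 0 := by
      rw [← qExpansion_prodCusp hN hL, h0]
      have : ((0 : CuspForm Γ1(M) 2) : ℍ → ℂ) = 0 := rfl
      rw [this, qExpansion_zero]
    have hE' : qExpansion 1 E ≠ 0 := by
      refine (good_of_form E).qExpansion_ne_zero ?_
      intro hc
      exact hE (DFunLike.coe_injective hc)
    have hq' : qExpansion 1 h = 0 := (mul_eq_zero.mp hq).resolve_right hE'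
    by_contra hne
    exact (good_of_form h).qExpansion_ne_zero (fun hc => hne (DFunLike.coe_injective hc)) hq'
  · rintro rfl
    apply DFunLike.coe_injective
    rw [coe_prodCusp]
    show (0 : ℍ → ℂ) * _ = 0
    rw [zero_mul]

/-! ### Nebentypus of the product -/

theorem mem_Gamma0_of_dvd {γ : SL(2, ℤ)} (hN : N ∣ M) (hγ : γ ∈ Gamma0 M) : γ ∈ Gamma0 N := by
  rw [Gamma0_mem] at hγ ⊢
  have := congrArg (ZMod.castHom hN (ZMod N)) hγ
  simpa using this

theorem lr_of_dvd (γ : SL(2, ℤ)) (hN : N ∣ M) :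
    lr N γ = ZMod.castHom hN (ZMod N) (lr M γ) := by
  simp [lr]

/-- Slash form of the nebentypus of the product. -/
theorem prodCusp_slash (hN : N ∣ M) (hL : L ∣ M) {h : CuspForm Γ1(N) 1}
    {E : ModularForm Γ1(L) 1} {γ : SL(2, ℤ)} {a b : ℂ}
    (hh : (h : ℍ → ℂ) ∣[(1 : ℤ)] γ = a • (h : ℍ → ℂ))
    (hE : (E : ℍ → ℂ) ∣[(1 : ℤ)] γ = b • (E : ℍ → ℂ)) :
    (prodCusp (M := M) hN hL h E : ℍ → ℂ) ∣[(2 : ℤ)] γ =
      (a * b) • (prodCusp (M := M) hN hL h E : ℍ → ℂ) := by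
  rw [coe_prodCusp]
  have e : (2 : ℤ) = 1 + 1 := by norm_num
  rw [e, mul_slash_SL2, hh, hE]
  ext τ
  simp only [Pi.mul_apply, Pi.smul_apply, smul_eq_mul]
  ring

variable (ε : DirichletCharacter ℂ N) (ψ : DirichletCharacter ℂ L)

/-- The character `ε ψ` at level `M`. -/
def prodChar (hN : N ∣ M) (hL : L ∣ M) : DirichletCharacter ℂ M :=
  DirichletCharacter.changeLevel hN ε * DirichletCharacter.changeLevel hL ψ

theorem prodChar_apply_unit (hN : N ∣ M) (hL : L ∣ M) (d : (ZMod M)ˣ) :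
    prodChar ε ψ hN hL (d : ZMod M) =
      ε (ZMod.castHom hN (ZMod N) (d : ZMod M)) * ψ (ZMod.castHom hL (ZMod L) (d : ZMod M)) := by
  rw [prodChar, MulChar.mul_apply, DirichletCharacter.changeLevel_eq_cast_of_dvd,
    DirichletCharacter.changeLevel_eq_cast_of_dvd]
  rfl

/-- **Nebentypus of the product**: if `h` has nebentypus `ε` and `E` has nebentypus `ψ` (slash
form on `Γ₀`), then `⟨d⟩ (h E) = (ε ψ)(d) (h E)` on `S_2(Γ₁(M))`. -/
theorem diamond_prodCusp (hN : N ∣ M) (hL : L ∣ M) {h : CuspForm Γ1(N) 1}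
    {E : ModularForm Γ1(L) 1}
    (hh : ∀ γ : SL(2, ℤ), γ ∈ Gamma0 N → (h : ℍ → ℂ) ∣[(1 : ℤ)] γ = ε (lr N γ) • (h : ℍ → ℂ))
    (hE : ∀ γ : SL(2, ℤ), γ ∈ Gamma0 L → (E : ℍ → ℂ) ∣[(1 : ℤ)] γ = ψ (lr L γ) • (E : ℍ → ℂ))
    (d : (ZMod M)ˣ) :
    diamond d (prodCusp (M := M) hN hL h E) =
      prodChar ε ψ hN hL (d : ZMod M) • prodCusp (M := M) hN hL h E := by
  apply DFunLike.coe_injective
  have hγ := lift_mem d
  have hlr := lr_lift d
  rw [coe_diamond d hγ hlr, FunLike.coe_smul,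
    prodCusp_slash hN hL (hh _ (mem_Gamma0_of_dvd hN hγ)) (hE _ (mem_Gamma0_of_dvd hL hγ)),
    prodChar_apply_unit, lr_of_dvd _ hN, lr_of_dvd _ hL, hlr]

end Level

/-! ### The instance `E = eisInt` -/

section Eis

open Fermat.Agent.DS.Eis1.Congr Fermat.Agent.DS.Eis1.MF

variable {M N ℓ : ℕ} [NeZero M] [NeZero N] [hp : Fact ℓ.Prime]

local notation "Γ1(" n ")" => ((Gamma1 n : Subgroup SL(2, ℤ)) : Subgroup (GL (Fin 2) ℝ))

variable {ψ : DirichletCharacter ℂ ℓ}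

/-- `h · eisInt ∈ S_2(Γ₁(M))`. -/
def eisProd (hN : N ∣ M) (hL : ℓ ∣ M) (hodd : ψ.Odd) (h : CuspForm Γ1(N) 1) :
    CuspForm Γ1(M) 2 :=
  prodCusp hN hL h (eisInt hodd)

theorem coe_eisProd (hN : N ∣ M) (hL : ℓ ∣ M) (hodd : ψ.Odd) (h : CuspForm Γ1(N) 1) :
    (eisProd (M := M) hN hL hodd h : ℍ → ℂ) = (h : ℍ → ℂ) * (eisInt hodd : ℍ → ℂ) :=
  coe_prodCusp hN hL h _

theorem qExpansion_eisProd (hN : N ∣ M) (hL : ℓ ∣ M) (hodd : ψ.Odd) (h : CuspForm Γ1(N) 1) :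
    qExpansion 1 (eisProd (M := M) hN hL hodd h) = qExpansion 1 h * qExpansion 1 (eisInt hodd) :=
  qExpansion_prodCusp hN hL h _

/-- The coefficients of `h · eisInt`: Cauchy product with `coeffInt ψ`. -/
theorem qCoeff_eisProd (hN : N ∣ M) (hL : ℓ ∣ M) (hodd : ψ.Odd) (h : CuspForm Γ1(N) 1) (n : ℕ) :
    qCoeff (eisProd (M := M) hN hL hodd h) n =
      ∑ p ∈ Finset.HasAntidiagonal.antidiagonal n, qCoeff h p.1 * coeffInt ψ p.2 := by
  rw [eisProd, qCoeff_prodCusp]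
  refine Finset.sum_congr rfl fun p _ => ?_
  rw [show qCoeff (eisInt hodd) p.2 = coeffInt ψ p.2 from qExpansion_coeff_eisInt hodd p.2]

/-- `eisInt` is not the zero form: its coefficient of `q` is `-2ℓ`. -/
theorem eisInt_ne_zero (hodd : ψ.Odd) : eisInt hodd ≠ 0 := by
  intro h0
  have h1 := qExpansion_coeff_eisInt hodd 1
  have hz : ((eisInt hodd : ModularForm Γ1(ℓ) 1) : ℍ → ℂ) = 0 := by rw [h0]; rfl
  rw [hz, qExpansion_zero, map_zero, coeffInt, if_neg one_ne_zero, Nat.divisors_one,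
    Finset.sum_singleton, Nat.cast_one, map_one, mul_one] at h1
  have hℓ : (ℓ : ℂ) ≠ 0 := by exact_mod_cast hp.out.ne_zero
  have : (2 * (ℓ : ℂ)) = 0 := by linear_combination h1
  exact hℓ (by simpa using this)

theorem eisProd_eq_zero_iff (hN : N ∣ M) (hL : ℓ ∣ M) (hodd : ψ.Odd) (h : CuspForm Γ1(N) 1) :
    eisProd (M := M) hN hL hodd h = 0 ↔ h = 0 :=
  prodCusp_eq_zero_iff hN hL h (eisInt_ne_zero hodd)

/-- **Congruence** `h · eisInt ≡ -h`: in the situation of `Eis1.Congr.eisInt_congr` (`ψ` = inverse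
Teichmüller character for `φ : 𝒪 →+* k`), if the coefficients of `h` are `ι (b n)` then those of
`h · eisInt` are `ι (c n)` with `φ (c n) = -φ (b n)`. -/
theorem eisProd_congr (hN : N ∣ M) (hL : ℓ ∣ M) (hodd : ψ.Odd) {𝒪 k : Type*} [CommRing 𝒪]
    [Field k] [CharP k ℓ] (ι : 𝒪 →+* ℂ) (φ : 𝒪 →+* k) (t : ZMod ℓ → 𝒪)
    (hψ : ∀ a, ψ a = ι (t a)) (ht : ∀ a : ZMod ℓ, a ≠ 0 → φ (t a) * (a.val : k) = 1)
    (h : CuspForm Γ1(N) 1) (b : ℕ → 𝒪) (hb : ∀ n, qCoeff h n = ι (b n)) :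
    ∃ c : ℕ → 𝒪, (∀ n, qCoeff (eisProd (M := M) hN hL hodd h) n = ι (c n)) ∧
      ∀ n, φ (c n) = -φ (b n) := by
  obtain ⟨c₀, hc₀, h0, hpos⟩ := eisInt_congr hodd ι φ t hψ ht
  refine ⟨fun n => ∑ p ∈ Finset.HasAntidiagonal.antidiagonal n, b p.1 * c₀ p.2, fun n => ?_,
    fun n => ?_⟩
  · rw [eisProd, qCoeff_prodCusp, map_sum]
    refine Finset.sum_congr rfl fun p _ => ?_
    rw [map_mul, hb, ← hc₀]
    rfl
  · rw [map_sum, Finset.sum_eq_single (n, 0)]
    · rw [map_mul, h0, mul_neg, mul_one]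
    · intro p hp hne
      have h2 : p.2 ≠ 0 := by
        intro h2
        apply hne
        rw [Finset.HasAntidiagonal.mem_antidiagonal] at hp
        ext
        · simp only; omega
        · simpa using h2
      rw [map_mul, hpos _ h2, mul_zero]
    · intro hn
      exact absurd (Finset.HasAntidiagonal.mem_antidiagonal.mpr (add_zero n)) hn

theorem eisInt_slash_lr (hodd : ψ.Odd) (γ : SL(2, ℤ)) (hγ : γ ∈ Gamma0 ℓ) :
    (eisInt hodd : ℍ → ℂ) ∣[(1 : ℤ)] γ = ψ (lr ℓ γ) • (eisInt hodd : ℍ → ℂ) :=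
  eisInt_slash_Gamma0 hodd hγ

/-- Nebentypus of `h · eisInt`, from the slash form of the nebentypus of `h`. -/
theorem diamond_eisProd (hN : N ∣ M) (hL : ℓ ∣ M) (hodd : ψ.Odd) (ε : DirichletCharacter ℂ N)
    {h : CuspForm Γ1(N) 1}
    (hh : ∀ γ : SL(2, ℤ), γ ∈ Gamma0 N → (h : ℍ → ℂ) ∣[(1 : ℤ)] γ = ε (lr N γ) • (h : ℍ → ℂ))
    (d : (ZMod M)ˣ) :
    diamond d (eisProd (M := M) hN hL hodd h) =
      prodChar ε ψ hN hL (d : ZMod M) • eisProd (M := M) hN hL hodd h :=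
  diamond_prodCusp ε ψ hN hL hh (eisInt_slash_lr hodd) d

/-- Nebentypus of `h · eisInt`, from the diamond form of the nebentypus of `h`. -/
theorem diamond_eisProd_of_diamond (hN : N ∣ M) (hL : ℓ ∣ M) (hodd : ψ.Odd)
    (ε : DirichletCharacter ℂ N) {h : CuspForm Γ1(N) 1}
    (hh : ∀ d : (ZMod N)ˣ, diamond d h = ε (d : ZMod N) • h) (d : (ZMod M)ˣ) :
    diamond d (eisProd (M := M) hN hL hodd h) =
      prodChar ε ψ hN hL (d : ZMod M) • eisProd (M := M) hN hL hodd h := by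
  refine diamond_eisProd hN hL hodd ε (fun γ hγ => ?_) d
  have h1 := coe_diamond (Fermat.Agent.DS.Neb.Main.lrUnit hγ) hγ rfl h
  rw [← h1, hh, Fermat.Agent.DS.Neb.Main.coe_lrUnit]
  rfl

/-- Nebentypus of `h · eisInt` when `h` satisfies the formal Hecke relations of S48 for `ε`. -/
theorem diamond_eisProd_of_formalHecke (hN : N ∣ M) (hL : ℓ ∣ M) (hodd : ψ.Odd)
    {ε : DirichletCharacter ℂ N} {h : CuspForm Γ1(N) 1}
    (hT : Fermat.Agent.DS.Neb.Main.FormalHecke ε h) (d : (ZMod M)ˣ) :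
    diamond d (eisProd (M := M) hN hL hodd h) =
      prodChar ε ψ hN hL (d : ZMod M) • eisProd (M := M) hN hL hodd h :=
  diamond_eisProd hN hL hodd ε (fun _ hγ => Fermat.Agent.DS.Neb.Main.slash_eq hT hγ) d

end Eis

end

end Fermat.Agent.DS.W1.Prod11
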