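/-
Programme DS (S48), brick W1-L4(a) (helper20): **the inverse Teichmüller character** attached to a
residue map `φ : ℤ̄ →+* k`, `char k = ℓ`.

`exists_invTeichmuller` : for `ℓ ≠ 2` there are a Dirichlet character `ψ` modulo `ℓ` and a function
`t : ZMod ℓ → ℤ̄` with `ψ a = t a`, `φ (t a) * a = 1` for `a ≠ 0`, and `ψ` is odd.  This is exactly
the input of `Eis1.Congr.eisInt_congr` with `𝒪 = ℤ̄`, `ι = ` the inclusion into `ℂ`
(`exists_eisInt_congr`).
-/
import Mathlib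
import Fermat.Agent.DS.Lift.Main
import Fermat.Agent.DS.Eis1.Congr

set_option autoImplicit false
set_option linter.unusedSectionVars false
set_option linter.style.haveILetI false

namespace Fermat.Agent.DS.W1.Teich20

local notation "ℤbar" => integralClosure ℤ ℂ

section Field

variable {ℓ : ℕ} [Fact ℓ.Prime] {k : Type*} [Field k] [CharP k ℓ]

/-- the canonical map of the prime field -/
noncomputable def primeMap (ℓ : ℕ) [Fact ℓ.Prime] (k : Type*) [Field k] [CharP k ℓ] :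
    ZMod ℓ →+* k := ZMod.castHom (dvd_refl ℓ) k

theorem primeMap_injective : Function.Injective (primeMap ℓ k) := (primeMap ℓ k).injective

theorem natCast_val_eq (a : ZMod ℓ) : ((a.val : ℕ) : k) = primeMap ℓ k a := by
  rw [primeMap, ZMod.castHom_apply, ZMod.natCast_val]

/-- `ℓ - 1` is invertible in characteristic `ℓ` -/
theorem pred_cast_ne_zero : (((ℓ - 1 : ℕ)) : k) ≠ 0 := by
  have hℓ : ℓ.Prime := Fact.out
  rw [Nat.cast_sub hℓ.one_lt.le, CharP.cast_eq_zero k ℓ, Nat.cast_one, zero_sub]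
  exact neg_ne_zero.mpr one_ne_zero

end Field

/-- **The inverse Teichmüller character.** -/
theorem exists_invTeichmuller (ℓ : ℕ) [Fact ℓ.Prime] (hℓ2 : ℓ ≠ 2) (k : Type*) [Field k]
    [CharP k ℓ] (φ : ℤbar →+* k) :
    ∃ (ψ : DirichletCharacter ℂ ℓ) (t : ZMod ℓ → ℤbar), ψ.Odd ∧ (∀ a, ψ a = (t a : ℂ)) ∧
      ∀ a : ZMod ℓ, a ≠ 0 → φ (t a) * ((a.val : ℕ) : k) = 1 := by
  classical
  have hℓ : ℓ.Prime := Fact.out
  set n : ℕ := ℓ - 1 with hn
  have hn0 : n ≠ 0 := by have := hℓ.two_le; omega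
  haveI : NeZero n := ⟨hn0⟩
  -- a primitive `(ℓ-1)`-th root of unity in `ℤ̄`
  have hζc : IsPrimitiveRoot (Complex.exp (2 * Real.pi * Complex.I / n)) n :=
    Complex.isPrimitiveRoot_exp n hn0
  set ζ : ℤbar := ⟨Complex.exp (2 * Real.pi * Complex.I / n),
    hζc.isIntegral (Nat.pos_of_ne_zero hn0)⟩ with hζdef
  have hζ : IsPrimitiveRoot ζ n :=
    IsPrimitiveRoot.of_map_of_injective (f := (integralClosure ℤ ℂ).val) hζc
      Subtype.val_injective
  -- its image in `k`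
  have hφζ : IsPrimitiveRoot (φ ζ) n :=
    Fermat.Agent.DS.Lift.Main.isPrimitiveRoot_map φ n pred_cast_ne_zero ζ hζ
  -- a generator of `(ZMod ℓ)ˣ`
  obtain ⟨g, hg⟩ := IsCyclic.exists_generator (α := (ZMod ℓ)ˣ)
  have hordg : orderOf g = n := by
    rw [orderOf_eq_card_of_forall_mem_zpowers hg, Nat.card_eq_fintype_card, ZMod.card_units]
  set γ : k := primeMap ℓ k (g : ZMod ℓ) with hγ
  have hγn : γ ^ n = 1 := by
    rw [hγ, ← map_pow, ← Units.val_pow_eq_pow_val, ← hordg, pow_orderOf_eq_one, Units.val_one,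
      map_one]
  -- `γ = φ ξ` for a root of unity `ξ` of `ℤ̄`
  obtain ⟨j, -, hj⟩ := hφζ.eq_pow_of_pow_eq_one hγn
  set ξ : ℤbar := ζ ^ j with hξ
  have hφξ : φ ξ = γ := by rw [hξ, map_pow, hj]
  have hξn : ξ ^ n = 1 := by rw [hξ, ← pow_mul, mul_comm, pow_mul, hζ.pow_eq_one, one_pow]
  set ξi : ℤbar := ξ ^ (n - 1) with hξi
  have hξiξ : ξi * ξ = 1 := by
    rw [hξi, ← pow_succ, Nat.sub_add_cancel (Nat.one_le_iff_ne_zero.mpr hn0), hξn]
  have hξin : ξi ^ n = 1 := by rw [hξi, ← pow_mul, mul_comm, pow_mul, hξn, one_pow]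
  -- the character on units
  have hcξ : (ξi : ℂ) * (ξ : ℂ) = 1 := by
    have := congrArg (Subtype.val : ℤbar → ℂ) hξiξ
    simpa using this
  set g' : ℂˣ := Units.mkOfMulEqOne (ξi : ℂ) (ξ : ℂ) hcξ with hg'
  have hg'n : g' ^ n = 1 := by
    apply Units.ext
    rw [Units.val_pow_eq_pow_val, Units.val_one]
    change ((ξi : ℂ)) ^ n = 1
    have := congrArg (Subtype.val : ℤbar → ℂ) hξin
    simpa using this
  have hord' : orderOf g' ∣ orderOf g := by
    rw [hordg]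
    exact orderOf_dvd_of_pow_eq_one hg'n
  set ψ₀ : (ZMod ℓ)ˣ →* ℂˣ := monoidHomOfForallMemZpowers hg hord' with hψ₀
  have hψ₀g : ψ₀ g = g' := monoidHomOfForallMemZpowers_apply_gen hg hord'
  -- exponents
  have hexp : ∀ u : (ZMod ℓ)ˣ, ∃ i : ℕ, g ^ i = u := by
    intro u
    have h1 : u ∈ Submonoid.powers g := (mem_powers_iff_mem_zpowers).mpr (hg u)
    exact (Submonoid.mem_powers_iff _ _).mp h1
  choose e he using hexp
  -- the function `t`
  set t : ZMod ℓ → ℤbar := fun a => if h : IsUnit a then ξi ^ e h.unit else 0 with ht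
  have htunit : ∀ u : (ZMod ℓ)ˣ, t (u : ZMod ℓ) = ξi ^ e u := by
    intro u
    have hu : IsUnit (u : ZMod ℓ) := u.isUnit
    simp only [ht]
    rw [dif_pos hu]
    congr 2
    exact Units.ext (IsUnit.unit_spec hu)
  set ψ : DirichletCharacter ℂ ℓ := MulChar.ofUnitHom ψ₀ with hψ
  have hψt : ∀ a, ψ a = (t a : ℂ) := by
    intro a
    by_cases ha : IsUnit a
    · obtain ⟨u, rfl⟩ := ha
      have hu : ψ₀ u = g' ^ e u := by rw [← hψ₀g, ← map_pow, he u]
      rw [hψ, MulChar.ofUnitHom_coe, htunit u, hu, Units.val_pow_eq_pow_val]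
      simp [hg']
    · rw [MulChar.map_nonunit _ ha]
      simp only [ht]
      rw [dif_neg ha]
      simp
  have htφ : ∀ a : ZMod ℓ, a ≠ 0 → φ (t a) * ((a.val : ℕ) : k) = 1 := by
    intro a ha
    obtain ⟨u, rfl⟩ : IsUnit a := isUnit_iff_ne_zero.mpr ha
    have hu : (u : ZMod ℓ) = (g : ZMod ℓ) ^ e u := by
      rw [← Units.val_pow_eq_pow_val, he u]
    have h1 : φ (t (u : ZMod ℓ)) = (φ ξi) ^ e u := by rw [htunit u, map_pow]
    have h2 : ((((u : ZMod ℓ)).val : ℕ) : k) = γ ^ e u := by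
      rw [natCast_val_eq, hu, map_pow]
    rw [h1, h2, ← mul_pow, ← hφξ, ← map_mul, hξiξ, map_one, one_pow]
  refine ⟨ψ, t, ?_, hψt, htφ⟩
  -- oddness
  have hneg1 : ((-1 : ZMod ℓ)) ≠ 0 := neg_ne_zero.mpr one_ne_zero
  have h1 := htφ (-1) hneg1
  rw [natCast_val_eq, map_neg, map_one, mul_neg, mul_one] at h1
  have hsq : ψ (-1) * ψ (-1) = 1 := by
    rw [← map_mul, neg_mul_neg, one_mul, map_one]
  have hpm : ψ (-1) = 1 ∨ ψ (-1) = -1 := mul_self_eq_one_iff.mp hsq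
  rcases hpm with h | h
  · exfalso
    have ht1 : t (-1) = 1 := by
      apply Subtype.ext
      rw [← hψt, h]
      rfl
    rw [ht1, map_one] at h1
    -- `-1 = 1` in `k` forces `ℓ = 2`
    have h2 : ((2 : ℕ) : k) = 0 := by
      have : (1 : k) + 1 = 0 := by
        have := h1
        linear_combination -this
      push_cast
      rw [← this]
      norm_num
    have hdvd : ℓ ∣ 2 := (CharP.cast_eq_zero_iff k ℓ 2).mp h2
    exact hℓ2 ((Nat.prime_dvd_prime_iff_eq hℓ Nat.prime_two).mp hdvd)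
  · exact h

open Fermat.Agent.DS.Eis1.Congr UpperHalfPlane in
/-- **Consumer form**: there is an odd character `ψ` modulo `ℓ` such that the integral weight one
Eisenstein series `eisInt` has `q`-expansion coefficients in `ℤ̄` which reduce under `φ` to the
constant `-1`. -/
theorem exists_eisInt_congr (ℓ : ℕ) [Fact ℓ.Prime] (hℓ2 : ℓ ≠ 2) (k : Type*) [Field k]
    [CharP k ℓ] (φ : ℤbar →+* k) :
    ∃ (ψ : DirichletCharacter ℂ ℓ) (hodd : ψ.Odd) (t : ZMod ℓ → ℤbar) (c : ℕ → ℤbar),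
      (∀ a, ψ a = (t a : ℂ)) ∧ (∀ a : ZMod ℓ, a ≠ 0 → φ (t a) * ((a.val : ℕ) : k) = 1) ∧
      (∀ n, (qExpansion 1 (eisInt hodd)).coeff n = (c n : ℂ)) ∧
      φ (c 0) = -1 ∧ ∀ n, n ≠ 0 → φ (c n) = 0 := by
  obtain ⟨ψ, t, hodd, hψt, htφ⟩ := exists_invTeichmuller ℓ hℓ2 k φ
  obtain ⟨c, hc1, hc2, hc3⟩ := eisInt_congr hodd (algebraMap ℤbar ℂ) φ t hψt htφ
  exact ⟨ψ, hodd, t, c, hψt, htφ, hc1, hc2, hc3⟩

end Fermat.Agent.DS.W1.Teich20
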