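/-
Programme DS (S48), brick W1-LIFT, part (A) (helper7): **the mod-`𝔪` eigencharacter of the weight two
Hecke algebra attached to a form which is an eigenform modulo `𝔪` on its prime-to-level
coefficients**.

Let `G ∈ S₂(Γ₁(M))` with `⟨d⟩ G = χ(d) G` (`χ` with values in `ℤbar`), whose `q`-coefficients
`a_n(G)`, `n` coprime to `M`, are algebraic integers `c n`, and let `φ : ℤbar →+* k` be a ring
homomorphism to a field such that `φ (c 1) = 1` and

  `φ (c (n p)) + [p ∣ n] φ (p χ(p)) φ (c (n / p)) = φ (a p) φ (c n)`   (`p ∤ M` prime, `(n, M) = 1`).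

Then `t ↦ φ (a₁(t G))` is a ring homomorphism `θ : T2 M →+* k` with `θ (T_p) = φ (a p)` and
`θ (⟨d⟩) = φ (χ d)`.

Nothing is assumed about the coefficients `a_n(G)` with `gcd (n, M) > 1`: the operators `T_p`
(`p ∤ M`) and `⟨d⟩` preserve the conditions "prime-to-`M` coefficients integral" and "prime-to-`M`
coefficients in the kernel of `φ`" on the `χ`-eigenspace of the diamond operators.
-/
import Mathlib
import Fermat.Agent.DS.Hecke1.Algebra
import Fermat.Agent.DS.Conj.QSpace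

set_option autoImplicit false
set_option linter.unusedSectionVars false

open Matrix.SpecialLinearGroup UpperHalfPlane CongruenceSubgroup ModularForm
open scoped MatrixGroups ModularForm

namespace Fermat.Agent.DS.W1.ThetaBar7

open Fermat.Agent.DS.Hecke1.Cosets Fermat.Agent.DS.Hecke1.Diamond Fermat.Agent.DS.Hecke1.HeckeT1
open Fermat.Agent.DS.Hecke1.QExp Fermat.Agent.DS.Hecke1.Comm Fermat.Agent.DS.Hecke1.Algebra
open Fermat.Agent.DS.Conj ModularFormClass

local notation "ℤbar" => integralClosure ℤ ℂ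

/-! ### Reduction of complex numbers -/

section Red

variable {k : Type*} [Field k] (φ : ℤbar →+* k)

open Classical in
/-- `φ` on algebraic integers, `0` elsewhere. -/
noncomputable def red (z : ℂ) : k := if h : IsIntegral ℤ z then φ ⟨z, h⟩ else 0

theorem red_of_isIntegral {z : ℂ} (h : IsIntegral ℤ z) : red φ z = φ ⟨z, h⟩ := by
  rw [red, dif_pos h]

theorem red_coe (c : ℤbar) : red φ (c : ℂ) = φ c := by
  rw [red_of_isIntegral φ c.2]

theorem red_add {x y : ℂ} (hx : IsIntegral ℤ x) (hy : IsIntegral ℤ y) :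
    red φ (x + y) = red φ x + red φ y := by
  rw [red_of_isIntegral φ hx, red_of_isIntegral φ hy, red_of_isIntegral φ (hx.add hy), ← map_add]
  rfl

theorem red_mul {x y : ℂ} (hx : IsIntegral ℤ x) (hy : IsIntegral ℤ y) :
    red φ (x * y) = red φ x * red φ y := by
  rw [red_of_isIntegral φ hx, red_of_isIntegral φ hy, red_of_isIntegral φ (hx.mul hy), ← map_mul]
  rfl

theorem red_sub {x y : ℂ} (hx : IsIntegral ℤ x) (hy : IsIntegral ℤ y) :
    red φ (x - y) = red φ x - red φ y := by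
  rw [red_of_isIntegral φ hx, red_of_isIntegral φ hy, red_of_isIntegral φ (hx.sub hy), ← map_sub]
  rfl

theorem red_zero : red φ 0 = 0 := by
  have : red φ ((0 : ℤbar) : ℂ) = φ 0 := red_coe φ 0
  rwa [map_zero] at this

theorem red_one : red φ 1 = 1 := by
  have : red φ ((1 : ℤbar) : ℂ) = φ 1 := red_coe φ 1
  rwa [map_one] at this

theorem red_intCast (r : ℤ) : red φ (r : ℂ) = (r : k) := by
  have : red φ (((r : ℤbar)) : ℂ) = φ (r : ℤbar) := red_coe φ _
  rwa [map_intCast] at this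

theorem red_natCast (r : ℕ) : red φ (r : ℂ) = (r : k) := by
  have : red φ (((r : ℤbar)) : ℂ) = φ (r : ℤbar) := red_coe φ _
  rwa [map_natCast] at this

end Red

/-! ### The three conditions -/

section Main

variable {M : ℕ} [NeZero M]

local notation "Γ1M" => ((Gamma1 M : Subgroup SL(2, ℤ)) : Subgroup (GL (Fin 2) ℝ))

variable {k : Type*} [Field k] (φ : ℤbar →+* k) (χ : (ZMod M)ˣ → ℤbar)

/-- `H` lies in the `χ`-eigenspace of the diamond operators. -/
def IsChi (H : CuspForm Γ1M 2) : Prop := ∀ d : (ZMod M)ˣ, diamond d H = (χ d : ℂ) • H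

/-- The prime-to-`M` coefficients of `H` are algebraic integers. -/
def IsInt (H : CuspForm Γ1M 2) : Prop := ∀ n : ℕ, n.Coprime M → IsIntegral ℤ (qCoeff H n)

/-- The prime-to-`M` coefficients of `H` are killed by `φ`. -/
def IsZeroMod (H : CuspForm Γ1M 2) : Prop := ∀ n : ℕ, n.Coprime M → red φ (qCoeff H n) = 0

theorem qc_add (H H' : CuspForm Γ1M 2) (n : ℕ) :
    qCoeff (⇑(H + H')) n = qCoeff H n + qCoeff H' n := QSpace.qCoeff_add M 2 H H' n

theorem qc_smul (c : ℂ) (H : CuspForm Γ1M 2) (n : ℕ) :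
    qCoeff (⇑(c • H)) n = c * qCoeff H n := QSpace.qCoeff_smul M 2 c H n

theorem qc_sub (H H' : CuspForm Γ1M 2) (n : ℕ) :
    qCoeff (⇑(H - H')) n = qCoeff H n - qCoeff H' n := by
  have h1 : H - H' = H + (-1 : ℂ) • H' := by
    rw [neg_one_smul, sub_eq_add_neg]
  rw [h1, qc_add, qc_smul]
  ring

theorem qc_zsmul (r : ℤ) (H : CuspForm Γ1M 2) (n : ℕ) :
    qCoeff (⇑(r • H)) n = (r : ℂ) * qCoeff H n := by
  rw [← Int.cast_smul_eq_zsmul ℂ r H, qc_smul]

/-! ### Stability of the conditions -/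

variable {φ χ}

theorem IsChi.add {H H' : CuspForm Γ1M 2} (h : IsChi χ H) (h' : IsChi χ H') : IsChi χ (H + H') :=
  fun d => by rw [map_add, h d, h' d, smul_add]

theorem IsChi.smul {H : CuspForm Γ1M 2} (h : IsChi χ H) (c : ℂ) : IsChi χ (c • H) :=
  fun d => by rw [map_smul, h d, smul_comm]

theorem IsChi.zsmul {H : CuspForm Γ1M 2} (h : IsChi χ H) (r : ℤ) : IsChi χ (r • H) := by
  rw [← Int.cast_smul_eq_zsmul ℂ r H]
  exact h.smul _

theorem IsChi.sub {H H' : CuspForm Γ1M 2} (h : IsChi χ H) (h' : IsChi χ H') : IsChi χ (H - H') :=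
  fun d => by rw [map_sub, h d, h' d, smul_sub]

theorem IsChi.heckeT1 {H : CuspForm Γ1M 2} (h : IsChi χ H) {p : ℕ} (hp : p.Prime)
    (hpM : ¬ p ∣ M) : IsChi χ (heckeT1 hp hpM H) :=
  fun d => by rw [← heckeT1_diamond, h d, map_smul]

theorem IsChi.diamond {H : CuspForm Γ1M 2} (h : IsChi χ H) (e : (ZMod M)ˣ) :
    IsChi χ (diamond e H) :=
  fun d => by rw [h e, map_smul, h d, smul_comm]

theorem IsInt.add {H H' : CuspForm Γ1M 2} (h : IsInt H) (h' : IsInt H') : IsInt (H + H') :=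
  fun n hn => by rw [qc_add]; exact (h n hn).add (h' n hn)

theorem IsInt.smul {H : CuspForm Γ1M 2} (h : IsInt H) {c : ℂ} (hc : IsIntegral ℤ c) :
    IsInt (c • H) :=
  fun n hn => by rw [qc_smul]; exact hc.mul (h n hn)

theorem IsInt.zsmul {H : CuspForm Γ1M 2} (h : IsInt H) (r : ℤ) : IsInt (r • H) :=
  fun n hn => by rw [qc_zsmul]; exact isIntegral_algebraMap.mul (h n hn)

theorem IsInt.sub {H H' : CuspForm Γ1M 2} (h : IsInt H) (h' : IsInt H') : IsInt (H - H') :=
  fun n hn => by rw [qc_sub]; exact (h n hn).sub (h' n hn)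

/-- The `q`-expansion of `T_p H` on the `χ`-eigenspace. -/
theorem qc_heckeT1 {H : CuspForm Γ1M 2} (h : IsChi χ H) {p : ℕ} (hp : p.Prime) (hpM : ¬ p ∣ M)
    (n : ℕ) :
    qCoeff (heckeT1 hp hpM H) n =
      qCoeff H (n * p) +
        if p ∣ n then (p : ℂ) * ((χ (unitP hp hpM) : ℂ) * qCoeff H (n / p)) else 0 := by
  rw [qCoeff_heckeT1, h (unitP hp hpM), qc_smul]
  norm_num

theorem coprime_mul_prime {n p : ℕ} (hn : n.Coprime M) (hp : p.Prime) (hpM : ¬ p ∣ M) :
    (n * p).Coprime M :=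
  Nat.Coprime.mul_left hn ((Nat.Prime.coprime_iff_not_dvd hp).mpr hpM)

theorem coprime_div {n p : ℕ} (hn : n.Coprime M) (hpn : p ∣ n) : (n / p).Coprime M :=
  Nat.Coprime.coprime_dvd_left (Nat.div_dvd_of_dvd hpn) hn

theorem IsInt.heckeT1 {H : CuspForm Γ1M 2} (hχ : IsChi χ H) (h : IsInt H) {p : ℕ}
    (hp : p.Prime) (hpM : ¬ p ∣ M) : IsInt (heckeT1 hp hpM H) := by
  intro n hn
  rw [qc_heckeT1 hχ hp hpM]
  refine (h _ (coprime_mul_prime hn hp hpM)).add ?_
  have hpint : IsIntegral ℤ (p : ℂ) := by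
    have := isIntegral_algebraMap (R := ℤ) (A := ℂ) (x := (p : ℤ))
    simpa using this
  split_ifs with hpn
  · exact hpint.mul ((χ (unitP hp hpM)).2.mul (h _ (coprime_div hn hpn)))
  · exact isIntegral_zero

theorem IsInt.diamond {H : CuspForm Γ1M 2} (hχ : IsChi χ H) (h : IsInt H) (e : (ZMod M)ˣ) :
    IsInt (diamond e H) := by
  rw [hχ e]
  exact h.smul (χ e).2

variable (φ) in
theorem IsZeroMod.add {H H' : CuspForm Γ1M 2} (hi : IsInt H) (hi' : IsInt H')
    (h : IsZeroMod φ H) (h' : IsZeroMod φ H') : IsZeroMod φ (H + H') :=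
  fun n hn => by rw [qc_add, red_add φ (hi n hn) (hi' n hn), h n hn, h' n hn, add_zero]

theorem IsZeroMod.smul {H : CuspForm Γ1M 2} (hi : IsInt H) (h : IsZeroMod φ H) {c : ℂ}
    (hc : IsIntegral ℤ c) : IsZeroMod φ (c • H) :=
  fun n hn => by rw [qc_smul, red_mul φ hc (hi n hn), h n hn, mul_zero]

theorem IsZeroMod.zsmul {H : CuspForm Γ1M 2} (hi : IsInt H) (h : IsZeroMod φ H) (r : ℤ) :
    IsZeroMod φ (r • H) := by
  rw [← Int.cast_smul_eq_zsmul ℂ r H]
  exact h.smul hi isIntegral_algebraMap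

theorem IsZeroMod.heckeT1 {H : CuspForm Γ1M 2} (hχ : IsChi χ H) (hi : IsInt H)
    (h : IsZeroMod φ H) {p : ℕ} (hp : p.Prime) (hpM : ¬ p ∣ M) :
    IsZeroMod φ (heckeT1 hp hpM H) := by
  intro n hn
  rw [qc_heckeT1 hχ hp hpM]
  have hpint : IsIntegral ℤ (p : ℂ) := by
    have := isIntegral_algebraMap (R := ℤ) (A := ℂ) (x := (p : ℤ))
    simpa using this
  split_ifs with hpn
  · have h1 := hi _ (coprime_div hn hpn)
    rw [red_add φ (hi _ (coprime_mul_prime hn hp hpM))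
      (hpint.mul ((χ (unitP hp hpM)).2.mul h1)), h _ (coprime_mul_prime hn hp hpM),
      red_mul φ hpint ((χ (unitP hp hpM)).2.mul h1), red_mul φ (χ (unitP hp hpM)).2 h1,
      h _ (coprime_div hn hpn)]
    simp
  · rw [add_zero]
    exact h _ (coprime_mul_prime hn hp hpM)

theorem IsZeroMod.diamond {H : CuspForm Γ1M 2} (hχ : IsChi χ H) (hi : IsInt H)
    (h : IsZeroMod φ H) (e : (ZMod M)ˣ) : IsZeroMod φ (diamond e H) := by
  rw [hχ e]
  exact h.smul hi (χ e).2

variable (φ χ) in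
/-- An endomorphism preserves the three conditions. -/
def Pres (t : Module.End ℂ (CuspForm Γ1M 2)) : Prop :=
  (∀ H, IsChi χ H → IsInt H → IsChi χ (t H) ∧ IsInt (t H)) ∧
    ∀ H, IsChi χ H → IsInt H → IsZeroMod φ H → IsZeroMod φ (t H)

/-- Every element of the Hecke algebra preserves the three conditions. -/
theorem pres_of_mem {t : Module.End ℂ (CuspForm Γ1M 2)} (ht : t ∈ T2 M) : Pres φ χ t := by
  refine Algebra.adjoin_induction (R := ℤ) (s := heckeGenerators1 M 2)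
    (p := fun t _ => Pres φ χ t) ?_ ?_ ?_ ?_ ht
  · rintro t (⟨p, hp, hpM, rfl⟩ | ⟨d, rfl⟩)
    · exact ⟨fun H h1 h2 => ⟨h1.heckeT1 hp hpM, h2.heckeT1 h1 hp hpM⟩,
        fun H h1 h2 h3 => h3.heckeT1 h1 h2 hp hpM⟩
    · exact ⟨fun H h1 h2 => ⟨h1.diamond d, h2.diamond h1 d⟩,
        fun H h1 h2 h3 => h3.diamond h1 h2 d⟩
  · intro r
    have e : ∀ H : CuspForm Γ1M 2,
        (algebraMap ℤ (Module.End ℂ (CuspForm Γ1M 2)) r) H = r • H := fun H => by
      rw [Algebra.algebraMap_eq_smul_one, LinearMap.smul_apply, Module.End.one_apply]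
    refine ⟨fun H h1 h2 => ?_, fun H h1 h2 h3 => ?_⟩
    · rw [e]; exact ⟨h1.zsmul r, h2.zsmul r⟩
    · rw [e]; exact h3.zsmul h2 r
  · rintro s t _ _ ⟨hs1, hs2⟩ ⟨ht1, ht2⟩
    refine ⟨fun H h1 h2 => ?_, fun H h1 h2 h3 => ?_⟩
    · rw [LinearMap.add_apply]
      exact ⟨(hs1 H h1 h2).1.add (ht1 H h1 h2).1, (hs1 H h1 h2).2.add (ht1 H h1 h2).2⟩
    · rw [LinearMap.add_apply]
      exact IsZeroMod.add φ (hs1 H h1 h2).2 (ht1 H h1 h2).2 (hs2 H h1 h2 h3) (ht2 H h1 h2 h3)
  · rintro s t _ _ ⟨hs1, hs2⟩ ⟨ht1, ht2⟩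
    refine ⟨fun H h1 h2 => ?_, fun H h1 h2 h3 => ?_⟩
    · rw [Module.End.mul_apply]
      exact hs1 _ (ht1 H h1 h2).1 (ht1 H h1 h2).2
    · rw [Module.End.mul_apply]
      exact hs2 _ (ht1 H h1 h2).1 (ht1 H h1 h2).2 (ht2 H h1 h2 h3)

/-! ### The eigencharacter -/

theorem qc_zero (n : ℕ) : qCoeff (⇑(0 : CuspForm Γ1M 2)) n = 0 := by
  have h := qc_smul (0 : ℂ) (0 : CuspForm Γ1M 2) n
  rwa [zero_smul, zero_mul] at h

variable (φ) in
/-- The functional `t ↦ φ (a₁ (t G))`. -/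
noncomputable def psi (G : CuspForm Γ1M 2) (t : Module.End ℂ (CuspForm Γ1M 2)) : k :=
  red φ (qCoeff (t G) 1)

/-- **The mod-`𝔪` eigencharacter.** -/
theorem exists_thetaBar (G : CuspForm Γ1M 2) (hG : IsChi χ G) (a : ℕ → ℤbar) (c : ℕ → ℤbar)
    (hc : ∀ n : ℕ, n.Coprime M → (c n : ℂ) = qCoeff G n)
    (hc1 : φ (c 1) = 1)
    (hrel : ∀ (p : ℕ) (hp : p.Prime) (hpM : ¬ p ∣ M) (n : ℕ), n.Coprime M →
      φ (c (n * p)) + (if p ∣ n then (p : k) * φ (χ (unitP hp hpM)) * φ (c (n / p)) else 0) =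
        φ (a p) * φ (c n)) :
    ∃ θ : T2 M →+* k,
      (∀ (p : ℕ) (hp : p.Prime) (hpM : ¬ p ∣ M), θ (heckeAlgebra1.T hp hpM) = φ (a p)) ∧
      ∀ d : (ZMod M)ˣ, θ (heckeAlgebra1.dia d) = φ (χ d) := by
  classical
  have hGi : IsInt G := fun n hn => by rw [← hc n hn]; exact (c n).2
  have redG : ∀ n : ℕ, n.Coprime M → red φ (qCoeff G n) = φ (c n) := fun n hn => by
    rw [← hc n hn, red_coe]
  have hone : (1 : ℕ).Coprime M := Nat.coprime_one_left M
  -- the defect `T_p G - a_p G`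
  have hD : ∀ (p : ℕ) (hp : p.Prime) (hpM : ¬ p ∣ M),
      IsChi χ (heckeT1 hp hpM G - (a p : ℂ) • G) ∧ IsInt (heckeT1 hp hpM G - (a p : ℂ) • G) ∧
        IsZeroMod φ (heckeT1 hp hpM G - (a p : ℂ) • G) := by
    intro p hp hpM
    have hTi : IsInt (heckeT1 hp hpM G) := hGi.heckeT1 hG hp hpM
    have hai : IsInt ((a p : ℂ) • G) := hGi.smul (a p).2
    refine ⟨(hG.heckeT1 hp hpM).sub (hG.smul _), hTi.sub hai, fun n hn => ?_⟩
    have hpint : IsIntegral ℤ (p : ℂ) := by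
      have := isIntegral_algebraMap (R := ℤ) (A := ℂ) (x := (p : ℤ))
      simpa using this
    rw [qc_sub, red_sub φ (hTi n hn) (hai n hn), qc_smul, red_mul φ (a p).2 (hGi n hn),
      red_coe, redG n hn, qc_heckeT1 hG hp hpM, ← hrel p hp hpM n hn, sub_eq_zero]
    split_ifs with hpn
    · have h1 := hGi _ (coprime_div hn hpn)
      rw [red_add φ (hGi _ (coprime_mul_prime hn hp hpM))
        (hpint.mul ((χ (unitP hp hpM)).2.mul h1)), redG _ (coprime_mul_prime hn hp hpM),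
        red_mul φ hpint ((χ (unitP hp hpM)).2.mul h1), red_mul φ (χ (unitP hp hpM)).2 h1,
        redG _ (coprime_div hn hpn), red_natCast, red_coe, mul_assoc]
    · rw [add_zero, add_zero, redG _ (coprime_mul_prime hn hp hpM)]
  -- images of `G`
  have hsG : ∀ s ∈ T2 M, IsChi χ (s G) ∧ IsInt (s G) := fun s hs =>
    (pres_of_mem (φ := φ) (χ := χ) hs).1 G hG hGi
  -- additivity
  have hadd : ∀ s ∈ T2 M, ∀ t ∈ T2 M, psi φ G (s + t) = psi φ G s + psi φ G t := by
    intro s hs t ht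
    rw [psi, psi, psi, LinearMap.add_apply, qc_add,
      red_add φ ((hsG s hs).2 1 hone) ((hsG t ht).2 1 hone)]
  -- the generators act by scalars on `psi`
  have hT : ∀ (p : ℕ) (hp : p.Prime) (hpM : ¬ p ∣ M), ∀ s ∈ T2 M,
      psi φ G (heckeT1 hp hpM * s) = φ (a p) * psi φ G s := by
    intro p hp hpM s hs
    have hcomm : (heckeT1 hp hpM : Module.End ℂ (CuspForm Γ1M 2)) * s = s * heckeT1 hp hpM := by
      have := mul_comm (heckeAlgebra1.T hp hpM : T2 M) ⟨s, hs⟩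
      exact congrArg Subtype.val this
    obtain ⟨hD1, hD2, hD3⟩ := hD p hp hpM
    have hsD := (pres_of_mem (φ := φ) (χ := χ) hs).2 _ hD1 hD2 hD3
    have hsDi := ((pres_of_mem (φ := φ) (χ := χ) hs).1 _ hD1 hD2).2
    have e : (s * (heckeT1 hp hpM : Module.End ℂ (CuspForm Γ1M 2))) G =
        (a p : ℂ) • s G + s (heckeT1 hp hpM G - (a p : ℂ) • G) := by
      rw [Module.End.mul_apply, map_sub, map_smul]
      abel
    rw [psi, psi, hcomm, e, qc_add, qc_smul,
      red_add φ ((a p).2.mul ((hsG s hs).2 1 hone)) (hsDi 1 hone), hsD 1 hone, add_zero,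
      red_mul φ (a p).2 ((hsG s hs).2 1 hone), red_coe]
  have hDia : ∀ d : (ZMod M)ˣ, ∀ s ∈ T2 M,
      psi φ G (diamond d * s) = φ (χ d) * psi φ G s := by
    intro d s hs
    rw [psi, psi, Module.End.mul_apply, (hsG s hs).1 d, qc_smul,
      red_mul φ (χ d).2 ((hsG s hs).2 1 hone), red_coe]
  -- every element of the algebra acts by a scalar on `psi`
  have key : ∀ t ∈ T2 M, ∃ l : k, ∀ s ∈ T2 M, psi φ G (t * s) = l * psi φ G s := by
    intro t ht
    refine Algebra.adjoin_induction (R := ℤ) (s := heckeGenerators1 M 2)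
      (p := fun t _ => ∃ l : k, ∀ s ∈ T2 M, psi φ G (t * s) = l * psi φ G s) ?_ ?_ ?_ ?_ ht
    · rintro t (⟨p, hp, hpM, rfl⟩ | ⟨d, rfl⟩)
      · exact ⟨_, hT p hp hpM⟩
      · exact ⟨_, hDia d⟩
    · intro r
      refine ⟨(r : k), fun s hs => ?_⟩
      have e : (algebraMap ℤ (Module.End ℂ (CuspForm Γ1M 2)) r * s) G = r • s G := by
        rw [Module.End.mul_apply, Algebra.algebraMap_eq_smul_one, LinearMap.smul_apply,
          Module.End.one_apply]
      have hrint : IsIntegral ℤ (r : ℂ) := by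
        have := isIntegral_algebraMap (R := ℤ) (A := ℂ) (x := r)
        simpa using this
      rw [psi, psi, e, qc_zsmul, red_mul φ hrint ((hsG s hs).2 1 hone), red_intCast]
    · rintro t t' ht ht' ⟨l, hl⟩ ⟨l', hl'⟩
      refine ⟨l + l', fun s hs => ?_⟩
      rw [add_mul, hadd _ ((T2 M).mul_mem ht hs) _ ((T2 M).mul_mem ht' hs), hl s hs, hl' s hs,
        add_mul]
    · rintro t t' ht ht' ⟨l, hl⟩ ⟨l', hl'⟩
      refine ⟨l * l', fun s hs => ?_⟩
      rw [mul_assoc, hl _ ((T2 M).mul_mem ht' hs), hl' s hs, mul_assoc]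
  have hpsi1 : psi φ G 1 = 1 := by
    rw [psi, Module.End.one_apply, redG 1 hone, hc1]
  have hmul : ∀ t ∈ T2 M, ∀ s ∈ T2 M, psi φ G (t * s) = psi φ G t * psi φ G s := by
    intro t ht s hs
    obtain ⟨l, hl⟩ := key t ht
    have h1 := hl 1 (T2 M).one_mem
    rw [mul_one, hpsi1, mul_one] at h1
    rw [hl s hs, h1]
  refine ⟨{ toFun := fun t => psi φ G t.1
            map_one' := hpsi1
            map_mul' := fun t s => hmul t.1 t.2 s.1 s.2
            map_zero' := by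
              show psi φ G 0 = 0
              rw [psi, LinearMap.zero_apply, qc_zero, red_zero]
            map_add' := fun t s => hadd t.1 t.2 s.1 s.2 }, fun p hp hpM => ?_, fun d => ?_⟩
  · have := hT p hp hpM 1 (T2 M).one_mem
    rw [mul_one, hpsi1, mul_one] at this
    exact this
  · have := hDia d 1 (T2 M).one_mem
    rw [mul_one, hpsi1, mul_one] at this
    exact this

end Main

end Fermat.Agent.DS.W1.ThetaBar7
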