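/-
Programme DS (S48), brick W1-LIFT, final assembly (helper7): **the eigensystem of a weight one
eigenform occurs modulo `ℓ` in the weight two Hecke algebra of `Γ₁(c N ℓ²)`**
(`Contract.EigenCharModL`), by the depletion route:

`G := - f(τ) · E(N₁ τ)`, `N₁ = c N ℓ`, `E = eisInt` the integral weight one Eisenstein series of level
`ℓ` attached to the inverse Teichmüller character `ψ` of `φ : ℤbar →+* k`.  The coefficients of `G`
of index prime to `M = ℓ N₁` only involve the coefficients of `f` of index prime to `M`, which are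
polynomials in the `a_p`, `ε(p)` (`p ∤ N`), hence algebraic integers (`IntegralMain7`), and
`a_n(G) ≡ a_n(f)` modulo `ker φ`.  `ThetaBar7.exists_thetaBar` then gives the character.
-/
import Mathlib
import Fermat.Agent.DS.G.Top.Contract
import Fermat.Agent.DS.W1.ThetaBar7
import Fermat.Agent.DS.W1.IntegralMain7
import Fermat.Agent.DS.W1.Teich20
import Fermat.Agent.DS.W1.Prod11
import Fermat.Agent.DS.Neb.Main

set_option autoImplicit false
set_option linter.unusedSectionVars false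

open Matrix.SpecialLinearGroup UpperHalfPlane CongruenceSubgroup ModularForm
open scoped MatrixGroups ModularForm

namespace Fermat.Agent.DS.W1.Final7

open Fermat.Agent.DS.Hecke1.Cosets Fermat.Agent.DS.Hecke1.Diamond Fermat.Agent.DS.Hecke1.HeckeT1
open Fermat.Agent.DS.Hecke1.QExp Fermat.Agent.DS.Hecke1.Comm Fermat.Agent.DS.Hecke1.Algebra
open Fermat.Agent.DS.Hecke1.Extras
open Fermat.Agent.DS.W1.ThetaBar7 Fermat.Agent.DS.W1.IntegralAp7 Fermat.Agent.DS.W1.Dilate
open Fermat.Agent.DS.W1.IntegralMain7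
open Fermat.Agent.DS.W1.Product Fermat.Agent.DS ModularFormClass

local notation "ℤbar" => integralClosure ℤ ℂ
local notation "Γ1(" n ")" => ((Gamma1 n : Subgroup SL(2, ℤ)) : Subgroup (GL (Fin 2) ℝ))

/-! ### Generalities -/

section Red

variable {k : Type*} [Field k] (φ : ℤbar →+* k)

theorem red_sum {ι : Type*} (S : Finset ι) (g : ι → ℂ) (hg : ∀ x ∈ S, IsIntegral ℤ (g x)) :
    red φ (∑ x ∈ S, g x) = ∑ x ∈ S, red φ (g x) := by
  classical
  induction S using Finset.induction_on with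
  | empty => simp [red_zero]
  | insert a S ha ih =>
    rw [Finset.sum_insert ha, Finset.sum_insert ha,
      red_add φ (hg a (Finset.mem_insert_self a S))
        (IsIntegral.sum _ fun x hx => hg x (Finset.mem_insert_of_mem hx)),
      ih fun x hx => hg x (Finset.mem_insert_of_mem hx)]

theorem red_neg {x : ℂ} (hx : IsIntegral ℤ x) : red φ (-x) = -red φ x := by
  have h := red_sub φ isIntegral_zero hx
  rwa [zero_sub, red_zero, zero_sub] at h

end Red

section Coprime

variable {N : ℕ} [NeZero N] {ε : DirichletCharacter ℂ N} {f : CuspForm Γ1(N) 1}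

/-- The coefficients of index prime to `N` of an eigenform with integral `a_p` are integral. -/
theorem isIntegral_qCoeff_of_coprime (hf : Iface.IsEigen N ε f)
    (hint : ∀ p : ℕ, p.Prime → ¬ p ∣ N → IsIntegral ℤ (qCoeff f p)) :
    ∀ n : ℕ, 0 < n → n.Coprime N → IsIntegral ℤ (qCoeff f n) := by
  intro n
  induction n using Nat.strong_induction_on with
  | _ n ih =>
    intro hn0 hn
    rcases Nat.lt_or_ge 1 n with h1 | h1
    · have hp : (n.minFac).Prime := Nat.minFac_prime (by omega)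
      set p := n.minFac with hpdef
      have hpn : p ∣ n := Nat.minFac_dvd n
      have hpN : ¬ p ∣ N := fun h =>
        hp.one_lt.ne' (Nat.eq_one_of_dvd_coprimes hn hpn h)
      set m := n / p with hm
      have hmp : p * m = n := Nat.mul_div_cancel' hpn
      have hm0 : 0 < m := Nat.div_pos (Nat.le_of_dvd hn0 hpn) hp.pos
      have hmn : m < n := Nat.div_lt_self hn0 hp.one_lt
      have hmN : m.Coprime N := Nat.Coprime.coprime_dvd_left (Nat.div_dvd_of_dvd hpn) hn
      have h := hf.hecke p hp hpN m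
      rw [hmp] at h
      have e : qCoeff f n = qCoeff f p * qCoeff f m -
          ε (p : ZMod N) * (if p ∣ m then qCoeff f (m / p) else 0) := by
        rw [← h]; ring
      rw [e]
      refine ((hint p hp hpN).mul (ih m hmn hm0 hmN)).sub ((isIntegral_dirichlet ε _).mul ?_)
      split_ifs with hpm
      · exact ih (m / p) (lt_of_le_of_lt (Nat.div_le_self m p) hmn)
          (Nat.div_pos (Nat.le_of_dvd hm0 hpm) hp.pos)
          (Nat.Coprime.coprime_dvd_left (Nat.div_dvd_of_dvd hpm) hmN)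
      · exact isIntegral_zero
    · have : n = 1 := by omega
      subst this
      rw [hf.one]
      exact isIntegral_one

end Coprime

/-! ### The Eisenstein series and its nebentypus -/

section Eis

open Fermat.Agent.DS.Eis1.Congr

variable {ℓ : ℕ} [Fact ℓ.Prime] {ψ : DirichletCharacter ℂ ℓ}

theorem diamondMod_eisInt (hodd : ψ.Odd) (u : (ZMod ℓ)ˣ) :
    diamondMod u (eisInt hodd) = ψ (u : ZMod ℓ) • eisInt hodd := by
  apply DFunLike.coe_injective
  rw [coe_diamondMod u (lift_mem u) (lr_lift u),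
    Fermat.Agent.DS.W1.Prod11.eisInt_slash_lr hodd _ (lift_mem u), lr_lift]
  rfl

end Eis

/-! ### The construction -/

section Main

open Fermat.Agent.DS.Eis1.Congr

variable {N : ℕ} [NeZero N] (ε : DirichletCharacter ℂ N) (f : CuspForm Γ1(N) 1)

/-- The values of `ε` as elements of `ℤbar`. -/
noncomputable def epsBar (a : ZMod N) : ℤbar := ⟨ε a, isIntegral_dirichlet ε a⟩

@[simp] theorem coe_epsBar (a : ZMod N) : ((epsBar ε a : ℤbar) : ℂ) = ε a := rfl

variable {ℓ : ℕ} [Fact ℓ.Prime] {k : Type*} [Field k] [CharP k ℓ] (φ : ℤbar →+* k)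
variable (N₁ : ℕ) [NeZero N₁]

theorem exists_theta (hf : Iface.IsEigen N ε f)
    (hint : ∀ p : ℕ, p.Prime → ¬ p ∣ N → IsIntegral ℤ (qCoeff f p))
    (hℓ2 : ℓ ≠ 2) (hNN₁ : N ∣ N₁) (hℓN₁ : ℓ ∣ N₁) :
    ∃ θ : T2 (ℓ * N₁) →+* k, ∀ (p : ℕ) (hp : p.Prime) (hpM : ¬ p ∣ ℓ * N₁),
      ∃ a e : ℤbar, (a : ℂ) = qCoeff f p ∧ (e : ℂ) = ε (p : ZMod N) ∧
        θ (heckeAlgebra1.T hp hpM) = φ a ∧
        (p : k) * θ (heckeAlgebra1.dia (unitP hp hpM)) = φ e := by
  classical
  have hℓ : ℓ.Prime := Fact.out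
  obtain ⟨ψ, hodd, t, c₀, hψt, htφ, hc₀, hc00, hc0n⟩ :=
    Fermat.Agent.DS.W1.Teich20.exists_eisInt_congr ℓ hℓ2 k φ
  have hNM : N ∣ ℓ * N₁ := hNN₁.trans (Dvd.intro_left ℓ rfl)
  have hℓM : ℓ ∣ ℓ * N₁ := Dvd.intro N₁ rfl
  have hMpos : 0 < ℓ * N₁ := Nat.pos_of_ne_zero (NeZero.ne _)
  -- primes dividing the level divide `N₁`
  have hprime : ∀ q : ℕ, q.Prime → q ∣ ℓ * N₁ → q ∣ N₁ := by
    intro q hq hqM
    rcases (Nat.Prime.dvd_mul hq).mp hqM with h | h
    · exact h.trans hℓN₁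
    · exact h
  have hcopN : ∀ n : ℕ, n.Coprime (ℓ * N₁) → n.Coprime N := fun n hn =>
    Nat.Coprime.coprime_dvd_right hNM hn
  have hcop0 : ∀ n : ℕ, n.Coprime (ℓ * N₁) → 0 < n := by
    intro n hn
    rcases Nat.eq_zero_or_pos n with h | h
    · exfalso
      rw [h, Nat.coprime_zero_left] at hn
      have := Nat.le_of_dvd hMpos hℓM
      have := hℓ.one_lt
      omega
    · exact h
  have hfint : ∀ n : ℕ, n.Coprime (ℓ * N₁) → IsIntegral ℤ (qCoeff f n) := fun n hn =>
    isIntegral_qCoeff_of_coprime hf hint n (hcop0 n hn) (hcopN n hn)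
  -- the forms
  set E'' : ModularForm Γ1(ℓ * N₁) 1 := dilMod N₁ (eisInt hodd) with hE''
  set G₀ : CuspForm Γ1(ℓ * N₁) 2 := mulLevel₂ hNM (dvd_refl (ℓ * N₁)) f E'' with hG₀
  set G : CuspForm Γ1(ℓ * N₁) 2 := (-1 : ℂ) • G₀ with hG
  -- coefficients of `E''`
  set e'' : ℕ → ℂ := fun j => if N₁ ∣ j then (c₀ (j / N₁) : ℂ) else 0 with he''
  have hE''c : ∀ j, qCoeff E'' j = e'' j := by
    intro j
    rw [hE'', qCoeff_dilMod, he'']
    dsimp only
    split_ifs with h
    · exact hc₀ _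
    · rfl
  have he''int : ∀ j, IsIntegral ℤ (e'' j) := by
    intro j
    rw [he'']
    dsimp only
    split_ifs
    · exact (c₀ _).2
    · exact isIntegral_zero
  have he''0 : red φ (e'' 0) = -1 := by
    rw [he'']
    dsimp only
    rw [if_pos (dvd_zero N₁), Nat.zero_div, red_coe, hc00]
  have he''pos : ∀ j, j ≠ 0 → red φ (e'' j) = 0 := by
    intro j hj
    rw [he'']
    dsimp only
    split_ifs with h
    · rw [red_coe]
      refine hc0n _ ?_
      obtain ⟨q, rfl⟩ := h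
      have hN₁0 : 0 < N₁ := Nat.pos_of_ne_zero (NeZero.ne N₁)
      rw [Nat.mul_div_cancel_left _ hN₁0]
      rintro rfl
      exact hj (mul_zero _)
    · exact red_zero φ
  -- the depleted coefficients of `f`
  set s : ℕ → ℂ := fun i => if i.Coprime (ℓ * N₁) then qCoeff f i else 0 with hs
  have hsint : ∀ i, IsIntegral ℤ (s i) := by
    intro i
    rw [hs]
    dsimp only
    split_ifs with h
    · exact hfint i h
    · exact isIntegral_zero
  have hG₀c : ∀ n : ℕ, n.Coprime (ℓ * N₁) → qCoeff G₀ n =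
      ∑ x ∈ Finset.HasAntidiagonal.antidiagonal n, s x.1 * e'' x.2 := by
    intro n hn
    rw [hG₀, qCoeff_mulLevel₂]
    refine Finset.sum_congr rfl fun x hx => ?_
    rw [Finset.HasAntidiagonal.mem_antidiagonal] at hx
    rw [hE''c]
    by_cases hb : N₁ ∣ x.2
    · have hx1 : (x.1).Coprime (ℓ * N₁) := by
        refine Nat.coprime_of_dvd fun q hq hq1 hqM => ?_
        have hq2 : q ∣ x.2 := (hprime q hq hqM).trans hb
        have hqn : q ∣ n := by rw [← hx]; exact dvd_add hq1 hq2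
        exact hq.one_lt.ne' (Nat.eq_one_of_dvd_coprimes hn hqn hqM)
      rw [hs]
      dsimp only
      rw [if_pos hx1]
    · have : e'' x.2 = 0 := by rw [he'']; dsimp only; rw [if_neg hb]
      rw [this, mul_zero, mul_zero]
  have hG₀int : ∀ n : ℕ, n.Coprime (ℓ * N₁) → IsIntegral ℤ (qCoeff G₀ n) := by
    intro n hn
    rw [hG₀c n hn]
    exact IsIntegral.sum _ fun x _ => (hsint _).mul (he''int _)
  have hG₀red : ∀ n : ℕ, n.Coprime (ℓ * N₁) → red φ (qCoeff G₀ n) = -red φ (qCoeff f n) := by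
    intro n hn
    rw [hG₀c n hn, red_sum φ _ _ fun x _ => (hsint _).mul (he''int _),
      Finset.sum_eq_single (n, 0)]
    · rw [red_mul φ (hsint _) (he''int _), he''0, mul_neg, mul_one, hs]
      dsimp only
      rw [if_pos hn]
    · intro x hx hne
      rw [Finset.HasAntidiagonal.mem_antidiagonal] at hx
      have h2 : x.2 ≠ 0 := by
        intro h2
        apply hne
        ext
        · simp only; omega
        · simpa using h2
      rw [red_mul φ (hsint _) (he''int _), he''pos _ h2, mul_zero]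
    · intro hn'
      exact absurd (Finset.HasAntidiagonal.mem_antidiagonal.mpr (add_zero n)) hn'
  have hGc : ∀ n : ℕ, qCoeff G n = -qCoeff G₀ n := by
    intro n
    rw [hG, qc_smul]
    ring
  have hGint : ∀ n : ℕ, n.Coprime (ℓ * N₁) → IsIntegral ℤ (qCoeff G n) := fun n hn => by
    rw [hGc]; exact (hG₀int n hn).neg
  have hGred : ∀ n : ℕ, n.Coprime (ℓ * N₁) → red φ (qCoeff G n) = red φ (qCoeff f n) := by
    intro n hn
    rw [hGc, red_neg φ (hG₀int n hn), hG₀red n hn, neg_neg]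
  -- the data for `exists_thetaBar`
  set c : ℕ → ℤbar := fun n => if h : IsIntegral ℤ (qCoeff G n) then ⟨_, h⟩ else 0 with hc
  set a : ℕ → ℤbar := fun p => if h : IsIntegral ℤ (qCoeff f p) then ⟨_, h⟩ else 0 with ha
  set χ : (ZMod (ℓ * N₁))ˣ → ℤbar := fun d =>
    epsBar ε ((ZMod.unitsMap hNM d : (ZMod N)ˣ) : ZMod N) *
      t ((ZMod.unitsMap hℓM d : (ZMod ℓ)ˣ) : ZMod ℓ) with hχ
  have hcc : ∀ n : ℕ, n.Coprime (ℓ * N₁) → (c n : ℂ) = qCoeff G n := by
    intro n hn
    rw [hc]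
    dsimp only
    rw [dif_pos (hGint n hn)]
  have hcφ : ∀ n : ℕ, n.Coprime (ℓ * N₁) → φ (c n) = red φ (qCoeff f n) := by
    intro n hn
    rw [← hGred n hn, ← hcc n hn, red_coe]
  have haφ : ∀ p : ℕ, p.Prime → ¬ p ∣ N → (a p : ℂ) = qCoeff f p := by
    intro p hp hpN
    rw [ha]
    dsimp only
    rw [dif_pos (hint p hp hpN)]
  -- nebentypus of `G`
  have hGχ : ∀ d : (ZMod (ℓ * N₁))ˣ, diamond d G = (χ d : ℂ) • G := by
    intro d
    have hf1 : diamond (ZMod.unitsMap hNM d) f =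
        ε ((ZMod.unitsMap hNM d : (ZMod N)ˣ) : ZMod N) • f :=
      Fermat.Agent.DS.Neb.Main.diamond_eq_of_isEigen hf _
    have hE1 : diamondMod (ZMod.unitsMap (dvd_refl (ℓ * N₁)) d) E'' =
        ψ ((ZMod.unitsMap hℓM d : (ZMod ℓ)ˣ) : ZMod ℓ) • E'' := by
      rw [ZMod.unitsMap_self, MonoidHom.id_apply, hE'']
      exact diamondMod_dilMod_of_eigen N₁ d (eisInt hodd) (diamondMod_eisInt hodd _)
    have h1 := diamond_mulLevel₂_of_eigen hNM (dvd_refl (ℓ * N₁)) d f E'' hf1 hE1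
    rw [← hG₀] at h1
    rw [hG, map_smul, h1, smul_comm, hχ]
    dsimp only
    rw [MulMemClass.coe_mul, coe_epsBar, hψt]
  -- `p ψ(p) ≡ 1`
  have hpχ : ∀ (p : ℕ) (hp : p.Prime) (hpM : ¬ p ∣ ℓ * N₁),
      (p : k) * φ (χ (unitP hp hpM)) = φ (epsBar ε (p : ZMod N)) := by
    intro p hp hpM
    have hpℓ : ((p : ℕ) : ZMod ℓ) ≠ 0 := by
      rw [Ne, ZMod.natCast_eq_zero_iff]
      intro h
      exact hpM ((Nat.prime_dvd_prime_iff_eq hℓ hp).mp h ▸ hℓM)
    have h1 : ((ZMod.unitsMap hNM (unitP hp hpM) : (ZMod N)ˣ) : ZMod N) = (p : ZMod N) := by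
      rw [ZMod.unitsMap_val, coe_unitP, ZMod.cast_natCast hNM]
    have h2 : ((ZMod.unitsMap hℓM (unitP hp hpM) : (ZMod ℓ)ˣ) : ZMod ℓ) = (p : ZMod ℓ) := by
      rw [ZMod.unitsMap_val, coe_unitP, ZMod.cast_natCast hℓM]
    have h3 := htφ (p : ZMod ℓ) hpℓ
    rw [Fermat.Agent.DS.W1.Teich20.natCast_val_eq, Fermat.Agent.DS.W1.Teich20.primeMap,
      map_natCast] at h3
    rw [hχ]
    dsimp only
    rw [h1, h2, map_mul, mul_comm, mul_assoc, h3, mul_one]
  have hone : (1 : ℕ).Coprime (ℓ * N₁) := Nat.coprime_one_left _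
  obtain ⟨θ, hθT, hθD⟩ := exists_thetaBar (φ := φ) (χ := χ) G hGχ a c hcc
    (by rw [hcφ 1 hone, hf.one, red_one]) (by
      intro p hp hpM n hn
      have hpN : ¬ p ∣ N := fun h => hpM (h.trans hNM)
      have hnp : (n * p).Coprime (ℓ * N₁) := coprime_mul_prime hn hp hpM
      have h := hf.hecke p hp hpN n
      rw [mul_comm p n] at h
      have hεint := isIntegral_dirichlet ε (p : ZMod N)
      rw [hcφ _ hnp, hcφ n hn, ← red_coe φ (a p), haφ p hp hpN,
        ← red_mul φ (hint p hp hpN) (hfint n hn), ← h]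
      split_ifs with hpn
      · have hnd : (n / p).Coprime (ℓ * N₁) := coprime_div hn hpn
        rw [hcφ _ hnd, hpχ p hp hpM, red_add φ (hfint _ hnp) (hεint.mul (hfint _ hnd)),
          red_mul φ hεint (hfint _ hnd), ← coe_epsBar, red_coe]
      · rw [mul_zero, add_zero, add_zero])
  refine ⟨θ, fun p hp hpM => ?_⟩
  have hpN : ¬ p ∣ N := fun h => hpM (h.trans hNM)
  refine ⟨a p, epsBar ε (p : ZMod N), haφ p hp hpN, rfl, hθT p hp hpM, ?_⟩
  rw [hθD, hpχ p hp hpM]

end Main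

/-! ### The contract -/

section Contract

open Fermat.Agent.DS.G.Top.Contract

/-- An integer weight one form of level `L` with constant term `1`. -/
def HasAuxForm (L : ℕ) : Prop :=
  ∃ A : ModularForm Γ1(L) 1, qCoeff A 0 = 1 ∧ ∀ n : ℕ, ∃ z : ℤ, qCoeff A n = z

/-- **Integrality of the eigenvalues** `a_p`, `p ∤ N`, of a weight one eigenform, from the
finiteness of the weight two Hecke algebras and two auxiliary forms of coprime levels. -/
theorem isIntegral_qCoeff_of_finite (hfin : ∀ (M : ℕ) [NeZero M], Module.Finite ℤ (T2 M))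
    (hA3 : HasAuxForm 3) (hA7 : HasAuxForm 7) {N : ℕ} [NeZero N] (ε : DirichletCharacter ℂ N)
    (f : CuspForm Γ1(N) 1) (hf : Iface.IsEigen N ε f) (p : ℕ) (hp : p.Prime) (hpN : ¬ p ∣ N) :
    IsIntegral ℤ (qCoeff f p) := by
  by_cases h7 : p = 7
  · obtain ⟨A, hA0, hAint⟩ := hA3
    have := hfin (3 * (N * 3))
    refine isIntegral_qCoeff (L := 3) ε f hf A hA0 hAint hp hpN ?_
    rw [h7]
    norm_num
  · obtain ⟨A, hA0, hAint⟩ := hA7
    have := hfin (7 * (N * 7))
    refine isIntegral_qCoeff (L := 7) ε f hf A hA0 hAint hp hpN ?_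
    intro h
    exact h7 ((Nat.prime_dvd_prime_iff_eq hp (by norm_num)).mp h)

/-- **W1-LIFT** (`Contract.EigenCharModL`), from the finiteness over `ℤ` of the weight two Hecke
algebras of the groups `Γ₁(M)`. -/
theorem eigenCharModL (hfin : ∀ (M : ℕ) [NeZero M], Module.Finite ℤ (T2 M))
    (hA3 : HasAuxForm 3) (hA7 : HasAuxForm 7) (c N : ℕ) [NeZero c] [NeZero N]
    (ε : DirichletCharacter ℂ N) (f : CuspForm (Gamma1 N) 1) (hf : Iface.IsEigen N ε f) :
    EigenCharModL c c N ε f := by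
  classical
  have hint := isIntegral_qCoeff_of_finite hfin hA3 hA7 ε f hf
  refine ⟨{2}, fun ℓ hℓ hℓB k _ _ φ => ?_⟩
  have hℓ2 : ℓ ≠ 2 := fun h => hℓB (by rw [h]; exact Finset.mem_singleton_self 2)
  have : Fact ℓ.Prime := ⟨hℓ⟩
  have : NeZero ℓ := ⟨hℓ.ne_zero⟩
  have hNN₁ : N ∣ c * N * ℓ := ⟨c * ℓ, by ring⟩
  have hℓN₁ : ℓ ∣ c * N * ℓ := Dvd.intro_left _ rfl
  obtain ⟨θ, hθ⟩ := exists_theta ε f φ (c * N * ℓ) hf hint hℓ2 hNN₁ hℓN₁
  refine ⟨ℓ * (c * N * ℓ), inferInstance, θ, ⟨ℓ * N * ℓ, by ring⟩, fun p hp hpM => ?_,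
    fun p hp hpM => hθ p hp hpM⟩
  rcases (Nat.Prime.dvd_mul hp).mp hpM with h | h
  · exact h.trans hℓN₁
  · exact h

end Contract

end Fermat.Agent.DS.W1.Final7
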