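/-
Programme DS (S48), brick W2-FIN (helper7): **W1-LIFT**, final form.

`Fermat.Agent.DS.W1.Final.eigenCharModL` : if all weight two Hecke algebras `T2 M` of the groups
`Γ₁(M)` are finite over `ℤ` (deliverable PER-F of the period chapter), then for every weight one
eigenform `f` (in the sense of `Iface.IsEigen`) and every `c ≠ 0` the contract
`Contract.EigenCharModL c c N ε f` holds: for every prime `ℓ ≠ 2`, every field `k` of characteristic
`ℓ` and every `φ : ℤbar →+* k` there is a character `θ` of `T2 (c N ℓ²)` with `θ(T_p) = φ(a_p)`,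
`p θ(⟨p⟩) = φ(ε(p))` for all primes `p ∤ c N ℓ`; in particular the `a_p`, `p ∤ N`, are algebraic
integers (`isIntegral_qCoeff`).

Pieces: `ThetaBar7` (abstract character), `IntegralAp7`/`IntegralMain7` (integrality of `a_p`),
`Final7` (assembly), helper2's `Dilate`/`Product`, helper11's `Prod11`/`AuxInt11`, helper20's `Teich20`,
helper27's `Eis1`, helper2's `Neb` and `Hecke1`.
-/
import Mathlib
import Fermat.Agent.DS.W1.Final7
import Fermat.Agent.DS.W1.AuxInt11

set_option autoImplicit false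

open CongruenceSubgroup
open scoped MatrixGroups

namespace Fermat.Agent.DS.W1.Final

open Fermat.Agent.DS.Hecke1.Algebra Fermat.Agent.DS.G.Top.Contract Fermat.Agent.DS
open Fermat.Agent.DS.W1.Final7 Fermat.Agent.DS.W1.AuxInt11 ModularFormClass

theorem hasAuxForm_three : HasAuxForm 3 := by
  obtain ⟨A, h0, hint, -⟩ := exists_auxInt_three
  exact ⟨A, h0, fun n => by obtain ⟨z, hz⟩ := hint n; exact ⟨z, hz.symm⟩⟩

theorem hasAuxForm_seven : HasAuxForm 7 := by
  obtain ⟨A, h0, hint, -⟩ := exists_auxInt_seven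
  exact ⟨A, h0, fun n => by obtain ⟨z, hz⟩ := hint n; exact ⟨z, hz.symm⟩⟩

/-- The eigenvalues `a_p`, `p ∤ N`, of a weight one eigenform are algebraic integers. -/
theorem isIntegral_qCoeff (hfin : ∀ (M : ℕ) [NeZero M], Module.Finite ℤ (T2 M)) {N : ℕ} [NeZero N]
    (ε : DirichletCharacter ℂ N) (f : CuspForm (Gamma1 N) 1) (hf : Iface.IsEigen N ε f) (p : ℕ)
    (hp : p.Prime) (hpN : ¬ p ∣ N) : IsIntegral ℤ (qCoeff f p) :=
  isIntegral_qCoeff_of_finite hfin hasAuxForm_three hasAuxForm_seven ε f hf p hp hpN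

/-- **W1-LIFT.** -/
theorem eigenCharModL (hfin : ∀ (M : ℕ) [NeZero M], Module.Finite ℤ (T2 M)) (c N : ℕ) [NeZero c]
    [NeZero N] (ε : DirichletCharacter ℂ N) (f : CuspForm (Gamma1 N) 1)
    (hf : Iface.IsEigen N ε f) : EigenCharModL c c N ε f :=
  Final7.eigenCharModL hfin hasAuxForm_three hasAuxForm_seven c N ε f hf

end Fermat.Agent.DS.W1.Final
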