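/-
Programme DS (S48), W1-LIFT, UNCONDITIONAL form (helper7): `W1.Final.eigenCharModL` with the
finiteness of the Hecke algebras `T2 M` supplied by the period chapter
(`Per1.EigenGamma1.finite_T2`, helper91).

* `eigenCharModL c N ε f hf : Contract.EigenCharModL c c N ε f` for every `c ≠ 0`;
* `isIntegral_qCoeff` : the eigenvalues `a_p` (`p ∤ N`) of a weight one eigenform are algebraic
  integers;
* `eigenCharModL_four : EigenCharModL 4 2 N ε f`, `eigenCharModL_nine : EigenCharModL 9 3 N ε f`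
  (the shapes consumed by `Asm/GeoGlue.s48_of_geo`).
-/
import Mathlib
import Fermat.Agent.DS.W1.Final
import Fermat.Agent.DS.Per1.EigenGamma1
import Fermat.Agent.DS.G.Top.ContractMono

set_option autoImplicit false

open CongruenceSubgroup
open scoped MatrixGroups

namespace Fermat.Agent.DS.W1.Uncond7

open Fermat.Agent.DS.Hecke1.Algebra Fermat.Agent.DS.G.Top.Contract Fermat.Agent.DS
open Fermat.Agent.DS.G.Top.ContractMono ModularFormClass

/-- **W1-LIFT**, unconditional. -/
theorem eigenCharModL (c N : ℕ) [NeZero c] [NeZero N] (ε : DirichletCharacter ℂ N)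
    (f : CuspForm (Gamma1 N) 1) (hf : Iface.IsEigen N ε f) : EigenCharModL c c N ε f :=
  Final.eigenCharModL (fun M _ => Fermat.Agent.DS.Per1.EigenGamma1.finite_T2 M) c N ε f hf

/-- The eigenvalues `a_p`, `p ∤ N`, of a weight one eigenform are algebraic integers. -/
theorem isIntegral_qCoeff {N : ℕ} [NeZero N] (ε : DirichletCharacter ℂ N)
    (f : CuspForm (Gamma1 N) 1) (hf : Iface.IsEigen N ε f) (p : ℕ) (hp : p.Prime)
    (hpN : ¬ p ∣ N) : IsIntegral ℤ (qCoeff f p) :=
  Final.isIntegral_qCoeff (fun M _ => Fermat.Agent.DS.Per1.EigenGamma1.finite_T2 M) ε f hf p hp hpN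

theorem eigenCharModL_four (N : ℕ) [NeZero N] (ε : DirichletCharacter ℂ N)
    (f : CuspForm (Gamma1 N) 1) (hf : Iface.IsEigen N ε f) : EigenCharModL 4 2 N ε f :=
  Fermat.Agent.DS.G.Top.ContractMono.eigenCharModL_four (eigenCharModL 4 N ε f hf)

theorem eigenCharModL_nine (N : ℕ) [NeZero N] (ε : DirichletCharacter ℂ N)
    (f : CuspForm (Gamma1 N) 1) (hf : Iface.IsEigen N ε f) : EigenCharModL 9 3 N ε f :=
  Fermat.Agent.DS.G.Top.ContractMono.eigenCharModL_nine (eigenCharModL 9 N ε f hf)

end Fermat.Agent.DS.W1.Uncond7
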