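/-
Programme DS (S48), brick W1-L3 (helper92): **bounded denominators, Hecke-lattice form**.

Classical argument: if the full Hecke algebra acting on a space of forms is a finitely generated
`ℤ`-module (it preserves a lattice), then for every form `g` all `q`-coefficients `a_n(g)` lie in
the finitely generated `ℤ`-module `{a_1(T g) : T ∈ 𝕋}`.  Consequently the coefficients of `g`
have bounded denominators at every place simultaneously, and `g` can be normalised with respect
to any valuation ring.

* `coeff_mem_map`  : abstract form (a space `V`, coefficient functionals `a n`, operators `T p`,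
  `D p` with `a_n(T_p g) = a_{np}(g) + [p ∣ n] a_{n/p}(D_p g)`, a `ℤ`-submodule `𝕋` of `End V`
  containing `1` and stable under left multiplication by the `T p`, `D p`);
* `fg_span_coeff`   : the `ℤ`-span of the coefficients of `g` is finitely generated when `𝕋` is;
* `fg_span_coeff_of_subalgebra` : the same for a `ℤ`-subalgebra `𝕋` containing the `T p`, `D p`;
* `exists_normalization` : a sequence in a field whose `ℤ`-span is finitely generated, not
  identically zero, can be normalised with respect to any valuation subring: there is `n₀` with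
  `c n₀ ≠ 0` and `c n / c n₀ ∈ A` for all `n`;
* `exists_smul_mem_subring` : bounded denominators with respect to a subring with a given
  "fraction" property.

(Remark: the statement "the ring of Laurent series with coefficients in a discrete valuation ring
`O` is integrally closed in the Laurent series over its fraction field" is FALSE:
`y = p (1 + q/p)^{1/2}` satisfies `y² = p² + p q`.)
-/
import Mathlib

set_option autoImplicit false

namespace Fermat.Agent.DS.W1.Bdd92

section abstract

variable {R : Type*} [CommRing R] {V C : Type*} [AddCommGroup V] [Module R V]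
  [AddCommGroup C] [Module R C]

/-- The additive map `S ↦ a (S g)` on endomorphisms. -/
def evalCoeff (a : V →ₗ[R] C) (g : V) : Module.End R V →ₗ[ℤ] C where
  toFun S := a (S g)
  map_add' S S' := by rw [LinearMap.add_apply, map_add]
  map_smul' z S := by
    rw [LinearMap.smul_apply, map_zsmul, RingHom.id_apply]

@[simp] theorem evalCoeff_apply (a : V →ₗ[R] C) (g : V) (S : Module.End R V) :
    evalCoeff a g S = a (S g) := rfl

variable (a : ℕ → V →ₗ[R] C) (T D : ℕ → Module.End R V)

/-- **Coefficients from the first coefficient.**  Assume the formal Hecke relations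
`a_n(T_p g) = a_{np}(g) + [p ∣ n] a_{n/p}(D_p g)` for all primes `p`, and let `𝕋` be a
`ℤ`-submodule of `End V` containing `1` and stable under left multiplication by all `T p`, `D p`.
Then every coefficient `a_n(g)`, `n ≥ 1`, is of the form `a_1(S g)` with `S ∈ 𝕋`. -/
theorem coeff_mem_map
    (hT : ∀ p : ℕ, p.Prime → ∀ (n : ℕ) (g : V),
      a n (T p g) = a (n * p) g + if p ∣ n then a (n / p) (D p g) else 0)
    (𝕋 : Submodule ℤ (Module.End R V)) (h1 : (1 : Module.End R V) ∈ 𝕋)
    (hTT : ∀ p : ℕ, p.Prime → ∀ S ∈ 𝕋, T p * S ∈ 𝕋)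
    (hDT : ∀ p : ℕ, p.Prime → ∀ S ∈ 𝕋, D p * S ∈ 𝕋)
    (g : V) (n : ℕ) (hn : 0 < n) : a n g ∈ 𝕋.map (evalCoeff (a 1) g) := by
  -- stronger statement, for all `S ∈ 𝕋`
  have key : ∀ n : ℕ, 0 < n → ∀ S ∈ 𝕋, a n (S g) ∈ 𝕋.map (evalCoeff (a 1) g) := by
    intro n
    induction n using Nat.strong_induction_on with
    | _ n ih =>
      intro hn S hS
      rcases Nat.lt_or_ge 1 n with h1n | h1n
      · -- `n = m * p`
        obtain ⟨p, hp, hpn⟩ := Nat.exists_prime_and_dvd (Nat.ne_of_gt h1n)
        obtain ⟨m, rfl⟩ := hpn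
        have hmpos : 0 < m := Nat.pos_of_ne_zero (by rintro rfl; simp at hn)
        have hmlt : m < p * m := by
          have := hp.two_le
          nlinarith
        have hrel := hT p hp m (S g)
        rw [mul_comm m p] at hrel
        have h1 : a (p * m) (S g) =
            a m (T p (S g)) - if p ∣ m then a (m / p) (D p (S g)) else 0 := by
          rw [hrel]; abel
        rw [h1]
        refine Submodule.sub_mem _ ?_ ?_
        · exact ih m hmlt hmpos (T p * S) (hTT p hp S hS)
        · split_ifs with hpm
          · have hdivpos : 0 < m / p := Nat.div_pos (Nat.le_of_dvd hmpos hpm) hp.pos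
            have hdivlt : m / p < p * m := lt_of_le_of_lt (Nat.div_le_self m p) hmlt
            exact ih (m / p) hdivlt hdivpos (D p * S) (hDT p hp S hS)
          · exact Submodule.zero_mem _
      · -- `n = 1`
        have hn1 : n = 1 := le_antisymm h1n hn
        subst hn1
        exact Submodule.mem_map.mpr ⟨S, hS, rfl⟩
  have := key n hn 1 h1
  rwa [Module.End.one_apply] at this

/-- **Finite generation of the coefficient module.** -/
theorem fg_span_coeff
    (hT : ∀ p : ℕ, p.Prime → ∀ (n : ℕ) (g : V),
      a n (T p g) = a (n * p) g + if p ∣ n then a (n / p) (D p g) else 0)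
    (𝕋 : Submodule ℤ (Module.End R V)) (hfg : 𝕋.FG) (h1 : (1 : Module.End R V) ∈ 𝕋)
    (hTT : ∀ p : ℕ, p.Prime → ∀ S ∈ 𝕋, T p * S ∈ 𝕋)
    (hDT : ∀ p : ℕ, p.Prime → ∀ S ∈ 𝕋, D p * S ∈ 𝕋) (g : V) :
    (Submodule.span ℤ (Set.range fun n : ℕ => a (n + 1) g)).FG := by
  set Λ : Submodule ℤ C := 𝕋.map (evalCoeff (a 1) g) with hΛ
  have hΛfg : Λ.FG := hfg.map _
  have hle : Submodule.span ℤ (Set.range fun n : ℕ => a (n + 1) g) ≤ Λ := by
    rw [Submodule.span_le]
    rintro x ⟨n, rfl⟩
    exact coeff_mem_map a T D hT 𝕋 h1 hTT hDT g (n + 1) n.succ_pos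
  have hnoeth : IsNoetherian ℤ Λ := isNoetherian_of_fg_of_noetherian Λ hΛfg
  exact (isNoetherian_submodule.mp hnoeth) _ hle

/-- The same for a `ℤ`-subalgebra of `End V` containing the operators. -/
theorem fg_span_coeff_of_subalgebra
    (hT : ∀ p : ℕ, p.Prime → ∀ (n : ℕ) (g : V),
      a n (T p g) = a (n * p) g + if p ∣ n then a (n / p) (D p g) else 0)
    (𝕋 : Subalgebra ℤ (Module.End R V)) (hfg : (Subalgebra.toSubmodule 𝕋).FG)
    (hTmem : ∀ p : ℕ, p.Prime → T p ∈ 𝕋) (hDmem : ∀ p : ℕ, p.Prime → D p ∈ 𝕋) (g : V) :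
    (Submodule.span ℤ (Set.range fun n : ℕ => a (n + 1) g)).FG :=
  fg_span_coeff a T D hT (Subalgebra.toSubmodule 𝕋) hfg (Subalgebra.one_mem 𝕋)
    (fun p hp _ hS => Subalgebra.mul_mem 𝕋 (hTmem p hp) hS)
    (fun p hp _ hS => Subalgebra.mul_mem 𝕋 (hDmem p hp) hS) g

end abstract

section normalization

variable {K : Type*} [Field K]

/-- Among finitely many elements of a field, not all zero, one divides all the others with
respect to a given valuation subring. -/
theorem exists_dvd_finset (A : ValuationSubring K) (F : Finset K) (hF : ∃ x ∈ F, x ≠ 0) :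
    ∃ x₀ ∈ F, x₀ ≠ 0 ∧ ∀ x ∈ F, x / x₀ ∈ A := by
  classical
  induction F using Finset.induction_on with
  | empty => obtain ⟨x, hx, _⟩ := hF; simp at hx
  | insert y F hy ih =>
    by_cases hF' : ∃ x ∈ F, x ≠ 0
    · obtain ⟨x₀, hx₀, hx₀0, hall⟩ := ih hF'
      by_cases hy0 : y = 0
      · refine ⟨x₀, Finset.mem_insert_of_mem hx₀, hx₀0, fun x hx => ?_⟩
        rcases Finset.mem_insert.mp hx with rfl | hx
        · rw [hy0, zero_div]; exact A.zero_mem
        · exact hall x hx
      · rcases A.mem_or_inv_mem (y / x₀) with h | h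
        · refine ⟨x₀, Finset.mem_insert_of_mem hx₀, hx₀0, fun x hx => ?_⟩
          rcases Finset.mem_insert.mp hx with rfl | hx
          · exact h
          · exact hall x hx
        · refine ⟨y, Finset.mem_insert_self y F, hy0, fun x hx => ?_⟩
          rcases Finset.mem_insert.mp hx with rfl | hx
          · rw [div_self hy0]; exact A.one_mem
          · have : x / y = (x / x₀) * (y / x₀)⁻¹ := by
              field_simp
            rw [this]
            exact A.mul_mem _ _ (hall x hx) h
    · -- all elements of `F` vanish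
      have hF0 : ∀ x ∈ F, x = 0 := fun x hx => by
        by_contra h
        exact hF' ⟨x, hx, h⟩
      have hy0 : y ≠ 0 := by
        obtain ⟨x, hx, hx0⟩ := hF
        rcases Finset.mem_insert.mp hx with rfl | hx
        · exact hx0
        · exact absurd (hF0 x hx) hx0
      refine ⟨y, Finset.mem_insert_self y F, hy0, fun x hx => ?_⟩
      rcases Finset.mem_insert.mp hx with rfl | hx
      · rw [div_self hy0]; exact A.one_mem
      · rw [hF0 x hx, zero_div]; exact A.zero_mem

/-- **Normalisation.**  A sequence in a field, not identically zero, whose `ℤ`-span is finitely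
generated can be normalised with respect to any valuation subring. -/
theorem exists_normalization (A : ValuationSubring K) (c : ℕ → K)
    (hfg : (Submodule.span ℤ (Set.range c)).FG) (hne : ∃ n, c n ≠ 0) :
    ∃ n₀, c n₀ ≠ 0 ∧ ∀ n, c n / c n₀ ∈ A := by
  classical
  obtain ⟨F, hFsub, hFspan⟩ := (Submodule.fg_span_iff_fg_span_finset_subset _).mp hfg
  -- some element of `F` is nonzero
  have hF : ∃ x ∈ F, x ≠ 0 := by
    by_contra hall
    have hall' : ∀ x ∈ F, x = 0 := fun x hx => by
      by_contra h
      exact hall ⟨x, hx, h⟩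
    obtain ⟨n, hn⟩ := hne
    have hmem : c n ∈ Submodule.span ℤ (F : Set K) := by
      rw [← hFspan]
      exact Submodule.subset_span ⟨n, rfl⟩
    have hbot : Submodule.span ℤ (F : Set K) = ⊥ := by
      rw [Submodule.span_eq_bot]
      exact fun x hx => hall' x hx
    rw [hbot, Submodule.mem_bot] at hmem
    exact hn hmem
  obtain ⟨x₀, hx₀F, hx₀0, hall⟩ := exists_dvd_finset A F hF
  obtain ⟨n₀, hn₀⟩ := hFsub hx₀F
  refine ⟨n₀, by rw [hn₀]; exact hx₀0, fun n => ?_⟩
  rw [hn₀]
  -- `{x | x / x₀ ∈ A}` is an additive subgroup containing `F`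
  let S : Submodule ℤ K :=
    { carrier := {x | x / x₀ ∈ A}
      add_mem' := fun {x y} hx hy => by
        show (x + y) / x₀ ∈ A
        rw [add_div]
        exact A.add_mem _ _ hx hy
      zero_mem' := by
        show (0 : K) / x₀ ∈ A
        rw [zero_div]
        exact A.zero_mem
      smul_mem' := fun z x hx => by
        show (z • x) / x₀ ∈ A
        rw [zsmul_eq_mul, mul_div_assoc]
        exact A.mul_mem _ _ (by exact_mod_cast (algebraMap ℤ A z).2) hx }
  have hle : Submodule.span ℤ (F : Set K) ≤ S := Submodule.span_le.mpr fun x hx => hall x hx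
  have hmem : c n ∈ Submodule.span ℤ (F : Set K) := by
    rw [← hFspan]
    exact Submodule.subset_span ⟨n, rfl⟩
  exact hle hmem

/-- **Bounded denominators** with respect to a subring `O` of a field such that every element of
the sequence is a fraction with denominator in `O`. -/
theorem exists_smul_mem_subring (O : Subring K) (c : ℕ → K)
    (hfg : (Submodule.span ℤ (Set.range c)).FG)
    (hfrac : ∀ n, ∃ d ∈ O, d ≠ 0 ∧ d * c n ∈ O) :
    ∃ d ∈ O, d ≠ 0 ∧ ∀ n, d * c n ∈ O := by
  classical
  obtain ⟨F, hFsub, hFspan⟩ := (Submodule.fg_span_iff_fg_span_finset_subset _).mp hfg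
  have hFfrac : ∀ x ∈ F, ∃ d ∈ O, d ≠ 0 ∧ d * x ∈ O := by
    intro x hx
    obtain ⟨n, rfl⟩ := hFsub hx
    exact hfrac n
  -- a common denominator for `F`
  have hcommon : ∃ d ∈ O, d ≠ 0 ∧ ∀ x ∈ F, d * x ∈ O := by
    clear hFsub hFspan
    induction F using Finset.induction_on with
    | empty => exact ⟨1, O.one_mem, one_ne_zero, fun x hx => by simp at hx⟩
    | insert y F hy ih =>
      obtain ⟨d, hdO, hd0, hd⟩ := ih fun x hx => hFfrac x (Finset.mem_insert_of_mem hx)
      obtain ⟨d', hd'O, hd'0, hd'⟩ := hFfrac y (Finset.mem_insert_self y F)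
      refine ⟨d * d', O.mul_mem hdO hd'O, mul_ne_zero hd0 hd'0, fun x hx => ?_⟩
      rcases Finset.mem_insert.mp hx with rfl | hx
      · rw [mul_assoc]
        exact O.mul_mem hdO hd'
      · rw [mul_comm d d', mul_assoc]
        exact O.mul_mem hd'O (hd x hx)
  obtain ⟨d, hdO, hd0, hd⟩ := hcommon
  refine ⟨d, hdO, hd0, fun n => ?_⟩
  let S : Submodule ℤ K :=
    { carrier := {x | d * x ∈ O}
      add_mem' := fun {x y} hx hy => by
        show d * (x + y) ∈ O
        rw [mul_add]
        exact O.add_mem hx hy
      zero_mem' := by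
        show d * (0 : K) ∈ O
        rw [mul_zero]
        exact O.zero_mem
      smul_mem' := fun z x hx => by
        show d * (z • x) ∈ O
        rw [zsmul_eq_mul, mul_left_comm]
        exact O.mul_mem (intCast_mem O z) hx }
  have hle : Submodule.span ℤ (F : Set K) ≤ S := Submodule.span_le.mpr fun x hx => hd x hx
  have hmem : c n ∈ Submodule.span ℤ (F : Set K) := by
    rw [← hFspan]
    exact Submodule.subset_span ⟨n, rfl⟩
  exact hle hmem

end normalization

end Fermat.Agent.DS.W1.Bdd92
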