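/-
Programme DS (S48), brick W1-LIFT / L0 (helper2): conjugation of weight one cusp forms WITHOUT
raising the level.

`exists_conj_of_dvd` : if `N ∣ M`, `L ∣ M`, `S₂(Γ₁(M))` is `Aut ℂ`-stable (`Wt2AutStable M`) and `A` is a
nonzero weight one modular form on `Γ₁(L)` with rational `q`-expansion, then for `σ ∈ Aut ℂ` and
`f ∈ S₁(Γ₁(N))` there is `g ∈ S₁(Γ₁(M))` with `a_n(g) = σ (a_n(f))`.
(Same proof as `ConjGlue.exists_conj`, which is the case `M = N * L`.)

`autStable_same` : for `L ∣ M`, `S₁(Γ₁(M))` is stable under `Aut ℂ` at the SAME level.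
-/
import Mathlib
import Fermat.Agent.DS.W1.ConjGlue

set_option autoImplicit false

open Complex Filter Topology Set Function CongruenceSubgroup
open UpperHalfPlane hiding I
open scoped Manifold MatrixGroups ModularForm

namespace Fermat.Agent.DS.W1.ConjSame

open Fermat.Agent.DS.W1.Forms Fermat.Agent.DS.W1.Removable Fermat.Agent.DS.Rankin.CuspBound
open Fermat.Agent.DS.W1.ConjGlue
open Fermat.Agent.DS

section Main

variable (M N L : ℕ) [NeZero M] [NeZero N] [NeZero L]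

local notation "ΓM" => ((Gamma1 M : Subgroup SL(2, ℤ)) : Subgroup (GL (Fin 2) ℝ))

theorem exists_conj_of_dvd (hN : N ∣ M) (hL : L ∣ M) (hW : Wt2AutStable M)
    (A : ModularForm (Gamma1 L) 1)
    (hA : (A : ℍ → ℂ) ≠ 0) (hAQ : ∀ n : ℕ, ∃ r : ℚ, ModularFormClass.qCoeff A n = r)
    (σ : ℂ ≃+* ℂ) (f : CuspForm (Gamma1 N) 1) :
    ∃ g : CuspForm (Gamma1 M) 1,
      ∀ n : ℕ, ModularFormClass.qCoeff g n = σ (ModularFormClass.qCoeff f n) := by
  -- restriction to level `M`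
  set f' : CuspForm ΓM 1 := restrictCusp (map_Gamma1_le_of_dvd hN) f with hf'
  set A' : ModularForm ΓM 1 := restrictMod (map_Gamma1_le_of_dvd hL) A with hA'
  set fm : ModularForm ΓM 1 := ModularFormClass.modularForm f' with hfm
  have hfA' : (A' : ℍ → ℂ) = A := rfl
  have hff' : (f' : ℍ → ℂ) = f := rfl
  have hfmf : (fm : ℍ → ℂ) = f := rfl
  -- the weight two products
  set P₁ : CuspForm ΓM 2 := CuspForm.mcast (by norm_num) (f'.mulModularForm A') with hP₁
  set P₂ : CuspForm ΓM 2 := CuspForm.mcast (by norm_num) (f'.mulModularForm fm) with hP₂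
  have hP₁c : (P₁ : ℍ → ℂ) = (f : ℍ → ℂ) * A := rfl
  have hP₂c : (P₂ : ℍ → ℂ) = (f : ℍ → ℂ) * f := rfl
  obtain ⟨G₁, hG₁⟩ := hW σ P₁
  obtain ⟨G₂, hG₂⟩ := hW σ P₂
  -- goodness
  have gf : Good (f : ℍ → ℂ) := hff' ▸ good_of_form (M := M) f'
  have gA : Good (A : ℍ → ℂ) := hfA' ▸ good_of_form (M := M) A'
  have gG₁ : Good (G₁ : ℍ → ℂ) := good_of_form (M := M) G₁
  have gG₂ : Good (G₂ : ℍ → ℂ) := good_of_form (M := M) G₂
  -- `q`-expansions
  set φ := qExpansion 1 (f : ℍ → ℂ) with hφ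
  set α := qExpansion 1 (A : ℍ → ℂ) with hα
  have hσα : PowerSeries.map (σ : ℂ →+* ℂ) α = α := by
    ext n
    rw [PowerSeries.coeff_map]
    obtain ⟨r, hr⟩ := hAQ n
    rw [qCoeff_eq] at hr
    rw [hα, hr]
    exact map_ratCast (σ : ℂ →+* ℂ) r
  have hqG₁ : qExpansion 1 (G₁ : ℍ → ℂ) = PowerSeries.map (σ : ℂ →+* ℂ) φ * α := by
    have : qExpansion 1 (G₁ : ℍ → ℂ) = PowerSeries.map (σ : ℂ →+* ℂ) (φ * α) := by
      ext n
      rw [PowerSeries.coeff_map, ← gf.qExpansion_mul gA, ← hP₁c]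
      exact hG₁ n
    rw [this, map_mul, hσα]
  have hqG₂ : qExpansion 1 (G₂ : ℍ → ℂ) =
      PowerSeries.map (σ : ℂ →+* ℂ) φ * PowerSeries.map (σ : ℂ →+* ℂ) φ := by
    have : qExpansion 1 (G₂ : ℍ → ℂ) = PowerSeries.map (σ : ℂ →+* ℂ) (φ * φ) := by
      ext n
      rw [PowerSeries.coeff_map, ← gf.qExpansion_mul gf, ← hP₂c]
      exact hG₂ n
    rw [this, map_mul]
  -- the key identity `G₁ ² = G₂ A ²`
  set G₁m : ModularForm ΓM 2 := ModularFormClass.modularForm G₁ with hG₁m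
  have gAA : Good ((A : ℍ → ℂ) * A) := by
    have := good_of_form (M := M) (A'.mul A')
    exact this
  have gL : Good ((G₁ : ℍ → ℂ) * G₁) := by
    have := good_of_form (M := M) (G₁.mulModularForm G₁m)
    exact this
  have gR : Good ((G₂ : ℍ → ℂ) * ((A : ℍ → ℂ) * A)) := by
    have := good_of_form (M := M) (G₂.mulModularForm (A'.mul A'))
    exact this
  have hkey : (G₁ : ℍ → ℂ) * G₁ = (G₂ : ℍ → ℂ) * ((A : ℍ → ℂ) * A) := by
    apply gL.eq_of_qExpansion_eq gR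
    rw [gG₁.qExpansion_mul gG₁, gG₂.qExpansion_mul gAA, gA.qExpansion_mul gA, hqG₁, hqG₂, ← hα]
    ring
  -- the quotient
  obtain ⟨H, hH, hHA⟩ := exists_mdiff_mul_eq (G₁ := G₁) (G₂ := G₂) (A := A)
    gG₁.hol gG₂.hol gA.hol hA (fun τ => by
      have := congrFun hkey τ
      simp only [Pi.mul_apply] at this
      rw [sq, sq, this])
  have hHA' : H * (A : ℍ → ℂ) = G₁ := funext hHA
  have hAA0 : (A : ℍ → ℂ) * A ≠ 0 := fun h0 =>
    hA (by rcases (UpperHalfPlane.mul_eq_zero_iff gA.hol gA.hol).mp h0 with h | h <;> exact h)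
  -- `H ² = G₂`
  have hHsq : H * H = G₂ := by
    have h1 : (H * H - G₂) * ((A : ℍ → ℂ) * A) = 0 := by
      have : (H * H - (G₂ : ℍ → ℂ)) * ((A : ℍ → ℂ) * A) =
          (H * A) * (H * A) - (G₂ : ℍ → ℂ) * ((A : ℍ → ℂ) * A) := by ring
      rw [this, hHA', hkey, sub_self]
    rcases (UpperHalfPlane.mul_eq_zero_iff (hH.mul hH |>.sub gG₂.hol) (gA.hol.mul gA.hol)).mp h1
      with h | h
    · exact sub_eq_zero.mp h
    · exact absurd h hAA0
  -- slash invariance under `SL(2, ℤ)`-elements of `Γ₁(M)`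
  have hslash : ∀ γ : SL(2, ℤ), γ ∈ Gamma1 M → H ∣[(1 : ℤ)] γ = H := by
    intro γ hγ
    have hmem : (γ : GL (Fin 2) ℝ) ∈ ΓM := Subgroup.mem_map_of_mem _ hγ
    have h1 : (G₁ : ℍ → ℂ) ∣[(2 : ℤ)] γ = G₁ := by
      rw [ModularForm.SL_slash]; exact G₁.slash_action_eq' _ hmem
    have h2 : (A : ℍ → ℂ) ∣[(1 : ℤ)] γ = A := by
      rw [ModularForm.SL_slash]; exact A'.slash_action_eq' _ hmem
    have h3 : (H ∣[(1 : ℤ)] γ) * (A : ℍ → ℂ) = G₁ := by
      have := ModularForm.mul_slash_SL2 1 1 γ H (A : ℍ → ℂ)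
      rw [show ((1 : ℤ) + 1) = 2 by norm_num, hHA', h1, h2] at this
      exact this.symm
    have h4 : (H ∣[(1 : ℤ)] γ - H) * (A : ℍ → ℂ) = 0 := by
      rw [sub_mul, h3, hHA', sub_self]
    have hHγ : MDiff (H ∣[(1 : ℤ)] γ) := by
      rw [ModularForm.SL_slash]; exact hH.slash 1 _
    rcases (UpperHalfPlane.mul_eq_zero_iff (hHγ.sub hH) gA.hol).mp h4 with h | h
    · exact sub_eq_zero.mp h
    · exact absurd h hA
  -- vanishing at the cusps
  have hzero : ∀ γ : SL(2, ℤ), IsZeroAtImInfty (H ∣[(1 : ℤ)] γ) := by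
    intro γ
    apply isZeroAtImInfty_of_mul_self
    have h1 := ModularForm.mul_slash_SL2 1 1 γ H H
    rw [show ((1 : ℤ) + 1) = 2 by norm_num, hHsq] at h1
    rw [← h1]
    exact CuspFormClass.zero_at_infty_slash G₂ γ
  -- the cusp form
  let g : CuspForm ΓM 1 :=
    { toFun := H
      slash_action_eq' := by
        intro γ hγ
        obtain ⟨γ', hγ', rfl⟩ := Subgroup.mem_map.mp hγ
        have := hslash γ' hγ'
        rwa [ModularForm.SL_slash] at this
      holo' := hH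
      zero_at_cusps' := by
        intro c hc
        rw [Subgroup.IsArithmetic.isCusp_iff_isCusp_SL2Z] at hc
        rw [OnePoint.isZeroAt_iff_forall_SL2Z hc]
        intro γ _
        exact hzero γ }
  have hgH : (g : ℍ → ℂ) = H := rfl
  refine ⟨g, fun n => ?_⟩
  have gH : Good H := hgH ▸ good_of_form (M := M) g
  have h1 : qExpansion 1 H * α = PowerSeries.map (σ : ℂ →+* ℂ) φ * α := by
    rw [hα, ← gH.qExpansion_mul gA, hHA', hqG₁]
  have hα0 : α ≠ 0 := gA.qExpansion_ne_zero hA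
  have h2 : qExpansion 1 H = PowerSeries.map (σ : ℂ →+* ℂ) φ := mul_right_cancel₀ hα0 h1
  rw [qCoeff_eq, qCoeff_eq, hgH, h2, PowerSeries.coeff_map]
  rfl

/-- `S₁(Γ₁(M))` is stable under `Aut ℂ` at the same level, as soon as `S₂(Γ₁(M))` is and there
is a nonzero rational weight one form of some level `L ∣ M`. -/
theorem autStable_same (hL : L ∣ M) (hW : Wt2AutStable M) (A : ModularForm (Gamma1 L) 1)
    (hA : (A : ℍ → ℂ) ≠ 0) (hAQ : ∀ n : ℕ, ∃ r : ℚ, ModularFormClass.qCoeff A n = r)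
    (σ : ℂ ≃+* ℂ) (h : CuspForm (Gamma1 M) 1) :
    ∃ g : CuspForm (Gamma1 M) 1,
      ∀ n : ℕ, ModularFormClass.qCoeff g n = σ (ModularFormClass.qCoeff h n) :=
  exists_conj_of_dvd M M L dvd_rfl hL hW A hA hAQ σ h

end Main

end Fermat.Agent.DS.W1.ConjSame
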