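/-
Programme DS (S48), W1-LIFT helper (helper2): the depleted convolution.

Let `g n = ∑_{i + j = n} a i * [m ∣ j] c (j / m)` (the `q`-expansion of `f(τ) E(m τ)`), where every
prime factor of `M` divides `m`.  For `n` coprime to `M` only indices `i` coprime to `M` occur.
Hence if the `a i` (`i` coprime to `M`) and all `c j` are algebraic integers, so are the `g n`
(`n` coprime to `M`), and if `φ (c j) = 0` for `j ≠ 0`, then `φ (g n) = φ (c 0) φ (a n)`.
-/
import Mathlib

set_option autoImplicit false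

namespace Fermat.Agent.DS.W1.DepConv

local notation "ℤbar" => integralClosure ℤ ℂ

/-- Indices occurring in the depleted convolution stay coprime to `M`. -/
theorem coprime_of_antidiagonal {m M : ℕ} (hrad : ∀ q : ℕ, q.Prime → q ∣ M → q ∣ m)
    {n : ℕ} (hn : n.Coprime M) {i j : ℕ} (hij : i + j = n) (hmj : m ∣ j) : i.Coprime M := by
  refine Nat.coprime_of_dvd fun q hq hqi hqM => ?_
  have hqj : q ∣ j := (hrad q hq hqM).trans hmj
  have hqn : q ∣ n := hij ▸ dvd_add hqi hqj
  have := Nat.dvd_gcd hqn hqM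
  rw [hn.gcd_eq_one] at this
  exact hq.one_lt.ne' (Nat.dvd_one.mp this)

/-- **Depleted convolution**: integrality and reduction. -/
theorem exists_depleted {k : Type*} [Field k] (φ : ℤbar →+* k) (m M : ℕ)
    (hrad : ∀ q : ℕ, q.Prime → q ∣ M → q ∣ m)
    (a c : ℕ → ℂ) (aZ cZ : ℕ → ℤbar)
    (haZ : ∀ i : ℕ, i.Coprime M → (aZ i : ℂ) = a i) (hcZ : ∀ j : ℕ, (cZ j : ℂ) = c j)
    (hcj : ∀ j : ℕ, j ≠ 0 → φ (cZ j) = 0) :
    ∃ gZ : ℕ → ℤbar, ∀ n : ℕ, n.Coprime M →
      (gZ n : ℂ) = ∑ x ∈ Finset.HasAntidiagonal.antidiagonal n,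
          a x.1 * (if m ∣ x.2 then c (x.2 / m) else 0) ∧
      φ (gZ n) = φ (aZ n) * φ (cZ 0) := by
  classical
  refine ⟨fun n => ∑ x ∈ Finset.HasAntidiagonal.antidiagonal n,
    aZ x.1 * (if m ∣ x.2 then cZ (x.2 / m) else 0), fun n hn => ⟨?_, ?_⟩⟩
  · -- the value in `ℂ`
    show ((∑ x ∈ Finset.HasAntidiagonal.antidiagonal n,
      aZ x.1 * (if m ∣ x.2 then cZ (x.2 / m) else 0) : ℤbar) : ℂ) = _
    rw [show ((∑ x ∈ Finset.HasAntidiagonal.antidiagonal n,
        aZ x.1 * (if m ∣ x.2 then cZ (x.2 / m) else 0) : ℤbar) : ℂ) =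
        ∑ x ∈ Finset.HasAntidiagonal.antidiagonal n,
          ((aZ x.1 * (if m ∣ x.2 then cZ (x.2 / m) else 0) : ℤbar) : ℂ) from
      map_sum (algebraMap ℤbar ℂ) _ _]
    refine Finset.sum_congr rfl fun x hx => ?_
    rw [Finset.HasAntidiagonal.mem_antidiagonal] at hx
    by_cases hmx : m ∣ x.2
    · rw [if_pos hmx, if_pos hmx]
      push_cast
      rw [haZ x.1 (coprime_of_antidiagonal hrad hn hx hmx), hcZ]
    · rw [if_neg hmx, if_neg hmx]
      simp
  · -- the reduction
    show φ (∑ x ∈ Finset.HasAntidiagonal.antidiagonal n,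
      aZ x.1 * (if m ∣ x.2 then cZ (x.2 / m) else 0)) = _
    rw [map_sum, Finset.sum_eq_single (n, 0)]
    · simp
    · rintro ⟨i, j⟩ hx hne
      rw [Finset.HasAntidiagonal.mem_antidiagonal] at hx
      simp only at hx ⊢
      have hj : j ≠ 0 := by
        rintro rfl
        apply hne
        rw [add_zero] at hx
        rw [hx]
      by_cases hmj : m ∣ j
      · rw [if_pos hmj, map_mul]
        obtain ⟨t, rfl⟩ := hmj
        have hm0 : m ≠ 0 := by rintro rfl; exact hj (by simp)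
        have ht0 : t ≠ 0 := by rintro rfl; exact hj (by simp)
        rw [Nat.mul_div_cancel_left _ (Nat.pos_of_ne_zero hm0), hcj t ht0, mul_zero]
      · rw [if_neg hmj, mul_zero, map_zero]
    · intro h
      exact absurd (Finset.HasAntidiagonal.mem_antidiagonal.mpr (by simp)) h

end Fermat.Agent.DS.W1.DepConv
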