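/-
Programme DS (S48), W1-LIFT helper (helper2): formal eigen-sequences.

If `a 1 = 1` and `a (p n) + e p [p ∣ n] a (n / p) = a p * a n` for all primes `p ∤ N`, then for every
`n ≥ 1` coprime to `N`, `a n` lies in every subring containing the `a p`, `e p` (`p ∤ N` prime):
`mem_of_formal`.  In particular (`isIntegral_of_formal`) all `a n`, `n` coprime to `N`, are
algebraic integers as soon as the `a p` are and `e = ε` is a Dirichlet character
(`isIntegral_dirichletCharacter`).
-/
import Mathlib

set_option autoImplicit false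

namespace Fermat.Agent.DS.W1.FormalSeq

/-- Coefficients of a formal eigen-sequence at indices coprime to `N` lie in the subring generated
by the `a p` and `e p`. -/
theorem mem_of_formal {A : Type*} [CommRing A] {S : Type*} [SetLike S A] [SubringClass S A]
    (R : S) (N : ℕ) (a e : ℕ → A) (h1 : a 1 = 1)
    (hT : ∀ p : ℕ, p.Prime → ¬ p ∣ N → ∀ n : ℕ,
      a (p * n) + e p * (if p ∣ n then a (n / p) else 0) = a p * a n)
    (ha : ∀ p : ℕ, p.Prime → ¬ p ∣ N → a p ∈ R) (he : ∀ p : ℕ, p.Prime → ¬ p ∣ N → e p ∈ R) :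
    ∀ n : ℕ, n ≠ 0 → n.Coprime N → a n ∈ R := by
  intro n
  induction n using Nat.strong_induction_on with
  | _ n ih =>
    intro hn0 hcop
    rcases Nat.lt_or_ge n 2 with hlt | hge
    · have : n = 1 := by omega
      rw [this, h1]; exact one_mem R
    · set p := n.minFac with hp
      have hpp : p.Prime := Nat.minFac_prime (by omega)
      have hpn : p ∣ n := Nat.minFac_dvd n
      have hpN : ¬ p ∣ N := fun hdvd => by
        have := Nat.dvd_gcd hpn hdvd
        rw [hcop.gcd_eq_one] at this
        exact hpp.one_lt.ne' (Nat.dvd_one.mp this)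
      obtain ⟨n', hn'⟩ := hpn
      have hn'0 : n' ≠ 0 := by rintro rfl; exact hn0 (by rw [hn', mul_zero])
      have hn'lt : n' < n := by
        rw [hn']; exact lt_mul_of_one_lt_left (Nat.pos_of_ne_zero hn'0) hpp.one_lt
      have hn'cop : n'.Coprime N := Nat.Coprime.coprime_dvd_left ⟨p, by rw [hn', mul_comm]⟩ hcop
      have hrel := hT p hpp hpN n'
      rw [← hn'] at hrel
      have han' := ih n' hn'lt hn'0 hn'cop
      have : a n = a p * a n' - e p * (if p ∣ n' then a (n' / p) else 0) := by
        rw [← hrel]; ring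
      rw [this]
      refine sub_mem (mul_mem (ha p hpp hpN) han') (mul_mem (he p hpp hpN) ?_)
      split_ifs with hpn'
      · obtain ⟨n'', hn''⟩ := hpn'
        have hn''0 : n'' ≠ 0 := by rintro rfl; exact hn'0 (by rw [hn'', mul_zero])
        have hdiv : n' / p = n'' := by rw [hn'']; exact Nat.mul_div_cancel_left _ hpp.pos
        rw [hdiv]
        refine ih n'' ?_ hn''0 (Nat.Coprime.coprime_dvd_left ⟨p, by rw [hn'', mul_comm]⟩ hn'cop)
        calc n'' < n' := by
              rw [hn'']; exact lt_mul_of_one_lt_left (Nat.pos_of_ne_zero hn''0) hpp.one_lt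
          _ < n := hn'lt
      · exact zero_mem R

/-- Values of Dirichlet characters are algebraic integers. -/
theorem isIntegral_dirichletCharacter {N : ℕ} [NeZero N] (ε : DirichletCharacter ℂ N)
    (x : ZMod N) : IsIntegral ℤ (ε x) := by
  by_cases hx : IsUnit x
  · obtain ⟨u, rfl⟩ := hx
    have hpow : ε (u : ZMod N) ^ (Nat.totient N) = 1 := by
      rw [← map_pow, ← Units.val_pow_eq_pow_val, ZMod.pow_totient, Units.val_one, map_one]
    refine IsIntegral.of_pow (Nat.totient_pos.mpr (Nat.pos_of_ne_zero (NeZero.ne N))) ?_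
    rw [hpow]
    exact isIntegral_one
  · rw [ε.map_nonunit hx]
    exact isIntegral_zero

/-- Integrality of all coefficients at indices coprime to the level, from integrality of the
prime-indexed ones. -/
theorem isIntegral_of_formal {N : ℕ} [NeZero N] (ε : DirichletCharacter ℂ N) (a : ℕ → ℂ)
    (h1 : a 1 = 1)
    (hT : ∀ p : ℕ, p.Prime → ¬ p ∣ N → ∀ n : ℕ,
      a (p * n) + ε (p : ZMod N) * (if p ∣ n then a (n / p) else 0) = a p * a n)
    (ha : ∀ p : ℕ, p.Prime → ¬ p ∣ N → IsIntegral ℤ (a p)) :
    ∀ n : ℕ, n ≠ 0 → n.Coprime N → IsIntegral ℤ (a n) := by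
  intro n hn hcop
  have := mem_of_formal (integralClosure ℤ ℂ) N a (fun p => ε (p : ZMod N)) h1 hT
    (fun p hp hpN => ha p hp hpN) (fun p _ _ => isIntegral_dirichletCharacter ε _) n hn hcop
  exact this

end Fermat.Agent.DS.W1.FormalSeq
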