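/-
DS programme (S48), brick W1-L5 (helper71), abstract core: the Deligne--Serre lifting lemma
(D--S 6.11) in ring-homomorphism form, for lattices cut out by `q`-expansions.

`S` a complex vector space with a linear "`q`-expansion" map `q : S → (ℕ → ℂ)`, `gens` a set of
endomorphisms, `W ≤ S` a stable subspace, `O ⊆ ℂ` a subring with a ring homomorphism
`φ : O → k` to a field which is LOCAL (`φ x ≠ 0 → x` is a unit of `O`).
`L  = {g ∈ W | all coefficients in O}`, `L' = {g ∈ L | all coefficients in ker φ}`.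
If the generators preserve `W`, `L`, `L'` and `g₀ ∈ L ∖ L'` is an eigenvector modulo `L'` of every
generator, with eigenvalues `ev T ∈ O`, then there is a ring homomorphism
`θ : Algebra.adjoin ℤ gens →+* k` with `θ T = φ (ev T)` on the generators.
-/
import Mathlib

set_option autoImplicit false

namespace Fermat.Agent.DS.W1.LiftCore

variable {S : Type*} [AddCommGroup S] [Module ℂ S]
variable (q : S →ₗ[ℂ] (ℕ → ℂ)) (W : Submodule ℂ S) (O : Subring ℂ)
variable {k : Type*} [Field k] (φ : O →+* k)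

/-- the lattice of elements of `W` with coefficients in `O` -/
def Lat : Set S := {g | g ∈ W ∧ ∀ n, q g n ∈ O}

/-- the sublattice of elements whose coefficients lie in the kernel of `φ` -/
def Lat' : Set S := {g | g ∈ W ∧ ∀ n, ∃ h : q g n ∈ O, φ ⟨q g n, h⟩ = 0}

variable {q W O φ}

theorem lat'_subset_lat {g : S} (hg : g ∈ Lat' q W O φ) : g ∈ Lat q W O :=
  ⟨hg.1, fun n => (hg.2 n).1⟩

theorem zero_mem_lat' : (0 : S) ∈ Lat' q W O φ := by
  refine ⟨W.zero_mem, fun n => ?_⟩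
  have h0 : q 0 n = 0 := by rw [map_zero]; rfl
  refine ⟨by rw [h0]; exact O.zero_mem, ?_⟩
  have : (⟨q 0 n, by rw [h0]; exact O.zero_mem⟩ : O) = 0 := Subtype.ext h0
  rw [this, map_zero]

theorem add_mem_lat {g h : S} (hg : g ∈ Lat q W O) (hh : h ∈ Lat q W O) : g + h ∈ Lat q W O := by
  refine ⟨W.add_mem hg.1 hh.1, fun n => ?_⟩
  rw [map_add]
  exact O.add_mem (hg.2 n) (hh.2 n)

theorem add_mem_lat' {g h : S} (hg : g ∈ Lat' q W O φ) (hh : h ∈ Lat' q W O φ) :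
    g + h ∈ Lat' q W O φ := by
  refine ⟨W.add_mem hg.1 hh.1, fun n => ?_⟩
  obtain ⟨h1, e1⟩ := hg.2 n
  obtain ⟨h2, e2⟩ := hh.2 n
  have hsum : q (g + h) n = q g n + q h n := by rw [map_add]; rfl
  refine ⟨by rw [hsum]; exact O.add_mem h1 h2, ?_⟩
  have : (⟨q (g + h) n, by rw [hsum]; exact O.add_mem h1 h2⟩ : O) =
      ⟨q g n, h1⟩ + ⟨q h n, h2⟩ := Subtype.ext hsum
  rw [this, map_add, e1, e2, add_zero]

theorem neg_mem_lat' {g : S} (hg : g ∈ Lat' q W O φ) : -g ∈ Lat' q W O φ := by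
  refine ⟨W.neg_mem hg.1, fun n => ?_⟩
  obtain ⟨h1, e1⟩ := hg.2 n
  have hneg : q (-g) n = -(q g n) := by rw [map_neg]; rfl
  refine ⟨by rw [hneg]; exact O.neg_mem h1, ?_⟩
  have : (⟨q (-g) n, by rw [hneg]; exact O.neg_mem h1⟩ : O) = -⟨q g n, h1⟩ := Subtype.ext hneg
  rw [this, map_neg, e1, neg_zero]

theorem sub_mem_lat' {g h : S} (hg : g ∈ Lat' q W O φ) (hh : h ∈ Lat' q W O φ) :
    g - h ∈ Lat' q W O φ := by
  rw [sub_eq_add_neg]
  exact add_mem_lat' hg (neg_mem_lat' hh)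

theorem smul_mem_lat (c : O) {g : S} (hg : g ∈ Lat q W O) : (c : ℂ) • g ∈ Lat q W O := by
  refine ⟨W.smul_mem _ hg.1, fun n => ?_⟩
  have : q ((c : ℂ) • g) n = (c : ℂ) * q g n := by rw [map_smul]; rfl
  rw [this]
  exact O.mul_mem c.2 (hg.2 n)

theorem smul_mem_lat' (c : O) {g : S} (hg : g ∈ Lat' q W O φ) :
    (c : ℂ) • g ∈ Lat' q W O φ := by
  refine ⟨W.smul_mem _ hg.1, fun n => ?_⟩
  obtain ⟨h1, e1⟩ := hg.2 n
  have hs : q ((c : ℂ) • g) n = (c : ℂ) * q g n := by rw [map_smul]; rfl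
  refine ⟨by rw [hs]; exact O.mul_mem c.2 h1, ?_⟩
  have : (⟨q ((c : ℂ) • g) n, by rw [hs]; exact O.mul_mem c.2 h1⟩ : O) = c * ⟨q g n, h1⟩ :=
    Subtype.ext hs
  rw [this, map_mul, e1, mul_zero]

/-- an element of `Lat` multiplied by an element of the kernel of `φ` lies in `Lat'` -/
theorem smul_mem_lat'_of_ker (c : O) (hc : φ c = 0) {g : S} (hg : g ∈ Lat q W O) :
    (c : ℂ) • g ∈ Lat' q W O φ := by
  refine ⟨W.smul_mem _ hg.1, fun n => ?_⟩
  have hs : q ((c : ℂ) • g) n = (c : ℂ) * q g n := by rw [map_smul]; rfl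
  refine ⟨by rw [hs]; exact O.mul_mem c.2 (hg.2 n), ?_⟩
  have : (⟨q ((c : ℂ) • g) n, by rw [hs]; exact O.mul_mem c.2 (hg.2 n)⟩ : O) =
      c * ⟨q g n, hg.2 n⟩ := Subtype.ext hs
  rw [this, map_mul, hc, zero_mul]

/-- the property of an endomorphism used in the induction -/
def Good (q : S →ₗ[ℂ] (ℕ → ℂ)) (W : Submodule ℂ S) (O : Subring ℂ) (φ : O →+* k) (g₀ : S)
    (T : Module.End ℂ S) : Prop :=
  (∀ g ∈ W, T g ∈ W) ∧ (∀ g ∈ Lat q W O, T g ∈ Lat q W O) ∧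
    (∀ g ∈ Lat' q W O φ, T g ∈ Lat' q W O φ) ∧ ∃ c : O, T g₀ - (c : ℂ) • g₀ ∈ Lat' q W O φ

variable (hloc : ∀ x : O, φ x ≠ 0 → ∃ y : O, x * y = 1)
variable {g₀ : S} (hg₀ : g₀ ∈ Lat q W O) (hg₀' : g₀ ∉ Lat' q W O φ)

include hloc hg₀ hg₀'

omit hg₀ in
/-- uniqueness of the eigenvalue modulo the kernel of `φ` -/
theorem eigenvalue_unique {x : S} {c c' : O} (h : x - (c : ℂ) • g₀ ∈ Lat' q W O φ)
    (h' : x - (c' : ℂ) • g₀ ∈ Lat' q W O φ) : φ c = φ c' := by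
  by_contra hne
  have hd : φ (c - c') ≠ 0 := by
    rw [map_sub]
    exact sub_ne_zero.mpr hne
  obtain ⟨y, hy⟩ := hloc _ hd
  have h1 : ((c - c' : O) : ℂ) • g₀ ∈ Lat' q W O φ := by
    have : ((c - c' : O) : ℂ) • g₀ = (x - (c' : ℂ) • g₀) - (x - (c : ℂ) • g₀) := by
      rw [show ((c - c' : O) : ℂ) = (c : ℂ) - (c' : ℂ) from rfl, sub_smul]
      abel
    rw [this]
    exact sub_mem_lat' h' h
  have h2 := smul_mem_lat' y h1
  apply hg₀'
  have : (y : ℂ) • ((c - c' : O) : ℂ) • g₀ = g₀ := by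
    rw [smul_smul]
    have : (y : ℂ) * ((c - c' : O) : ℂ) = 1 := by
      rw [mul_comm, ← Subring.coe_mul, hy, Subring.coe_one]
    rw [this, one_smul]
  rwa [this] at h2

omit hloc hg₀ hg₀' in
theorem good_algebraMap (n : ℤ) :
    Good q W O φ g₀ (algebraMap ℤ (Module.End ℂ S) n) := by
  have hact : ∀ g : S, (algebraMap ℤ (Module.End ℂ S) n) g = ((n : O) : ℂ) • g := by
    intro g
    rw [Algebra.algebraMap_eq_smul_one, LinearMap.smul_apply, Module.End.one_apply,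
      Subring.coe_intCast, Int.cast_smul_eq_zsmul]
  refine ⟨fun g hg => ?_, fun g hg => ?_, fun g hg => ?_, ⟨(n : O), ?_⟩⟩
  · rw [hact]; exact W.smul_mem _ hg
  · rw [hact]; exact smul_mem_lat _ hg
  · rw [hact]; exact smul_mem_lat' _ hg
  · rw [hact, sub_self]; exact zero_mem_lat'

omit hloc hg₀ hg₀' in
theorem good_add {T T' : Module.End ℂ S} (hT : Good q W O φ g₀ T) (hT' : Good q W O φ g₀ T') :
    Good q W O φ g₀ (T + T') := by
  obtain ⟨a1, a2, a3, c, a4⟩ := hT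
  obtain ⟨b1, b2, b3, c', b4⟩ := hT'
  refine ⟨fun g hg => W.add_mem (a1 g hg) (b1 g hg), fun g hg => add_mem_lat (a2 g hg) (b2 g hg),
    fun g hg => add_mem_lat' (a3 g hg) (b3 g hg), ⟨c + c', ?_⟩⟩
  have : (T + T') g₀ - ((c + c' : O) : ℂ) • g₀ =
      (T g₀ - (c : ℂ) • g₀) + (T' g₀ - (c' : ℂ) • g₀) := by
    rw [LinearMap.add_apply, Subring.coe_add, add_smul]
    abel
  rw [this]
  exact add_mem_lat' a4 b4

omit hloc hg₀ hg₀' in
theorem good_mul {T T' : Module.End ℂ S} (hT : Good q W O φ g₀ T) (hT' : Good q W O φ g₀ T') :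
    Good q W O φ g₀ (T * T') := by
  obtain ⟨a1, a2, a3, c, a4⟩ := hT
  obtain ⟨b1, b2, b3, c', b4⟩ := hT'
  refine ⟨fun g hg => a1 _ (b1 g hg), fun g hg => a2 _ (b2 g hg),
    fun g hg => a3 _ (b3 g hg), ⟨c * c', ?_⟩⟩
  have : (T * T') g₀ - ((c * c' : O) : ℂ) • g₀ =
      T (T' g₀ - (c' : ℂ) • g₀) + (c' : ℂ) • (T g₀ - (c : ℂ) • g₀) := by
    rw [Module.End.mul_apply, map_sub, map_smul, Subring.coe_mul, smul_sub, smul_smul,
      mul_comm (c' : ℂ) (c : ℂ)]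
    abel
  rw [this]
  exact add_mem_lat' (a3 _ b4) (smul_mem_lat' c' a4)

/-- **Deligne--Serre lifting lemma, ring-homomorphism form.** -/
theorem exists_eigenchar_mod (gens : Set (Module.End ℂ S)) (ev : Module.End ℂ S → O)
    (hgens : ∀ T ∈ gens, (∀ g ∈ W, T g ∈ W) ∧ (∀ g ∈ Lat q W O, T g ∈ Lat q W O) ∧
      (∀ g ∈ Lat' q W O φ, T g ∈ Lat' q W O φ) ∧
      T g₀ - ((ev T : O) : ℂ) • g₀ ∈ Lat' q W O φ) :
    ∃ θ : ↥(Algebra.adjoin ℤ gens) →+* k,
      ∀ (T : Module.End ℂ S) (hT : T ∈ gens), θ ⟨T, Algebra.subset_adjoin hT⟩ = φ (ev T) := by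
  classical
  have key : ∀ T ∈ Algebra.adjoin ℤ gens, Good q W O φ g₀ T := by
    intro T hT
    refine Algebra.adjoin_induction (R := ℤ) (s := gens)
      (p := fun T _ => Good q W O φ g₀ T) ?_ ?_ ?_ ?_ hT
    · intro T hTg
      obtain ⟨h1, h2, h3, h4⟩ := hgens T hTg
      exact ⟨h1, h2, h3, ev T, h4⟩
    · intro n
      exact good_algebraMap n
    · intro T T' _ _ h h'
      exact good_add h h'
    · intro T T' _ _ h h'
      exact good_mul h h'
  choose! lam hlam using fun T hT => (key T hT).2.2.2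
  have huniq : ∀ {x : S} {c c' : O}, x - (c : ℂ) • g₀ ∈ Lat' q W O φ →
      x - (c' : ℂ) • g₀ ∈ Lat' q W O φ → φ c = φ c' :=
    fun h h' => eigenvalue_unique hloc hg₀' h h'
  refine ⟨{ toFun := fun T => φ (lam T.1)
            map_one' := ?_
            map_mul' := ?_
            map_zero' := ?_
            map_add' := ?_ }, ?_⟩
  · have h1 := hlam 1 (Subalgebra.one_mem _)
    have h2 : (1 : Module.End ℂ S) g₀ - ((1 : O) : ℂ) • g₀ ∈ Lat' q W O φ := by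
      rw [Module.End.one_apply, Subring.coe_one, one_smul, sub_self]
      exact zero_mem_lat'
    show φ (lam ((1 : ↥(Algebra.adjoin ℤ gens)) : Module.End ℂ S)) = 1
    rw [Subalgebra.coe_one, huniq h1 h2, map_one]
  · intro T T'
    have hT := key T.1 T.2
    have hT' := key T'.1 T'.2
    have h1 := hlam (T.1 * T'.1) (Subalgebra.mul_mem _ T.2 T'.2)
    have h2 : (T.1 * T'.1) g₀ - ((lam T.1 * lam T'.1 : O) : ℂ) • g₀ ∈ Lat' q W O φ := by
      have : (T.1 * T'.1) g₀ - ((lam T.1 * lam T'.1 : O) : ℂ) • g₀ =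
          T.1 (T'.1 g₀ - (lam T'.1 : ℂ) • g₀) + (lam T'.1 : ℂ) • (T.1 g₀ - (lam T.1 : ℂ) • g₀) := by
        rw [Module.End.mul_apply, map_sub, map_smul, Subring.coe_mul, smul_sub, smul_smul,
          mul_comm ((lam T'.1 : O) : ℂ) ((lam T.1 : O) : ℂ)]
        abel
      rw [this]
      exact add_mem_lat' (hT.2.2.1 _ (hlam T'.1 T'.2)) (smul_mem_lat' _ (hlam T.1 T.2))
    show φ (lam ((T * T' : ↥(Algebra.adjoin ℤ gens)) : Module.End ℂ S)) = _
    rw [Subalgebra.coe_mul, huniq h1 h2, map_mul]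
  · have h1 := hlam 0 (Subalgebra.zero_mem _)
    have h2 : (0 : Module.End ℂ S) g₀ - ((0 : O) : ℂ) • g₀ ∈ Lat' q W O φ := by
      rw [LinearMap.zero_apply, Subring.coe_zero, zero_smul, sub_self]
      exact zero_mem_lat'
    show φ (lam ((0 : ↥(Algebra.adjoin ℤ gens)) : Module.End ℂ S)) = 0
    rw [Subalgebra.coe_zero, huniq h1 h2, map_zero]
  · intro T T'
    have h1 := hlam (T.1 + T'.1) (Subalgebra.add_mem _ T.2 T'.2)
    have h2 : (T.1 + T'.1) g₀ - ((lam T.1 + lam T'.1 : O) : ℂ) • g₀ ∈ Lat' q W O φ := by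
      have : (T.1 + T'.1) g₀ - ((lam T.1 + lam T'.1 : O) : ℂ) • g₀ =
          (T.1 g₀ - (lam T.1 : ℂ) • g₀) + (T'.1 g₀ - (lam T'.1 : ℂ) • g₀) := by
        rw [LinearMap.add_apply, Subring.coe_add, add_smul]
        abel
      rw [this]
      exact add_mem_lat' (hlam T.1 T.2) (hlam T'.1 T'.2)
    show φ (lam ((T + T' : ↥(Algebra.adjoin ℤ gens)) : Module.End ℂ S)) = _
    rw [Subalgebra.coe_add, huniq h1 h2, map_add]
  · intro T hT
    have h1 := hlam T (Algebra.subset_adjoin hT)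
    exact huniq h1 (hgens T hT).2.2.2

end Fermat.Agent.DS.W1.LiftCore
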