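/-
DS programme (S48), brick W1-L5 (helper71), Hecke instance of the lifting lemma.

For the weight-two Hecke algebra `T2 M` of `Γ₁(M)` (helper2, `DS/Hecke1`): a cusp form `g₀` of
weight two with nebentypus `χ`, coefficients in a local subring `O ⊆ ℂ`, not all in the kernel
of `φ : O → k`, and which is an eigenvector modulo `ker φ` of all `T_p` (`p ∤ M`) with eigenvalues
`lam p`, gives a ring homomorphism `θ : T2 M →+* k` with `θ (T_p) = φ (lam p)`,
`θ ⟨d⟩ = φ (χ d)`.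
-/
import Mathlib
import Fermat.Agent.DS.W1.LiftCore
import Fermat.Agent.DS.Hecke1.Algebra
import Fermat.Agent.DS.Conj.QSpace

set_option autoImplicit false
set_option linter.unusedSectionVars false

open Matrix.SpecialLinearGroup UpperHalfPlane CongruenceSubgroup ModularForm ModularFormClass
open scoped MatrixGroups ModularForm

namespace Fermat.Agent.DS.W1.LiftHecke

open Fermat.Agent.DS.W1.LiftCore
open Fermat.Agent.DS.Hecke1.Cosets Fermat.Agent.DS.Hecke1.Diamond Fermat.Agent.DS.Hecke1.HeckeT1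
open Fermat.Agent.DS.Hecke1.QExp Fermat.Agent.DS.Hecke1.Comm Fermat.Agent.DS.Hecke1.Algebra
open Fermat.Agent.DS.Conj.QSpace

/-! ### Relational form of the abstract lemma -/

section Abstract

variable {S : Type*} [AddCommGroup S] [Module ℂ S]
variable {q : S →ₗ[ℂ] (ℕ → ℂ)} {W : Submodule ℂ S} {O : Subring ℂ}
variable {k : Type*} [Field k] {φ : O →+* k}

/-- `LiftCore.exists_eigenchar_mod` with the eigenvalues given by a relation. -/
theorem exists_eigenchar_mod' (hloc : ∀ x : O, φ x ≠ 0 → ∃ y : O, x * y = 1) {g₀ : S}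
    (hg₀ : g₀ ∈ Lat q W O) (hg₀' : g₀ ∉ Lat' q W O φ) (gens : Set (Module.End ℂ S))
    (hgens : ∀ T ∈ gens, (∀ g ∈ W, T g ∈ W) ∧ (∀ g ∈ Lat q W O, T g ∈ Lat q W O) ∧
      (∀ g ∈ Lat' q W O φ, T g ∈ Lat' q W O φ) ∧
      ∃ c : O, T g₀ - (c : ℂ) • g₀ ∈ Lat' q W O φ) :
    ∃ θ : ↥(Algebra.adjoin ℤ gens) →+* k,
      ∀ (T : Module.End ℂ S) (hT : T ∈ gens) (c : O), T g₀ - (c : ℂ) • g₀ ∈ Lat' q W O φ →
        θ ⟨T, Algebra.subset_adjoin hT⟩ = φ c := by
  classical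
  let ev : Module.End ℂ S → O := fun T =>
    if h : T ∈ gens then (hgens T h).2.2.2.choose else 0
  have hev : ∀ T (hT : T ∈ gens), T g₀ - ((ev T : O) : ℂ) • g₀ ∈ Lat' q W O φ := by
    intro T hT
    have : ev T = (hgens T hT).2.2.2.choose := dif_pos hT
    rw [this]
    exact (hgens T hT).2.2.2.choose_spec
  obtain ⟨θ, hθ⟩ := exists_eigenchar_mod hloc hg₀ hg₀' gens ev fun T hT =>
    ⟨(hgens T hT).1, (hgens T hT).2.1, (hgens T hT).2.2.1, hev T hT⟩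
  refine ⟨θ, fun T hT c hc => ?_⟩
  rw [hθ T hT]
  exact eigenvalue_unique hloc hg₀' (hev T hT) hc

end Abstract

/-! ### The Hecke algebra of `Γ₁(M)` -/

variable (M : ℕ) [NeZero M]

local notation "Γ1M" => ((Gamma1 M : Subgroup SL(2, ℤ)) : Subgroup (GL (Fin 2) ℝ))

/-- the `χ`-eigenspace of the diamond operators -/
def charSpace (χ : (ZMod M)ˣ → ℂ) : Submodule ℂ (CuspForm Γ1M 2) where
  carrier := {g | ∀ d, diamond d g = χ d • g}
  add_mem' := by
    intro a b ha hb d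
    rw [map_add, ha d, hb d, smul_add]
  zero_mem' := by
    intro d
    rw [map_zero, smul_zero]
  smul_mem' := by
    intro c g hg d
    rw [map_smul, hg d, smul_comm]

variable {M}

theorem mem_charSpace {χ : (ZMod M)ˣ → ℂ} {g : CuspForm Γ1M 2} :
    g ∈ charSpace M χ ↔ ∀ d, diamond d g = χ d • g := Iff.rfl

variable {O : Subring ℂ} {k : Type*} [Field k] (φ : O →+* k)

/-- **W1-L5, Hecke form.** -/
theorem exists_theta (hloc : ∀ x : O, φ x ≠ 0 → ∃ y : O, x * y = 1) (χ : (ZMod M)ˣ → O)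
    (g₀ : CuspForm Γ1M 2) (hχ : ∀ d, diamond d g₀ = ((χ d : O) : ℂ) • g₀)
    (hO : ∀ n, qCoeff g₀ n ∈ O)
    (hprim : ∃ n, φ ⟨qCoeff g₀ n, hO n⟩ ≠ 0) (lam : ℕ → O)
    (hcong : ∀ (p : ℕ) (hp : p.Prime) (hpM : ¬ p ∣ M) (n : ℕ),
      ∃ h : qCoeff (heckeT1 hp hpM g₀) n - ((lam p : O) : ℂ) * qCoeff g₀ n ∈ O,
        φ ⟨_, h⟩ = 0) :
    ∃ θ : T2 M →+* k,
      (∀ (p : ℕ) (hp : p.Prime) (hpM : ¬ p ∣ M), θ (heckeAlgebra1.T hp hpM) = φ (lam p)) ∧
      ∀ d : (ZMod M)ˣ, θ (heckeAlgebra1.dia d) = φ (χ d) := by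
  classical
  set χ' : (ZMod M)ˣ → ℂ := fun d => ((χ d : O) : ℂ) with hχ'
  set W := charSpace M χ' with hW
  set q := qMap M 2 with hq
  have hg₀W : g₀ ∈ W := hχ
  have hg₀ : g₀ ∈ Lat q W O := ⟨hg₀W, fun n => hO n⟩
  have hg₀' : g₀ ∉ Lat' q W O φ := by
    rintro ⟨-, h⟩
    obtain ⟨n, hn⟩ := hprim
    obtain ⟨h1, h2⟩ := h n
    exact hn h2
  -- the diamond operators
  have hdia : ∀ d : (ZMod M)ˣ, (∀ g ∈ W, diamond d g ∈ W) ∧
      (∀ g ∈ Lat q W O, diamond d g ∈ Lat q W O) ∧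
      (∀ g ∈ Lat' q W O φ, diamond d g ∈ Lat' q W O φ) ∧
      diamond d g₀ - ((χ d : O) : ℂ) • g₀ ∈ Lat' q W O φ := by
    intro d
    have hW' : ∀ g ∈ W, diamond d g = ((χ d : O) : ℂ) • g := fun g hg => hg d
    refine ⟨fun g hg => ?_, fun g hg => ?_, fun g hg => ?_, ?_⟩
    · rw [hW' g hg]; exact W.smul_mem _ hg
    · rw [hW' g hg.1]; exact smul_mem_lat _ hg
    · rw [hW' g hg.1]; exact smul_mem_lat' _ hg
    · rw [hχ d, sub_self]; exact zero_mem_lat'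
  -- the operators `T_p`
  have hcoeff : ∀ (p : ℕ) (hp : p.Prime) (hpM : ¬ p ∣ M) (g : CuspForm Γ1M 2), g ∈ W → ∀ n,
      qCoeff (heckeT1 hp hpM g) n = qCoeff g (n * p) +
        if p ∣ n then ((p : O) : ℂ) * (((χ (unitP hp hpM) : O) : ℂ) * qCoeff g (n / p)) else 0 := by
    intro p hp hpM g hg n
    rw [qCoeff_heckeT1, hg (unitP hp hpM)]
    congr 1
    split_ifs with hdvd
    · have h1 : qCoeff (⇑(χ' (unitP hp hpM) • g)) (n / p) =
          χ' (unitP hp hpM) * qCoeff g (n / p) := qCoeff_smul M 2 _ g _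
      rw [h1, Subring.coe_natCast]
      norm_num
      exact Or.inl (Or.inl rfl)
    · rfl
  have hTp : ∀ (p : ℕ) (hp : p.Prime) (hpM : ¬ p ∣ M), (∀ g ∈ W, heckeT1 hp hpM g ∈ W) ∧
      (∀ g ∈ Lat q W O, heckeT1 hp hpM g ∈ Lat q W O) ∧
      (∀ g ∈ Lat' q W O φ, heckeT1 hp hpM g ∈ Lat' q W O φ) ∧
      heckeT1 hp hpM g₀ - ((lam p : O) : ℂ) • g₀ ∈ Lat' q W O φ := by
    intro p hp hpM
    have hWstab : ∀ g ∈ W, heckeT1 hp hpM g ∈ W := by
      intro g hg d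
      rw [← heckeT1_diamond hp hpM d g, hg d, map_smul]
    refine ⟨hWstab, fun g hg => ⟨hWstab g hg.1, fun n => ?_⟩,
      fun g hg => ⟨hWstab g hg.1, fun n => ?_⟩, ⟨?_, fun n => ?_⟩⟩
    · show qCoeff (heckeT1 hp hpM g) n ∈ O
      rw [hcoeff p hp hpM g hg.1 n]
      refine O.add_mem (hg.2 _) ?_
      split_ifs
      · exact O.mul_mem (SetLike.coe_mem _) (O.mul_mem (SetLike.coe_mem _) (hg.2 _))
      · exact O.zero_mem
    · have hmem : ∀ m, ∃ h : qCoeff g m ∈ O, φ ⟨qCoeff g m, h⟩ = 0 := hg.2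
      have hval : qMap M 2 (heckeT1 hp hpM g) n = qCoeff g (n * p) +
          if p ∣ n then ((p : O) : ℂ) * (((χ (unitP hp hpM) : O) : ℂ) * qCoeff g (n / p))
          else 0 := hcoeff p hp hpM g hg.1 n
      obtain ⟨h1, e1⟩ := hmem (n * p)
      obtain ⟨h2, e2⟩ := hmem (n / p)
      by_cases hdvd : p ∣ n
      · rw [if_pos hdvd] at hval
        have hO' : q (heckeT1 hp hpM g) n ∈ O := by
          rw [hq, hval]
          exact O.add_mem h1 (O.mul_mem (SetLike.coe_mem _) (O.mul_mem (SetLike.coe_mem _) h2))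
        refine ⟨hO', ?_⟩
        have : (⟨q (heckeT1 hp hpM g) n, hO'⟩ : O) =
            ⟨qCoeff g (n * p), h1⟩ + (p : O) * (χ (unitP hp hpM) * ⟨qCoeff g (n / p), h2⟩) :=
          Subtype.ext hval
        rw [this, map_add, map_mul, map_mul, e1, e2, mul_zero, mul_zero, add_zero]
      · rw [if_neg hdvd, add_zero] at hval
        have hO' : q (heckeT1 hp hpM g) n ∈ O := by
          rw [hq, hval]
          exact h1
        refine ⟨hO', ?_⟩
        have : (⟨q (heckeT1 hp hpM g) n, hO'⟩ : O) = ⟨qCoeff g (n * p), h1⟩ := Subtype.ext hval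
        rw [this, e1]
    · exact W.sub_mem (hWstab g₀ hg₀W) (W.smul_mem _ hg₀W)
    · obtain ⟨h1, e1⟩ := hcong p hp hpM n
      have hval : q (heckeT1 hp hpM g₀ - ((lam p : O) : ℂ) • g₀) n =
          qCoeff (heckeT1 hp hpM g₀) n - ((lam p : O) : ℂ) * qCoeff g₀ n := by
        rw [map_sub, map_smul]
        rfl
      refine ⟨by rw [hval]; exact h1, ?_⟩
      have : (⟨q (heckeT1 hp hpM g₀ - ((lam p : O) : ℂ) • g₀) n, by rw [hval]; exact h1⟩ : O) =
          ⟨_, h1⟩ := Subtype.ext hval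
      rw [this, e1]
  obtain ⟨θ, hθ⟩ := exists_eigenchar_mod' (q := q) (W := W) (φ := φ) hloc hg₀ hg₀'
    (heckeGenerators1 M 2) (by
      rintro T (⟨p, hp, hpM, rfl⟩ | ⟨d, rfl⟩)
      · obtain ⟨a, b, c, e⟩ := hTp p hp hpM
        exact ⟨a, b, c, lam p, e⟩
      · obtain ⟨a, b, c, e⟩ := hdia d
        exact ⟨a, b, c, χ d, e⟩)
  refine ⟨θ, fun p hp hpM => ?_, fun d => ?_⟩
  · exact hθ (heckeT1 hp hpM) (heckeT1_mem_heckeGenerators1 hp hpM) (lam p) (hTp p hp hpM).2.2.2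
  · exact hθ (diamond d) (diamond_mem_heckeGenerators1 d) (χ d) (hdia d).2.2.2

end Fermat.Agent.DS.W1.LiftHecke
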