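/-
Programme DS (S48), W1-LIFT brick (P), final shape requested by helper7 (helper2): the product
`G(τ) = f(τ) E(m τ)` of a weight one cusp form `f` on `Γ₁(N)` and the dilation of a weight one
modular form `E` on `Γ₁(L)`, as a weight two cusp form on `Γ₁(M)` (`N ∣ M`, `L * m ∣ M`).

* `prodDil hN hL f E : CuspForm Γ₁(M) 2`;
* (P1) `coe_prodDil : ⇑G = ⇑f * vp m ⇑E`;
* (P2) `qCoeff_prodDil : a_n(G) = ∑_{i+j=n} a_i(f) * [m ∣ j] a_{j/m}(E)`;
* (P3) `diamond_prodDil_of_eigen` : nebentypus characters multiply.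
-/
import Mathlib
import Fermat.Agent.DS.W1.Product
import Fermat.Agent.DS.W1.Dilate

set_option autoImplicit false
set_option linter.unusedSectionVars false

open Matrix.SpecialLinearGroup UpperHalfPlane CongruenceSubgroup ModularForm
open scoped MatrixGroups ModularForm OnePoint Manifold

namespace Fermat.Agent.DS.W1.ProdDil

open Fermat.Agent.DS.Hecke1.Cosets Fermat.Agent.DS.Hecke1.Diamond Fermat.Agent.DS.Hecke1.HeckeT1
open Fermat.Agent.DS.Hecke1.QExp Fermat.Agent.DS.Hecke1.Extras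
open Fermat.Agent.DS.W1.Forms ModularFormClass Fermat.Agent.DS.Neb.Vp
open Fermat.Agent.DS.W1.Product Fermat.Agent.DS.W1.Dilate

variable {N L m M : ℕ} [NeZero N] [NeZero L] [NeZero m] [NeZero M]

local notation "Γ1N" => ((Gamma1 N : Subgroup SL(2, ℤ)) : Subgroup (GL (Fin 2) ℝ))
local notation "Γ1L" => ((Gamma1 L : Subgroup SL(2, ℤ)) : Subgroup (GL (Fin 2) ℝ))
local notation "Γ1M" => ((Gamma1 M : Subgroup SL(2, ℤ)) : Subgroup (GL (Fin 2) ℝ))

/-- `G(τ) = f(τ) E(m τ)` as a weight two cusp form of level `Γ₁(M)`. -/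
noncomputable def prodDil (hN : N ∣ M) (hL : L * m ∣ M) (f : CuspForm Γ1N 1)
    (E : ModularForm Γ1L 1) : CuspForm Γ1M 2 :=
  mulLevel₂ hN hL f (dilMod m E)

/-- (P1) -/
theorem coe_prodDil (hN : N ∣ M) (hL : L * m ∣ M) (f : CuspForm Γ1N 1)
    (E : ModularForm Γ1L 1) :
    (prodDil hN hL f E : ℍ → ℂ) = (f : ℍ → ℂ) * vp m (E : ℍ → ℂ) := by
  rw [prodDil, coe_mulLevel₂, coe_dilMod]

theorem prodDil_apply (hN : N ∣ M) (hL : L * m ∣ M) (f : CuspForm Γ1N 1)
    (E : ModularForm Γ1L 1) (τ : ℍ) :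
    prodDil hN hL f E τ = f τ * E (heckeDiagMatrix m • τ) := by
  have := congrFun (coe_prodDil hN hL f E) τ
  exact this

/-- (P2) -/
theorem qCoeff_prodDil (hN : N ∣ M) (hL : L * m ∣ M) (f : CuspForm Γ1N 1)
    (E : ModularForm Γ1L 1) (n : ℕ) :
    qCoeff (prodDil hN hL f E) n =
      ∑ x ∈ Finset.HasAntidiagonal.antidiagonal n,
        qCoeff f x.1 * (if m ∣ x.2 then qCoeff E (x.2 / m) else 0) := by
  rw [prodDil, qCoeff_mulLevel₂]
  refine Finset.sum_congr rfl fun x _ => ?_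
  rw [qCoeff_dilMod]

/-- (P3) -/
theorem diamond_prodDil_of_eigen (hN : N ∣ M) (hL : L * m ∣ M) (f : CuspForm Γ1N 1)
    (E : ModularForm Γ1L 1) (d : (ZMod M)ˣ) (x y : ℂ)
    (hf : diamond (ZMod.unitsMap hN d) f = x • f)
    (hE : diamondMod (ZMod.unitsMap (dvd_of_mul_right_dvd hL) d) E = y • E) :
    diamond d (prodDil hN hL f E) = (x * y) • prodDil hN hL f E := by
  refine diamond_mulLevel₂_of_eigen hN hL d f (dilMod m E) hf ?_
  refine diamondMod_dilMod_of_eigen m _ E ?_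
  have hcomp : ZMod.unitsMap (dvd_mul_right L m) (ZMod.unitsMap hL d) =
      ZMod.unitsMap (dvd_of_mul_right_dvd hL) d := by
    have := ZMod.unitsMap_comp (dvd_mul_right L m) hL
    exact DFunLike.congr_fun this d
  rw [hcomp]
  exact hE

/-- (P3), slash form of the hypothesis on `E`: if `E ∣[1] γ = y • E` for every `γ ∈ Γ₀(L)` with
lower right entry `≡ d mod L`, then the same conclusion. -/
theorem diamond_prodDil_of_slash (hN : N ∣ M) (hL : L * m ∣ M) (f : CuspForm Γ1N 1)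
    (E : ModularForm Γ1L 1) (d : (ZMod M)ˣ) (x y : ℂ)
    (hf : diamond (ZMod.unitsMap hN d) f = x • f)
    (hE : ∀ γ ∈ Gamma0 L, lr L γ = ((ZMod.unitsMap (dvd_of_mul_right_dvd hL) d : (ZMod L)ˣ) : ZMod L) →
      (E : ℍ → ℂ) ∣[(1 : ℤ)] γ = y • (E : ℍ → ℂ)) :
    diamond d (prodDil hN hL f E) = (x * y) • prodDil hN hL f E := by
  refine diamond_prodDil_of_eigen hN hL f E d x y hf ?_
  apply DFunLike.coe_injective
  rw [coe_diamondMod _ (lift_mem _) (lr_lift _), hE _ (lift_mem _) (lr_lift _)]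
  rfl

end Fermat.Agent.DS.W1.ProdDil
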